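import Mathlib.Analysis.InnerProductSpace.Trace
import Mathlib.Analysis.InnerProductSpace.PiL2

/-!
# The trace of the inverse of an isometry on a stable finite-dimensional subspace

On such a subspace a left inverse of the isometry is its adjoint, so the traces are conjugate.
-/

set_option autoImplicit false

noncomputable section

open scoped InnerProductSpace ComplexConjugate

namespace Fermat.Agent.LT.Descent

variable {E : Type*} [NormedAddCommGroup E] [InnerProductSpace ℂ E]

/-- A left inverse of an isometry is stable on the same finite-dimensional subspace, with the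
conjugate trace. -/
theorem trace_restrict_leftInverse (A : E →ₗᵢ[ℂ] E) (B : E →ₗ[ℂ] E) (hBA : ∀ x, B (A x) = x)
    (V : Submodule ℂ E) [FiniteDimensional ℂ V] (hA : ∀ x ∈ V, A.toLinearMap x ∈ V) :
    ∃ hB : ∀ x ∈ V, B x ∈ V,
      LinearMap.trace ℂ V (B.restrict hB) =
        conj (LinearMap.trace ℂ V (A.toLinearMap.restrict hA)) := by
  have hinj : Function.Injective (A.toLinearMap.restrict hA) := fun x y h =>
    Subtype.ext (A.injective (congrArg Subtype.val h))
  have hsurj : ∀ x ∈ V, ∃ y ∈ V, A y = x := fun x hx => by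
    obtain ⟨y, hy⟩ := LinearMap.injective_iff_surjective.1 hinj ⟨x, hx⟩
    exact ⟨y.1, y.2, congrArg Subtype.val hy⟩
  have hB : ∀ x ∈ V, B x ∈ V := fun x hx => by
    obtain ⟨y, hy, rfl⟩ := hsurj x hx
    rwa [hBA]
  refine ⟨hB, ?_⟩
  let b := stdOrthonormalBasis ℂ V
  rw [LinearMap.trace_eq_sum_inner _ b, LinearMap.trace_eq_sum_inner _ b, map_sum]
  refine Finset.sum_congr rfl fun i _ => ?_
  rw [inner_conj_symm, Submodule.coe_inner, Submodule.coe_inner, LinearMap.coe_restrict_apply,
    LinearMap.coe_restrict_apply, LinearIsometry.coe_toLinearMap]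
  obtain ⟨y, -, hy⟩ := hsurj _ (b i).2
  rw [← hy, hBA, A.inner_map_map]

end Fermat.Agent.LT.Descent

end
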