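import Fermat.Agent.LT.GaloisData.Fields
import Fermat.Agent.GaloisBasics.Unramified
import Mathlib.FieldTheory.Finite.Basic

/-!
# The primes of `L` over a prime of `EisField` split in `L`

If `N 𝔭 = p ^ f` and the `f`-th power of a Frobenius at `p` lies in the quaternion group, every
prime `𝔓` of `L` over `𝔭` has norm `p ^ f`, and its Frobenius has the same trace in any lift.
-/

set_option autoImplicit false

noncomputable section

open scoped NumberField Pointwise
open Fermat.Agent.GaloisBasics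
open Fermat.Agent.LT.Final (GF3)

namespace Fermat.Agent.LT.Descent

section Residue

variable (K : IntermediateField ℚ Qbar) [IsGalois ℚ K] [FiniteDimensional ℚ K]
  {A : ValuationSubring Qbar} {p : ℕ} {σ : GalQ}

omit [FiniteDimensional ℚ K] in
theorem smul_pow_sub_mem (hA : A.LiesOverPrime p) (hp : p.Prime) (hσ : A.IsFrobeniusAt σ p)
    (m : ℕ) (a : 𝓞 K) : (restrictK K σ ^ m) • a - a ^ p ^ m ∈ intIdeal K A := by
  induction m with
  | zero => simp
  | succ m ih =>
    have h : restrictK K σ • ((restrictK K σ ^ m) • a) - ((restrictK K σ ^ m) • a) ^ p ∈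
        intIdeal K A := by
      have h0 := isArithFrobAt_restrictK K hA hp hσ ((restrictK K σ ^ m) • a)
      rwa [nat_card_int_quotient_under K hA hp] at h0
    rw [← Ideal.Quotient.eq] at h ih ⊢
    rw [pow_succ' (restrictK K σ), mul_smul, h, map_pow, ih, ← map_pow, ← pow_mul, ← pow_succ]

/-- At a place with inertia fixing `K`, the norm of the prime below is `p` to the order of
Frobenius. -/
theorem absNorm_intIdeal (hA : A.LiesOverPrime p) (hp : p.Prime) (hσ : A.IsFrobeniusAt σ p)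
    (hI : ∀ τ ∈ A.inertiaSubgroupIn ℚ, τ ∈ K.fixingSubgroup) :
    Ideal.absNorm (intIdeal K A) = p ^ orderOf (restrictK K σ) := by
  classical
  have := intIdeal_isMaximal K hA hp
  have : Fact p.Prime := ⟨hp⟩
  have hne : intIdeal K A ≠ ⊥ := fun h => by
    have := natCast_mem_intIdeal K hA
    rw [h, Ideal.mem_bot, Nat.cast_eq_zero] at this
    exact hp.ne_zero this
  let : Field (𝓞 K ⧸ intIdeal K A) := Ideal.Quotient.field _
  have : Finite (𝓞 K ⧸ intIdeal K A) := Ring.HasFiniteQuotients.finiteQuotient hne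
  let := Fintype.ofFinite (𝓞 K ⧸ intIdeal K A)
  have : CharP (𝓞 K ⧸ intIdeal K A) p := by
    refine (CharP.charP_iff_prime_eq_zero hp).mpr ?_
    rw [← map_natCast (Ideal.Quotient.mk (intIdeal K A))]
    exact Ideal.Quotient.eq_zero_iff_mem.mpr (natCast_mem_intIdeal K hA)
  obtain ⟨d', -, hd⟩ := FiniteField.card (𝓞 K ⧸ intIdeal K A) p
  obtain ⟨d, hd0, hde⟩ : ∃ d, 0 < d ∧ (d' : ℕ) = d := ⟨d', d'.2, rfl⟩
  rw [hde] at hd
  have hnorm : Ideal.absNorm (intIdeal K A) = p ^ d := by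
    rw [Ideal.absNorm_apply, Submodule.cardQuot_apply, Nat.card_eq_fintype_card]
    exact hd
  rw [hnorm]
  congr 1
  have hd1 : restrictK K σ ^ d = 1 := by
    have hin : restrictK K σ ^ d ∈ (intIdeal K A).inertia (K ≃ₐ[ℚ] K) := fun a => by
      have h := smul_pow_sub_mem K hA hp hσ d a
      rw [← Ideal.Quotient.eq] at h
      rw [Submodule.mem_toAddSubgroup, ← Ideal.Quotient.eq, h, map_pow, ← hd,
        FiniteField.pow_card]
    rw [← map_inertiaSubgroupIn K hA hp, Subgroup.mem_map] at hin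
    obtain ⟨τ, hτ, e⟩ := hin
    rw [← e, ← MonoidHom.mem_ker, ker_restrictK]
    exact hI τ hτ
  refine Nat.le_antisymm ?_ (Nat.le_of_dvd hd0 (orderOf_dvd_of_pow_eq_one hd1))
  set m := orderOf (restrictK K σ) with hm
  have hm0 : 0 < m := Nat.pos_of_ne_zero fun h => by
    exact (orderOf_pos (restrictK K σ)).ne' h
  have key : ∀ x : 𝓞 K ⧸ intIdeal K A, x ^ p ^ m = x := fun x => by
    obtain ⟨a, rfl⟩ := Ideal.Quotient.mk_surjective x
    have h := smul_pow_sub_mem K hA hp hσ m a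
    rw [hm, pow_orderOf_eq_one, one_smul, ← Ideal.Quotient.eq, ← hm] at h
    rw [← map_pow, ← h]
  by_contra hlt
  have hlt : m < d := not_le.mp hlt
  obtain ⟨g, hg⟩ := IsCyclic.exists_generator (α := (𝓞 K ⧸ intIdeal K A)ˣ)
  have hord : orderOf g = p ^ d - 1 := by
    rw [orderOf_eq_card_of_forall_mem_zpowers hg, Nat.card_units, Nat.card_eq_fintype_card, hd]
  have h1 : p ^ m - 1 < p ^ d - 1 := by
    have := Nat.pow_lt_pow_right hp.one_lt hlt
    have := Nat.one_le_pow m p hp.pos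
    omega
  have h2 : g ^ (p ^ m - 1) = 1 := by
    have e : g ^ (p ^ m - 1) * g = g := by
      rw [← pow_succ, Nat.sub_add_cancel (Nat.one_le_pow m p hp.pos)]
      exact Units.ext (by rw [Units.val_pow_eq_pow_val, key])
    exact mul_right_cancel (b := g) (by rw [e, one_mul])
  have h3 := Nat.le_of_dvd (by
    have := Nat.one_lt_pow hm0.ne' hp.one_lt
    omega) (orderOf_dvd_of_pow_eq_one h2)
  omega

end Residue

open GaloisData

variable {ρ : GalQ →* GF3} (hρ : IsSupersingularRep ρ)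

/-- The integers of `EisField` inside those of `L`. -/
abbrev eisIntHom : 𝓞 EisField →+* 𝓞 (cubicField ρ) :=
  NumberField.RingOfIntegers.mapRingHom (eisToCubic hρ).toRingHom

omit hρ in
/-- A power of `σ` is trivial on the fixed field of `H` iff that power of `ρ σ` lies in `H`. -/
theorem restrictK_pow_eq_one_iff (hc : Continuous ρ) (H : Subgroup GF3) [H.Normal] (σ : GalQ)
    (m : ℕ) :
    haveI := isGalois_fixH hc H
    restrictK (fixH ρ H) σ ^ m = 1 ↔ ρ σ ^ m ∈ H := by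
  have := isGalois_fixH hc H
  rw [← map_pow, ← MonoidHom.mem_ker, ker_restrictK, mem_fixingSubgroup_fixH hc, map_pow]

/-- **Splitting.** -/
theorem exists_place_of_split {p : ℕ} (hp : p.Prime) {A₀ : ValuationSubring Qbar}
    (hA₀ : A₀.LiesOverPrime p) (hI₀ : ∀ τ ∈ A₀.inertiaSubgroupIn ℚ, ρ τ = 1) {σ₀ : GalQ}
    (hσ₀ : A₀.IsFrobeniusAt σ₀ p) {f : ℕ} (hq : Final.InQuaternion (ρ σ₀ ^ f))
    (Q : Ideal (𝓞 (cubicField ρ))) [Q.IsPrime] (hQp : (p : 𝓞 (cubicField ρ)) ∈ Q)
    (hnorm : Ideal.absNorm (Q.comap (eisIntHom hρ)) = p ^ f) :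
    haveI := numberField_cubicField hρ
    Ideal.absNorm Q = p ^ f ∧ ∃ A : ValuationSubring Qbar, A.LiesOverPrime p ∧
      intIdeal (cubicField ρ) A = Q ∧ (∀ τ ∈ A.inertiaSubgroupIn ℚ, ρ τ = 1) ∧
      ∃ σ, A.IsFrobeniusAt σ p ∧ Final.InQuaternion (ρ σ ^ f) ∧
        ∀ Ψ : GF3 →* GL (Fin 2) (ℤ√(-2)),
          ((Ψ (ρ σ ^ f) : GL (Fin 2) (ℤ√(-2))) : Matrix (Fin 2) (Fin 2) (ℤ√(-2))).trace =
            ((Ψ (ρ σ₀ ^ f) : GL (Fin 2) (ℤ√(-2))) : Matrix (Fin 2) (Fin 2) (ℤ√(-2))).trace := by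
  have hc := hρ.continuous
  have := isGalois_fixH hc quatGroup
  have := isGalois_fixH hc slGroup
  have := finiteDimensional_fixH hc quatGroup
  have := finiteDimensional_fixH hc slGroup
  obtain ⟨A, hA, hAQ⟩ := exists_intIdeal_eq (cubicField ρ) hp Q hQp
  obtain ⟨τ, rfl⟩ := exists_smul_eq hA₀ hA hp
  have hσ : (τ • A₀).IsFrobeniusAt (τ * σ₀ * τ⁻¹) p := isFrobeniusAt_conj hA₀ hp hσ₀ τ
  have hI : ∀ s ∈ (τ • A₀).inertiaSubgroupIn ℚ, ρ s = 1 :=
    map_inertia_eq_one_of_one_place ρ hA₀ hp hI₀ (liesOverPrime_smul hA₀ τ)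
  set σ := τ * σ₀ * τ⁻¹ with hσdef
  have hconj : ρ σ ^ f = ρ τ * ρ σ₀ ^ f * (ρ τ)⁻¹ := by
    rw [hσdef, map_mul, map_mul, map_inv, conj_pow]
  have hqσ : ρ σ ^ f ∈ quatGroup := hconj ▸ quatGroup_normal.conj_mem _ hq _
  have hL := absNorm_intIdeal (cubicField ρ) (liesOverPrime_smul hA₀ τ) hp hσ fun s hs =>
    (mem_fixingSubgroup_fixH hc).mpr (by rw [hI s hs]; exact one_mem _)
  have hK := absNorm_intIdeal (eisSub ρ) (liesOverPrime_smul hA₀ τ) hp hσ fun s hs =>
    (mem_fixingSubgroup_fixH hc).mpr (by rw [hI s hs]; exact one_mem _)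
  let e : EisField ≃+* eisSub ρ :=
    (AlgEquiv.toRingEquiv (eisToQbar.equivFieldRange)).trans
      (IntermediateField.equivOfEq (eisToQbar_fieldRange hρ)).toRingEquiv
  have he : ∀ x, ((e x : eisSub ρ) : Qbar) = eisToQbar x := fun x => rfl
  have hcomap : Q.comap (eisIntHom hρ) =
      (intIdeal (eisSub ρ) (τ • A₀)).comap
        (NumberField.RingOfIntegers.mapRingEquiv e).toRingHom := by
    ext a
    rw [Ideal.mem_comap, Ideal.mem_comap, ← hAQ, mem_intIdeal, mem_intIdeal]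
    exact Iff.rfl
  rw [hcomap] at hnorm
  have hiso : Ideal.absNorm ((intIdeal (eisSub ρ) (τ • A₀)).comap
      (NumberField.RingOfIntegers.mapRingEquiv e).toRingHom) =
      Ideal.absNorm (intIdeal (eisSub ρ) (τ • A₀)) := by
    rw [Ideal.absNorm_apply, Ideal.absNorm_apply, Submodule.cardQuot_apply,
      Submodule.cardQuot_apply]
    exact Nat.card_congr (Ideal.quotientEquiv _ _ (NumberField.RingOfIntegers.mapRingEquiv e)
      (Ideal.map_comap_of_surjective _
        (NumberField.RingOfIntegers.mapRingEquiv e).surjective _).symm).toEquiv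
  rw [hiso, hK] at hnorm
  have hf : orderOf (restrictK (eisSub ρ) σ) = f := Nat.pow_right_injective hp.two_le hnorm
  have hd : orderOf (restrictK (cubicField ρ) σ) = f := by
    refine Nat.dvd_antisymm (orderOf_dvd_of_pow_eq_one
      ((restrictK_pow_eq_one_iff hc quatGroup σ f).mpr hqσ)) ?_
    rw [← hf]
    exact orderOf_dvd_of_pow_eq_one ((restrictK_pow_eq_one_iff hc slGroup σ _).mpr
      (quatGroup_le ((restrictK_pow_eq_one_iff hc quatGroup σ _).mp (pow_orderOf_eq_one _))))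
  refine ⟨?_, τ • A₀, hA, hAQ, hI, σ, hσ, mem_quatGroup.mp hqσ, fun Ψ => ?_⟩
  · rw [← hAQ, hL, hd]
  · rw [hconj, map_mul, map_mul, map_inv, Units.val_mul, Units.val_mul,
      Matrix.trace_mul_cycle, ← Units.val_mul, inv_mul_cancel, Units.val_one, one_mul]

end Fermat.Agent.LT.Descent

end
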