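import Fermat.Agent.LT.Descent.Transfer
import Fermat.Agent.LT.Descent.SplitPrimes
import Mathlib.Algebra.FreeMonoid.Basic

/-!
# Cubic descent from the spectral expansions

The labels of the tests are a prime of `EisField` split in `L`, or a radial kernel, together with
the choice of one of the three places above. `DescentData` is what the dihedral form, the spectral
expansion and the comparison of traces supply; `DescentData.hasDescentForm` draws the conclusion.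
-/

set_option autoImplicit false

noncomputable section

open scoped NumberField ComplexConjugate
open Fermat.Agent.GaloisBasics
open Fermat.Agent.LT.Final (GF3)

namespace Fermat.Agent.LT.Descent

open GaloisData

variable {ρ : GalQ →* GF3} (hρ : IsSupersingularRep ρ)

/-- The good primes of `EisField` split in `L`, outside the finite set `T`. -/
def splitSet (ρ : GalQ →* GF3) (N : ℕ) (T : Finset ℕ) : Set (Ideal (𝓞 EisField)) :=
  {P | P.IsPrime ∧ P ≠ ⊥ ∧ (N : 𝓞 EisField) ∉ P ∧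
    ∃ (p : ℕ) (A : ValuationSubring Qbar) (σ : GalQ) (f : ℕ), p.Prime ∧ p ∉ T ∧ ¬ p ∣ 3 * N ∧
      A.LiesOverPrime p ∧ (∀ τ ∈ A.inertiaSubgroupIn ℚ, ρ τ = 1) ∧ A.IsFrobeniusAt σ p ∧
      Ideal.absNorm P = p ^ f ∧ Final.InQuaternion (ρ σ ^ f)}

/-- The labels of the tests. -/
abbrev Label (ρ : GalQ →* GF3) (N : ℕ) (T : Finset ℕ) : Type :=
  (↥(splitSet ρ N T) ⊕ RadialKernel EisField) × Fin 3

/-- The eigenvalues of the dihedral form at the primes of `L` split over `EisField`. -/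
def HasThetaEigenvalues (hρ : IsSupersingularRep ρ) (Ψ : GF3 →* GL (Fin 2) (ℤ√(-2)))
    (ι : ℤ√(-2) →+* ℂ) (T : Finset ℕ) (lam : Ideal (𝓞 (cubicField ρ)) → ℂ) : Prop :=
  haveI := numberField_cubicField hρ
  ∀ p : ℕ, p.Prime → p ∉ T → ∀ A : ValuationSubring Qbar, A.LiesOverPrime p →
    (∀ τ ∈ A.inertiaSubgroupIn ℚ, ρ τ = 1) → ∀ σ : GalQ, A.IsFrobeniusAt σ p →
      ∀ f : ℕ, Ideal.absNorm (intIdeal (cubicField ρ) A) = p ^ f →
        Final.InQuaternion (ρ σ ^ f) →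
        lam (intIdeal (cubicField ρ) A) = (Real.sqrt p : ℂ) ^ f *
          ι ((Ψ (ρ σ ^ f) : GL (Fin 2) (ℤ√(-2))) : Matrix (Fin 2) (Fin 2) (ℤ√(-2))).trace

/-- The inputs of the descent. -/
structure DescentData (Ψ : GF3 →* GL (Fin 2) (ℤ√(-2))) : Type 1 where
  /-- The level on `EisField`. -/
  N : ℕ
  N_pos : 0 < N
  N_squarefree : ∀ q : ℕ, q.Prime → q ≠ 3 → ¬ q ^ 2 ∣ N
  /-- The embedding of the coefficients. -/
  ι : ℤ√(-2) →+* ℂ
  /-- Excluded primes. -/
  T : Finset ℕ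
  /-- The eigenvalues of the dihedral form. -/
  lam : Ideal (𝓞 (cubicField ρ)) → ℂ
  lam_eq : HasThetaEigenvalues hρ Ψ ι T lam
  /-- The three primes over a split prime. -/
  above : splitSet ρ N T → Fin 3 → Ideal (𝓞 (cubicField ρ))
  above_prime : ∀ P i, (above P i).IsPrime
  above_comap : ∀ P i, (above P i).comap (eisIntHom hρ) = P.1
  /-- The bound of the systems. -/
  bound : FreeMonoid (Label ρ N T) → ℝ
  /-- The spectral indices on `L`. -/
  indexL : Type
  /-- The weights on `L`. -/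
  wtL : indexL → ℂ
  /-- The systems on `L`. -/
  sysL : indexL → FreeMonoid (Label ρ N T) →* ℂ
  /-- The spectral indices on `EisField`. -/
  indexK : Type
  /-- The weights on `EisField`. -/
  wtK : indexK → ℂ
  /-- The systems on `EisField`. -/
  sysK : indexK → FreeMonoid (Label ρ N T) →* ℂ
  isSystemL : ∀ i, wtL i ≠ 0 → IsSystem bound id (sysL i)
  isSystemK : ∀ j, wtK j ≠ 0 → IsSystem bound id (sysK j)
  summableL : Summable fun i => ‖wtL i‖
  summableK : Summable fun j => ‖wtK j‖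
  trace_eq : ∀ t, ∑' i, wtL i * sysL i t = ∑' j, wtK j * sysK j t
  /-- The system of the dihedral form. -/
  target : FreeMonoid (Label ρ N T) →* ℂ
  target_isSystem : IsSystem bound id target
  target_prime : ∀ P i, target (FreeMonoid.of (Sum.inl P, i)) = lam (above P i)
  target_radial : ∀ (k : RadialKernel EisField) i,
    target (FreeMonoid.of (Sum.inr k, i)) = (k.scalar : ℂ)
  weight_ne_zero : ∑' i, {i | sysL i = target}.indicator wtL i ≠ 0
  form : ∀ j, wtK j ≠ 0 →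
    (∀ (k : RadialKernel EisField) i, sysK j (FreeMonoid.of (Sum.inr k, i)) = (k.scalar : ℂ)) →
    ∃ (φ : Y (Level.principal EisField N N_pos) → ℂ) (μ : Ideal (𝓞 EisField) → ℂ),
      IsSphericalCuspForm φ ∧ (∃ y, φ y ≠ 0) ∧ IsHeckeEigenSystem N φ μ ∧
      (∀ 𝔭 : Ideal (𝓞 EisField), 𝔭.IsPrime → 𝔭 ≠ ⊥ → (N : 𝓞 EisField) ∉ 𝔭 → (μ 𝔭).im = 0) ∧
      ∀ P i, sysK j (FreeMonoid.of (Sum.inl P, i)) = μ P.1

/-- **Descent.** -/
theorem DescentData.hasDescentForm {Ψ : GF3 →* GL (Fin 2) (ℤ√(-2))} (D : DescentData hρ Ψ) :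
    HasDescentForm ρ Ψ D.N := by
  obtain ⟨j, hj, hjz⟩ := exists_transfer D.isSystemL D.isSystemK D.summableL D.summableK
    D.trace_eq D.target_isSystem D.weight_ne_zero
  obtain ⟨φ, μ, hφ, hne, heig, hreal, hμ⟩ :=
    D.form j hj fun k i => by rw [hjz]; exact D.target_radial k i
  refine ⟨D.N_squarefree, D.N_pos, D.ι, φ, μ, D.T, hφ, hne, heig, hreal, ?_⟩
  intro p hp hT hpN A hA hI σ hσ 𝔭 f h𝔭 hnorm hq
  have hbot : 𝔭 ≠ ⊥ := fun h => by
    rw [h, Ideal.absNorm_bot] at hnorm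
    exact (pow_ne_zero f hp.ne_zero) hnorm.symm
  have hp𝔭 : (p : 𝓞 EisField) ∈ 𝔭 := by
    have h := Ideal.absNorm_mem 𝔭
    rw [hnorm, Nat.cast_pow] at h
    exact h𝔭.mem_of_pow_mem f h
  have hN : (D.N : 𝓞 EisField) ∉ 𝔭 := fun hN => by
    have hco : IsCoprime ((p : ℤ)) (D.N : ℤ) :=
      Int.isCoprime_iff_nat_coprime.mpr (by
        simpa using hp.coprime_iff_not_dvd.mpr fun h => hpN (h.mul_left 3))
    obtain ⟨a, b, hab⟩ := hco
    refine h𝔭.ne_top ((Ideal.eq_top_iff_one _).mpr ?_)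
    have e : (1 : 𝓞 EisField) = (a : 𝓞 EisField) * (p : 𝓞 EisField) +
        (b : 𝓞 EisField) * (D.N : 𝓞 EisField) := by exact_mod_cast hab.symm
    rw [e]
    exact add_mem (𝔭.mul_mem_left _ hp𝔭) (𝔭.mul_mem_left _ hN)
  set P : splitSet ρ D.N D.T :=
    ⟨𝔭, h𝔭, hbot, hN, p, A, σ, f, hp, hT, hpN, hA, hI, hσ, hnorm, hq⟩ with hP
  have := D.above_prime P 0
  have hQp : (p : 𝓞 (cubicField ρ)) ∈ D.above P 0 := by
    have h : (p : 𝓞 EisField) ∈ (D.above P 0).comap (eisIntHom hρ) := by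
      rw [D.above_comap P 0]; exact hp𝔭
    rwa [Ideal.mem_comap, map_natCast] at h
  obtain ⟨hQ, B, hB, hBQ, hBI, τ, hτ, hτq, htr⟩ := exists_place_of_split hρ hp hA hI hσ hq
    (D.above P 0) hQp (by rw [D.above_comap P 0]; exact hnorm)
  have h1 : μ 𝔭 = D.lam (D.above P 0) := by
    rw [← hμ P 0, hjz, D.target_prime]
  rw [h1, ← hBQ, D.lam_eq p hp hT B hB hBI τ hτ f (by rw [hBQ]; exact hQ) hτq, htr Ψ]

/-- `DescentStep` from the inputs. -/
theorem descentStep_of_data (h : ∀ (ρ : GalQ →* GF3) (hρ : IsSupersingularRep ρ)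
    (Ψ : GF3 →* GL (Fin 2) (ℤ√(-2))),
      (∀ g, Matrix.GeneralLinearGroup.map FLT.ExplicitLift.red (Ψ g) = g) →
        Nonempty (DescentData hρ Ψ)) : DescentStep := fun ρ hρ Ψ hΨ => by
  obtain ⟨D⟩ := h ρ hρ Ψ hΨ
  exact ⟨D.N, D.hasDescentForm⟩

end Fermat.Agent.LT.Descent

end
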