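import Fermat.Agent.LT.Geometric.RadialBridge
import Fermat.Agent.LT.Asai.Restrict.Field

/-!
# The order of the three places does not matter

`RadialMatch` is invariant under permuting the three places upstairs, so matched tests are matched
with respect to the three coordinates above one embedding, in their cyclic order.
-/

set_option autoImplicit false

noncomputable section

open NumberField (InfinitePlace IsTotallyComplex)

namespace Fermat.Agent.LT.Descent

open Fermat.Agent.LT.Spectral (Profile LipKernel)
open Fermat.Agent.LT.Geometric (IsCubic placeOver bijective_placeOver)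

variable {K L : Type*} [Field K] [NumberField K] [Field L] [NumberField L]
  {p : Fin 3 → InfinitePlace L} {v : InfinitePlace K} {l : LipKernel L} {m : LipKernel K}

theorem sameKer_swap12 (a b c : Profile) :
    SameKer (Profile.mulConv a (Profile.mulConv b c)) (Profile.mulConv a (Profile.mulConv c b)) :=
  SameKer.conv (SameKer.refl a) (conv_comm' b c)

/-- Permuting the places. -/
theorem RadialMatch.perm (h : RadialMatch p v l m) (e : Fin 3 → Fin 3) (he : Function.Injective e) :
    RadialMatch (p ∘ e) v l m := by
  refine SameKer.trans h ?_
  set P : Fin 3 → Profile := fun i => profileAt l.toRadialKernel (p i)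
  show SameKer (Profile.mulConv (P 0) (Profile.mulConv (P 1) (P 2)))
    (Profile.mulConv (P (e 0)) (Profile.mulConv (P (e 1)) (P (e 2))))
  have h01 : e 0 ≠ e 1 := he.ne (by decide)
  have h02 : e 0 ≠ e 2 := he.ne (by decide)
  have h12 : e 1 ≠ e 2 := he.ne (by decide)
  have key : ∀ i j k : Fin 3, i ≠ j → i ≠ k → j ≠ k →
      SameKer (Profile.mulConv (P 0) (Profile.mulConv (P 1) (P 2)))
        (Profile.mulConv (P i) (Profile.mulConv (P j) (P k))) := by
    intro i j k hij hik hjk
    fin_cases i <;> fin_cases j <;> fin_cases k <;>
      first
        | exact absurd rfl hij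
        | exact absurd rfl hik
        | exact absurd rfl hjk
        | exact SameKer.refl _
        | exact sameKer_swap12 _ _ _
        | exact conv_left_comm' _ _ _
        | exact (sameKer_swap12 _ _ _).trans (conv_left_comm' _ _ _)
        | exact (conv_left_comm' _ _ _).trans (sameKer_swap12 _ _ _)
        | exact ((sameKer_swap12 _ _ _).trans (conv_left_comm' _ _ _)).trans (sameKer_swap12 _ _ _)
  exact key _ _ _ h01 h02 h12

/-- An embedding upstairs over the embedding of a place downstairs. -/
theorem exists_emb_over (ι : K →+* L) [Unique (InfinitePlace K)] [IsTotallyComplex K] :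
    ∃ φ₀ : L →+* ℂ, (∀ v : InfinitePlace K, v.embedding = φ₀.comp ι) ∧
      ¬ NumberField.ComplexEmbedding.IsReal (φ₀.comp ι) := by
  classical
  let := ι.toAlgebra
  obtain ⟨w, hw⟩ := InfinitePlace.comap_surjective (K := L) (default : InfinitePlace K)
  have hw' : InfinitePlace.mk (w.embedding.comp ι) = default := by
    rw [← InfinitePlace.comap_mk, InfinitePlace.mk_embedding]; exact hw
  have hc : ¬ NumberField.ComplexEmbedding.IsReal (default : InfinitePlace K).embedding :=
    InfinitePlace.isComplex_iff.mp (IsTotallyComplex.isComplex _)
  rw [← InfinitePlace.mk_embedding (default : InfinitePlace K), InfinitePlace.mk_eq_iff] at hw'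
  rcases hw' with h | h
  · exact ⟨w.embedding, fun v => by rw [Unique.eq_default v, h], h ▸ hc⟩
  · refine ⟨NumberField.ComplexEmbedding.conjugate w.embedding, fun v => ?_, ?_⟩
    · rw [Unique.eq_default v, ← h]
      rfl
    · rw [show (NumberField.ComplexEmbedding.conjugate w.embedding).comp ι =
        (default : InfinitePlace K).embedding by rw [← h]; rfl]
      exact hc

/-- Matched tests are matched for the coordinates above an embedding. -/
theorem RadialMatch.to_placeOver [Unique (InfinitePlace K)] {ι : K →+* L} {σ : L ≃+* L}
    (hc : IsCubic ι σ) {φ₀ : L →+* ℂ} (hemb : ∀ v : InfinitePlace K, v.embedding = φ₀.comp ι)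
    (hcomplex : ¬ NumberField.ComplexEmbedding.IsReal (φ₀.comp ι))
    {q : Fin 3 ≃ InfinitePlace L} (h : RadialMatch q v l m) :
    RadialMatch (fun i => placeOver φ₀ σ i) v l m := by
  have hb := bijective_placeOver hc hcomplex (fun u => by
    rw [← hemb u, InfinitePlace.mk_embedding])
  have e : (fun i => placeOver φ₀ σ i) = q ∘ fun i => q.symm (placeOver φ₀ σ i) := by
    funext i; simp
  rw [e]
  exact h.perm _ (q.symm.injective.comp hb.1)

end Fermat.Agent.LT.Descent

end
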