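import Fermat.Agent.LT.Spectral.Labels

/-!
# Matched radial tests for a cubic extension of fields with one and three infinite places

The profile of the kernel downstairs is the convolution of the three profiles upstairs; the
relation is preserved by prepending a profile at one place and by products of tests.
-/

set_option autoImplicit false

noncomputable section

open MeasureTheory
open scoped NumberField
open NumberField (InfinitePlace)

namespace Fermat.Agent.LT.Descent

open Fermat.Agent.LT.Spectral (Profile LipKernel)

/-- The convolution of two profiles as a profile. -/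
def Profile.mulConv (a b : Profile) : Profile where
  toFun := H3.conv a.toFun b.toFun
  continuous := H3.continuous_conv a.continuous b.continuous b.hasCompactSupport
  hasCompactSupport := H3.hasCompactSupport_conv a.hasCompactSupport b.hasCompactSupport

/-- The profile at one place. -/
def profileAt {F : Type*} [Field F] [NumberField F] (k : RadialKernel F) (v : InfinitePlace F) :
    Profile :=
  ⟨k.profile v, k.continuous v, k.hasCompactSupport v⟩

/-- Profiles with the same point-pair kernel. -/
def SameKer (a b : Profile) : Prop :=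
  ∀ P Q, a.toFun (H3.cdist P Q) = b.toFun (H3.cdist P Q)

local infixl:70 " ⋆ " => Profile.mulConv
local infix:50 " ≈ₖ " => SameKer

/-- `SameKer` is reflexive. -/
theorem SameKer.refl (a : Profile) : a ≈ₖ a := fun _ _ => rfl

/-- `SameKer` is transitive. -/
theorem SameKer.trans {a b c : Profile} (h : a ≈ₖ b) (h' : b ≈ₖ c) : a ≈ₖ c :=
  fun P Q => (h P Q).trans (h' P Q)

/-- `SameKer` is symmetric. -/
theorem SameKer.symm {a b : Profile} (h : a ≈ₖ b) : b ≈ₖ a := fun P Q => (h P Q).symm

/-- Convolution respects `SameKer`. -/
theorem SameKer.conv {a a' b b' : Profile} (h : a ≈ₖ a') (h' : b ≈ₖ b') : a ⋆ b ≈ₖ a' ⋆ b' :=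
  fun P Q => by
    show H3.conv a.toFun b.toFun _ = H3.conv a'.toFun b'.toFun _
    simp only [← H3.integral_mul_eq_conv, h _ _, h' _ _]

/-- Convolution is commutative up to `SameKer`. -/
theorem conv_comm' (a b : Profile) : a ⋆ b ≈ₖ b ⋆ a := fun P Q => H3.conv_comm _ _ P Q

theorem conv_assoc' (a b c : Profile) : (a ⋆ b) ⋆ c ≈ₖ a ⋆ (b ⋆ c) := fun P Q => by
  have h := H3.kop_kop a.continuous a.hasCompactSupport b.continuous b.hasCompactSupport
    (φ := fun S => c.toFun (H3.cdist S Q))
    (c.continuous.comp (by
      simp only [fun S => H3.cdist_comm S Q]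
      exact H3.continuous_cdist_left Q)) P
  simp only [H3.kop, smul_eq_mul, H3.integral_mul_eq_conv] at h
  exact h.symm

/-- Convolution is left commutative up to `SameKer`. -/
theorem conv_left_comm' (a b c : Profile) : a ⋆ (b ⋆ c) ≈ₖ b ⋆ (a ⋆ c) :=
  ((conv_assoc' a b c).symm.trans (SameKer.conv (conv_comm' a b) (SameKer.refl c))).trans
    (conv_assoc' b a c)

theorem conv_conv_comm' (a x b y : Profile) : (a ⋆ x) ⋆ (b ⋆ y) ≈ₖ (a ⋆ b) ⋆ (x ⋆ y) :=
  ((conv_assoc' a x _).trans (SameKer.conv (SameKer.refl a) (conv_left_comm' x b y))).trans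
    (conv_assoc' a b _).symm

variable {K L : Type*} [Field K] [NumberField K] [Field L] [NumberField L]

/-- The profile at `v` downstairs is the convolution of the three upstairs. -/
def RadialMatch (p : Fin 3 → InfinitePlace L) (v : InfinitePlace K) (l : LipKernel L)
    (m : LipKernel K) : Prop :=
  profileAt m.toRadialKernel v ≈ₖ profileAt l.toRadialKernel (p 0) ⋆
    (profileAt l.toRadialKernel (p 1) ⋆ profileAt l.toRadialKernel (p 2))

variable {p : Fin 3 → InfinitePlace L} {v : InfinitePlace K} {l : LipKernel L} {m : LipKernel K}

theorem profileAt_convAt_self (u : InfinitePlace L) (k : Profile) (l : LipKernel L) :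
    profileAt (LipKernel.convAt u k l).toRadialKernel u = k ⋆ profileAt l.toRadialKernel u := by
  simp [profileAt, Profile.mulConv, LipKernel.convAt, Spectral.convAt]

theorem profileAt_convAt_ne {u u' : InfinitePlace L} (h : u' ≠ u) (k : Profile)
    (l : LipKernel L) :
    profileAt (LipKernel.convAt u k l).toRadialKernel u' = profileAt l.toRadialKernel u' := by
  classical
  simp [profileAt, LipKernel.convAt, Spectral.convAt, h]

/-- Prepending a profile at one of the three places. -/
theorem RadialMatch.step (h : RadialMatch p v l m) (hp : Function.Injective p) (i : Fin 3)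
    (k : Profile) :
    RadialMatch p v (LipKernel.convAt (p i) k l) (LipKernel.convAt v k m) := by
  rw [RadialMatch, profileAt_convAt_self]
  refine (SameKer.conv (SameKer.refl k) h).trans ?_
  fin_cases i <;> simp only [Fin.zero_eta, Fin.mk_one, Fin.reduceFinMk, profileAt_convAt_self]
  · rw [profileAt_convAt_ne (hp.ne (by decide)), profileAt_convAt_ne (hp.ne (by decide))]
    exact (conv_assoc' _ _ _).symm
  · rw [profileAt_convAt_ne (hp.ne (by decide)), profileAt_convAt_ne (hp.ne (by decide))]
    exact (conv_left_comm' _ _ _).trans (SameKer.conv (SameKer.refl _) (conv_assoc' _ _ _).symm)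
  · rw [profileAt_convAt_ne (hp.ne (by decide)), profileAt_convAt_ne (hp.ne (by decide))]
    exact (conv_left_comm' _ _ _).trans (SameKer.conv (SameKer.refl _) (conv_left_comm' _ _ _))

/-- Products of matched kernels match. -/
theorem RadialMatch.mul {l' : LipKernel L} {m' : LipKernel K} (h : RadialMatch p v l m)
    (h' : RadialMatch p v l' m') :
    RadialMatch p v (LipKernel.conv l.toRadialKernel l') (LipKernel.conv m.toRadialKernel m') :=
  (show profileAt m.toRadialKernel v ⋆ profileAt m'.toRadialKernel v ≈ₖ _ from
    (SameKer.conv h h').trans ((conv_conv_comm' _ _ _ _).trans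
      (SameKer.conv (SameKer.refl _) (conv_conv_comm' _ _ _ _))))

/-- The kernel downstairs as a threefold convolution. -/
theorem RadialMatch.weight_eq [Subsingleton (InfinitePlace K)] (h : RadialMatch p v l m)
    (P Q : InfinitePlace K → H3) :
    m.weight P Q = ∫ R, l.profile (p 0) (H3.cdist (P v) R) *
      ∫ S, l.profile (p 1) (H3.cdist R S) * l.profile (p 2) (H3.cdist S (Q v)) ∂H3.vol ∂H3.vol := by
  simp only [H3.integral_mul_eq_conv]
  rw [Spectral.weight_eq, Fintype.prod_subsingleton _ v]
  exact h (P v) (Q v)

end Fermat.Agent.LT.Descent
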