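import Fermat.Agent.LT.Descent.Transfer
import Fermat.Agent.LT.Operators.Spectral
import Mathlib.Analysis.InnerProductSpace.Trace
import Mathlib.Algebra.FreeMonoid.Basic

/-!
# The spectral expansion of a twisted trace along words of labels

`T` is a compact family, `a` and `b` are Hilbert–Schmidt members of it, `τ` sends each label to a
self-adjoint member and `U` is any bounded operator. The trace of `U (T a) (word t) (T b)` is the
sum over an eigenbasis of a weight times the value at `t` of a real system. The total weight of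
the class of a system `z` is `α β` times the trace of `U` on the joint eigenspace of `z`.
-/

set_option autoImplicit false

noncomputable section

open scoped InnerProductSpace ComplexConjugate

namespace Fermat.Agent.LT.Descent

open Operators Fermat.Agent.L2Kernel Module

variable {E : Type*} [NormedAddCommGroup E] [InnerProductSpace ℂ E]
  {κ Λ : Type*}

/-- The product of the operators of the letters of a word. -/
def wordOp (T : κ → E →L[ℂ] E) (τ : Λ → κ) : FreeMonoid Λ →* (E →L[ℂ] E) :=
  FreeMonoid.lift fun l => T (τ l)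

theorem wordOp_apply_eigen {T : κ → E →L[ℂ] E} {τ : Λ → κ} {v : E} {c : Λ → ℂ}
    (h : ∀ l, T (τ l) v = c l • v) (t : FreeMonoid Λ) :
    wordOp T τ t v = FreeMonoid.lift c t • v := by
  induction t using FreeMonoid.recOn with
  | one => simp
  | of_mul l t ih => simp [wordOp, map_mul] at ih ⊢; rw [ih, map_smul, h l, smul_smul, mul_comm]

theorem norm_lift_le {T : κ → E →L[ℂ] E} {τ : Λ → κ} {v : E} (hv : ‖v‖ = 1) {c : Λ → ℂ}
    (h : ∀ l, T (τ l) v = c l • v) (t : FreeMonoid Λ) :
    ‖FreeMonoid.lift c t‖ ≤ ‖wordOp T τ t‖ := by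
  have h1 := (wordOp T τ t).le_opNorm v
  rwa [wordOp_apply_eigen h, norm_smul, hv, mul_one, mul_one] at h1

/-- A real system on labels is real on words. -/
theorem lift_conj {c : Λ → ℂ} (h : ∀ l, conj (c l) = c l) (t : FreeMonoid Λ) :
    FreeMonoid.lift c t = conj (FreeMonoid.lift c t) := by
  induction t using FreeMonoid.recOn with
  | one => simp
  | of_mul l t ih => simp [map_mul, h l, ← ih]

/-- The trace of a compression to a finite-dimensional subspace adapted to a Hilbert basis. -/
theorem trace_restrict_eq {F : Type*} [NormedAddCommGroup F] [InnerProductSpace ℂ F] {ι : Type*}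
    (e : HilbertBasis ι ℂ F) (V : Submodule ℂ F) [FiniteDimensional ℂ V]
    (horth : ∀ v, e v ∉ V → ∀ x ∈ V, ⟪e v, x⟫_ℂ = 0) (A : F →ₗ[ℂ] F) (hA : ∀ x ∈ V, A x ∈ V) :
    LinearMap.trace ℂ V (A.restrict hA) =
      ∑' v, {v | e v ∈ V}.indicator (fun v => ⟪e v, A (e v)⟫_ℂ) v := by
  classical
  set S : Set ι := {v | e v ∈ V}
  let u : S → V := fun v => ⟨e v.1, v.2⟩
  have hou : Orthonormal ℂ u :=
    ⟨fun v => e.orthonormal.1 v.1,
      fun v v' h => e.orthonormal.2 fun h' => h (Subtype.ext h')⟩
  have hfinS : Finite S := hou.linearIndependent.finite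
  let : Fintype S := Fintype.ofFinite S
  have hspan : ⊤ ≤ Submodule.span ℂ (Set.range u) := by
    intro x _
    have hfin : (x : F) = ∑ v : S, e.repr (x : F) v.1 • e v.1 := by
      refine (e.hasSum_repr (x : F)).unique ?_
      rw [← Finset.sum_subtype (F := inferInstance) S.toFinset (fun v => Set.mem_toFinset)
        fun v => e.repr (x : F) v • e v]
      refine hasSum_sum_of_ne_finset_zero fun v hv => ?_
      rw [e.repr_apply_apply, horth v (by simpa [S] using hv) x x.2, zero_smul]
    have hx : x = ∑ v : S, e.repr (x : F) v.1 • u v := by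
      refine Subtype.ext ?_
      simpa [u] using hfin
    rw [hx]
    exact Submodule.sum_mem _ fun v _ => Submodule.smul_mem _ _ (Submodule.subset_span ⟨v, rfl⟩)
  rw [LinearMap.trace_eq_sum_inner _ (OrthonormalBasis.mk hou hspan), ← tsum_subtype S,
    tsum_fintype]
  refine Finset.sum_congr rfl fun v _ => ?_
  rw [OrthonormalBasis.coe_mk, Submodule.coe_inner]
  rfl

/-- The joint eigenspace cut out by a system and two base eigenvalues. -/
def classSpace (T : κ → E →L[ℂ] E) (τ : Λ → κ) (a b : κ) (α β : ℂ) (z : FreeMonoid Λ →* ℂ) :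
    Submodule ℂ E :=
  End.eigenspace (T a : End ℂ E) α ⊓ End.eigenspace (T b : End ℂ E) β ⊓
    ⨅ l, End.eigenspace (T (τ l) : End ℂ E) (z (FreeMonoid.of l))

/-- The class space is cut out by the eigenvalue equations. -/
theorem mem_classSpace {T : κ → E →L[ℂ] E} {τ : Λ → κ} {a b : κ} {α β : ℂ}
    {z : FreeMonoid Λ →* ℂ} {x : E} :
    x ∈ classSpace T τ a b α β z ↔ T a x = α • x ∧ T b x = β • x ∧
      ∀ l, T (τ l) x = z (FreeMonoid.of l) • x := by
  simp [classSpace, Submodule.mem_inf, Submodule.mem_iInf, and_assoc]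

/-- An eigenvector outside a joint eigenspace is orthogonal to it. -/
theorem inner_eq_zero_of_notMem {T : κ → E →L[ℂ] E} {τ : Λ → κ} {C : Set κ} [CompleteSpace E]
    (hT : CompactFamily T C) {a b : κ} (ha : a ∈ C) {α β : ℂ} (hα : α ≠ 0)
    {z : FreeMonoid Λ →* ℂ} {u : E} {c : κ → ℂ} (hua : T a u = c a • u)
    (hfull : (∃ i ∈ C, c i ≠ 0) → ∀ i, T i u = c i • u)
    (hu : u ∉ classSpace T τ a b α β z) {x : E} (hx : x ∈ classSpace T τ a b α β z) :
    ⟪u, x⟫_ℂ = 0 := by
  obtain ⟨hxa, hxb, hxl⟩ := mem_classSpace.mp hx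
  by_cases h0 : c a = 0
  · obtain ⟨a', ha', hadj⟩ := hT.adjC a ha
    have h3 : ContinuousLinearMap.adjoint (T a) u = 0 := by
      rw [← inner_self_eq_zero (𝕜 := ℂ), ContinuousLinearMap.adjoint_inner_left, ← hadj]
      have hc : T a (T a' u) = T a' (T a u) := congrArg (fun f : E →L[ℂ] E => f u) (hT.comm a a')
      rw [hc, hua, h0, zero_smul, map_zero, inner_zero_right]
    have h2 : α * ⟪u, x⟫_ℂ = 0 := by
      rw [← inner_smul_right, ← hxa, ← ContinuousLinearMap.adjoint_inner_left, h3, inner_zero_left]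
    exact (mul_eq_zero.mp h2).resolve_left hα
  · have hall := hfull ⟨a, ha, h0⟩
    have hev : ∀ i, ∃ d : ℂ, T i u = d • u := fun i => ⟨c i, hall i⟩
    by_contra hne
    have hval : ∀ i d, T i x = d • x → c i = d := by
      intro i d hid
      by_contra hcd
      exact hne (CompactFamily.inner_eq_zero hT hev (i := i) (c := c i) (d := d) (hall i) hid hcd)
    refine hu (mem_classSpace.mpr ⟨?_, ?_, fun l => ?_⟩)
    · rw [hall a, hval a α hxa]
    · rw [hall b, hval b β hxb]
    · rw [hall, hval _ _ (hxl l)]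

variable (T : κ → E →L[ℂ] E) (τ : Λ → κ) (U : E →L[ℂ] E)

/-- The expansion of the trace along an eigenbasis. -/
structure Expansion (a b : κ) where
  /-- The indices. -/
  index : Type
  /-- The vectors. -/
  vec : index → E
  orthonormal : Orthonormal ℂ vec
  /-- The eigenvalues. -/
  eig : index → κ → ℂ
  eig_eq : ∀ v, eig v a * eig v b * ⟪vec v, U (vec v)⟫_ℂ ≠ 0 → ∀ i, T i (vec v) = eig v i • vec v
  isSystem' : ∀ v, eig v a * eig v b * ⟪vec v, U (vec v)⟫_ℂ ≠ 0 →
    IsSystem (fun t => ‖wordOp T τ t‖) id (FreeMonoid.lift fun l => eig v (τ l))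
  summable' : Summable fun v => ‖eig v a * eig v b * ⟪vec v, U (vec v)⟫_ℂ‖

variable {T τ U}

/-- The weights. -/
def Expansion.weight {a b : κ} (X : Expansion T τ U a b) (v : X.index) : ℂ :=
  X.eig v a * X.eig v b * ⟪X.vec v, U (X.vec v)⟫_ℂ

/-- The systems. -/
def Expansion.sys {a b : κ} (X : Expansion T τ U a b) (v : X.index) : FreeMonoid Λ →* ℂ :=
  FreeMonoid.lift fun l => X.eig v (τ l)

/-- The system on a single label is its eigenvalue. -/
theorem Expansion.sys_of {a b : κ} (X : Expansion T τ U a b) (v : X.index) (l : Λ) :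
    X.sys v (FreeMonoid.of l) = X.eig v (τ l) :=
  FreeMonoid.lift_eval_of _ _

/-- An index of nonzero weight gives a system. -/
theorem Expansion.isSystem {a b : κ} (X : Expansion T τ U a b) (v : X.index)
    (hv : X.weight v ≠ 0) : IsSystem (fun t => ‖wordOp T τ t‖) id (X.sys v) :=
  X.isSystem' v hv

/-- The weights are absolutely summable. -/
theorem Expansion.summable {a b : κ} (X : Expansion T τ U a b) :
    Summable fun v => ‖X.weight v‖ :=
  X.summable'

variable {C : Set κ}

/-- The trace of `U (T a) (word) (T b)` is the sum of weight times system. -/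
theorem exists_expansion {E : Type} [NormedAddCommGroup E] [InnerProductSpace ℂ E]
    [CompleteSpace E] {T : κ → E →L[ℂ] E} {τ : Λ → κ} {U : E →L[ℂ] E}
    (hT : CompactFamily T C) (hsa : ∀ l, ContinuousLinearMap.adjoint (T (τ l)) = T (τ l))
    {a b : κ} (ha : a ∈ C) (hb : b ∈ C) (hA : IsHS (T a)) (hB : IsHS (T b)) :
    ∃ X : Expansion T τ U a b,
      (∀ {ι : Type} (e : HilbertBasis ι ℂ E) (t : FreeMonoid Λ),
        hsTrace e (U ∘L (wordOp T τ t ∘L T a)) (T b) = ∑' v, X.weight v * X.sys v t) ∧
      ∀ (α β : ℂ), α ≠ 0 → β ≠ 0 → ∀ z : FreeMonoid Λ →* ℂ,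
        (∀ x c, (∀ l, T (τ l) x = z (FreeMonoid.of l) • x) → c ≠ 0 →
          T a x = c • x → x ≠ 0 → c = α) →
        (∀ x c, (∀ l, T (τ l) x = z (FreeMonoid.of l) • x) → c ≠ 0 →
          T b x = c • x → x ≠ 0 → c = β) →
        ∀ hV : ∀ x ∈ classSpace T τ a b α β z, U x ∈ classSpace T τ a b α β z,
          ∑' v, {v | X.sys v = z}.indicator X.weight v =
            α * β * LinearMap.trace ℂ _ ((U : E →ₗ[ℂ] E).restrict hV) := by
  classical
  obtain ⟨w, e₀, χ, hC, hfull⟩ := hT.exists_eigenvalues
  have hne : ∀ v : w, χ v a * χ v b * ⟪e₀ v, U (e₀ v)⟫_ℂ ≠ 0 →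
      ∀ i, T i (e₀ v) = χ v i • e₀ v := fun v hv =>
    hfull v ⟨a, ha, left_ne_zero_of_mul (left_ne_zero_of_mul hv)⟩
  have hreal : ∀ v : w, (∀ i, T i (e₀ v) = χ v i • e₀ v) → ∀ l,
      conj (χ v (τ l)) = χ v (τ l) := fun v hv l => by
    have h1 := hT.adjoint_apply (fun i => ⟨_, hv i⟩) (τ l) (hv (τ l))
    rw [hsa l, hv (τ l)] at h1
    exact (smul_left_injective ℂ (e₀.orthonormal.ne_zero v) h1).symm
  let X : Expansion T τ U a b :=
    { index := w
      vec := e₀
      orthonormal := e₀.orthonormal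
      eig := χ
      eig_eq := hne
      isSystem' := fun v hv =>
        ⟨norm_lift_le (e₀.orthonormal.1 v) fun l => hne v hv (τ l),
          fun t => lift_conj (hreal v (hne v hv)) t⟩
      summable' := summable_eigen e₀.orthonormal hA hB (fun v => hC v a ha) fun v => hC v b hb }
  have hwt : ∀ v : w, X.weight v = χ v a * χ v b * ⟪e₀ v, U (e₀ v)⟫_ℂ := fun v => rfl
  have hsy : ∀ (v : w) l, X.sys v (FreeMonoid.of l) = χ v (τ l) := fun v l =>
    FreeMonoid.lift_eval_of _ _
  have heq : ∀ v : w, X.weight v ≠ 0 → ∀ i, T i (e₀ v) = χ v i • e₀ v := fun v h => hne v h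
  refine ⟨X, fun {ι} e t => ?_, fun α β hα hβ z hza hzb hV => ?_⟩
  · have hW : ∀ v : w, (wordOp T τ t ∘L T a) (e₀ v) =
        (χ v a * FreeMonoid.lift (fun l => χ v (τ l)) t) • e₀ v := fun v => by
      rw [ContinuousLinearMap.comp_apply, hC v a ha, map_smul]
      by_cases h : χ v a = 0
      · simp [h]
      · rw [wordOp_apply_eigen (fun l => hfull v ⟨a, ha, h⟩ (τ l)), smul_smul]
    rw [hsTrace_eigenbasis e e₀ (hA.clm_comp _) hB hW fun v => hC v b hb]
    exact tsum_congr fun v => by simp only [Expansion.weight, Expansion.sys, X]; ring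
  · set V := classSpace T τ a b α β z with hVdef
    set S : Set w := {v | e₀ v ∈ V} with hS
    have hfinV : FiniteDimensional ℂ V := by
      have : FiniteDimensional ℂ (End.eigenspace (T a : End ℂ E) α) :=
        ContinuousLinearMap.finite_dimensional_eigenspace (hT.compact a ha) α hα
      exact Submodule.finiteDimensional_of_le (inf_le_left.trans inf_le_left)
    -- a basis vector outside `V` is orthogonal to `V`
    have horth : ∀ v : w, v ∉ S → ∀ x ∈ V, ⟪e₀ v, x⟫_ℂ = 0 := fun v hv x hx =>
      inner_eq_zero_of_notMem hT ha hα (hC v a ha) (hfull v) hv hx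
    have : FiniteDimensional ℂ V := hfinV
    rw [trace_restrict_eq e₀ V (fun v hv => horth v hv) _ hV, ← tsum_mul_left]
    have hind : ∀ v : w, {v | X.sys v = z}.indicator X.weight v =
        S.indicator (fun v => α * β * ⟪e₀ v, U (e₀ v)⟫_ℂ) v := by
      intro v
      by_cases hv : v ∈ S
      · obtain ⟨h1, h2, h3⟩ := mem_classSpace.mp (show e₀ v ∈ V from hv)
        have hinj := smul_left_injective ℂ (e₀.orthonormal.ne_zero v)
        have hva : χ v a = α := hinj ((hC v a ha).symm.trans h1)
        have hall := hfull v ⟨a, ha, by rw [hva]; exact hα⟩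
        have hsys : v ∈ {v | X.sys v = z} := FreeMonoid.hom_eq fun l => by
          rw [hsy]; exact hinj ((hall (τ l)).symm.trans (h3 l))
        rw [Set.indicator_of_mem hv, Set.indicator_of_mem hsys]
        rw [hwt, hva, hinj ((hall b).symm.trans h2)]
      · rw [Set.indicator_of_notMem hv, Set.indicator_apply_eq_zero]
        intro hz
        by_contra hw
        apply hv
        have hall := heq v hw
        have hz' : ∀ l, T (τ l) (e₀ v) = z (FreeMonoid.of l) • e₀ v := fun l => by
          rw [← show X.sys v = z from hz, hsy]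
          exact hall (τ l)
        rw [hwt] at hw
        have ne := e₀.orthonormal.ne_zero v
        show e₀ v ∈ V
        rw [hVdef, mem_classSpace]
        refine ⟨?_, ?_, hz'⟩
        · rw [← hza _ _ hz' (left_ne_zero_of_mul (left_ne_zero_of_mul hw)) (hall a) ne]
          exact hall a
        · rw [← hzb _ _ hz' (right_ne_zero_of_mul (left_ne_zero_of_mul hw)) (hall b) ne]
          exact hall b
    refine tsum_congr fun v => ?_
    rw [hind v]
    by_cases hv : v ∈ S
    · rw [Set.indicator_of_mem hv]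
      erw [Set.indicator_of_mem hv]
      rfl
    · rw [Set.indicator_of_notMem hv]
      erw [Set.indicator_of_notMem hv]
      rw [mul_zero]

end Fermat.Agent.LT.Descent

end
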