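import Fermat.Agent.LT.Descent.Assembly
import Fermat.Agent.LT.Descent.Expansion

/-!
# Descent data from equal traces

`Side` is one field's share: a compact family with base operators and a self-adjoint member for
every label. `DescentData` follows from equal traces on all words, a nonzero trace of `U` on the
eigenspace of the target, and the classical forms behind the eigenvectors downstairs.
-/

set_option autoImplicit false

noncomputable section

open scoped NumberField ComplexConjugate InnerProductSpace
open Fermat.Agent.GaloisBasics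
open Fermat.Agent.LT.Final (GF3)

namespace Fermat.Agent.LT.Descent

open GaloisData Operators Fermat.Agent.L2Kernel

/-- One side of the comparison. -/
structure Side (Λ : Type) : Type 1 where
  /-- The space. -/
  E : Type
  [norm : NormedAddCommGroup E]
  [inner : InnerProductSpace ℂ E]
  [complete : CompleteSpace E]
  /-- The indices of the family. -/
  κ : Type
  /-- The family. -/
  op : κ → E →L[ℂ] E
  /-- The compact part. -/
  compact : Set κ
  family : CompactFamily op compact
  /-- The operator of a label. -/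
  lab : Λ → κ
  lab_selfAdjoint : ∀ l, ContinuousLinearMap.adjoint (op (lab l)) = op (lab l)
  /-- The first base operator. -/
  a : κ
  /-- The second base operator. -/
  b : κ
  a_mem : a ∈ compact
  b_mem : b ∈ compact
  a_hs : IsHS (op a)
  b_hs : IsHS (op b)
  /-- The twisting operator. -/
  U : E →L[ℂ] E
  /-- A Hilbert basis index. -/
  ι : Type
  /-- A Hilbert basis. -/
  basis : HilbertBasis ι ℂ E

attribute [instance] Side.norm Side.inner Side.complete

namespace Side

variable {Λ : Type} (S : Side Λ)

/-- The trace attached to a word. -/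
def trace (t : FreeMonoid Λ) : ℂ :=
  hsTrace S.basis (S.U ∘L (wordOp S.op S.lab t ∘L S.op S.a)) (S.op S.b)

/-- The eigenspace of a system with given base eigenvalues. -/
def space (α β : ℂ) (z : FreeMonoid Λ →* ℂ) : Submodule ℂ S.E :=
  classSpace S.op S.lab S.a S.b α β z

/-- The base operators have only the given nonzero eigenvalues on a system. -/
def HasBaseValues (α β : ℂ) (z : FreeMonoid Λ →* ℂ) : Prop :=
  (∀ x c, (∀ l, S.op (S.lab l) x = z (FreeMonoid.of l) • x) → c ≠ 0 →
      S.op S.a x = c • x → x ≠ 0 → c = α) ∧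
    ∀ x c, (∀ l, S.op (S.lab l) x = z (FreeMonoid.of l) • x) → c ≠ 0 →
      S.op S.b x = c • x → x ≠ 0 → c = β

end Side

variable {ρ : GalQ →* GF3} (hρ : IsSupersingularRep ρ)

/-- The inputs of descent in terms of operators. -/
structure TraceData (Ψ : GF3 →* GL (Fin 2) (ℤ√(-2))) : Type 1 where
  /-- The level on `EisField`. -/
  N : ℕ
  N_pos : 0 < N
  N_squarefree : ∀ q : ℕ, q.Prime → q ≠ 3 → ¬ q ^ 2 ∣ N
  /-- The embedding of the coefficients. -/
  ι : ℤ√(-2) →+* ℂ
  /-- Excluded primes. -/
  T : Finset ℕ
  /-- The eigenvalues of the dihedral form. -/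
  lam : Ideal (𝓞 (cubicField ρ)) → ℂ
  lam_eq : HasThetaEigenvalues hρ Ψ ι T lam
  /-- The three primes over a split prime. -/
  above : splitSet ρ N T → Fin 3 → Ideal (𝓞 (cubicField ρ))
  above_prime : ∀ P i, (above P i).IsPrime
  above_comap : ∀ P i, (above P i).comap (eisIntHom hρ) = P.1
  lam_real : ∀ P i, conj (lam (above P i)) = lam (above P i)
  /-- The side of the cubic field. -/
  sideL : Side (Label ρ N T)
  /-- The side of `EisField`. -/
  sideK : Side (Label ρ N T)
  trace_eq : ∀ t, sideL.trace t = sideK.trace t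
  /-- The first base value. -/
  α : ℂ
  /-- The second base value. -/
  β : ℂ
  α_ne_zero : α ≠ 0
  β_ne_zero : β ≠ 0
  /-- The system of the dihedral form. -/
  target : FreeMonoid (Label ρ N T) →* ℂ
  target_prime : ∀ P i, target (FreeMonoid.of (Sum.inl P, i)) = lam (above P i)
  target_radial : ∀ (k : RadialKernel EisField) i,
    target (FreeMonoid.of (Sum.inr k, i)) = (k.scalar : ℂ)
  base_values : sideL.HasBaseValues α β target
  space_invariant : ∀ x ∈ sideL.space α β target, sideL.U x ∈ sideL.space α β target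
  trace_ne_zero :
    LinearMap.trace ℂ _ ((sideL.U : sideL.E →ₗ[ℂ] sideL.E).restrict space_invariant) ≠ 0
  form : ∀ (x : sideK.E) (c : sideK.κ → ℂ), x ≠ 0 → (∀ i, sideK.op i x = c i • x) →
    c sideK.a ≠ 0 → c sideK.b ≠ 0 →
    (∀ (k : RadialKernel EisField) i, c (sideK.lab (Sum.inr k, i)) = (k.scalar : ℂ)) →
    ∃ (φ : Y (Level.principal EisField N N_pos) → ℂ) (μ : Ideal (𝓞 EisField) → ℂ),
      IsSphericalCuspForm φ ∧ (∃ y, φ y ≠ 0) ∧ IsHeckeEigenSystem N φ μ ∧
      (∀ 𝔭 : Ideal (𝓞 EisField), 𝔭.IsPrime → 𝔭 ≠ ⊥ → (N : 𝓞 EisField) ∉ 𝔭 → (μ 𝔭).im = 0) ∧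
      ∀ P i, c (sideK.lab (Sum.inl P, i)) = μ P.1

/-- The descent data of the trace data. -/
theorem TraceData.nonempty_descentData {Ψ : GF3 →* GL (Fin 2) (ℤ√(-2))} (D : TraceData hρ Ψ) :
    Nonempty (DescentData hρ Ψ) := by
  obtain ⟨X, hXt, hXw⟩ := exists_expansion (τ := D.sideL.lab) (U := D.sideL.U) D.sideL.family
    D.sideL.lab_selfAdjoint D.sideL.a_mem D.sideL.b_mem D.sideL.a_hs D.sideL.b_hs
  obtain ⟨Z, hZt, -⟩ := exists_expansion (τ := D.sideK.lab) (U := D.sideK.U) D.sideK.family
    D.sideK.lab_selfAdjoint D.sideK.a_mem D.sideK.b_mem D.sideK.a_hs D.sideK.b_hs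
  let M : FreeMonoid (Label ρ D.N D.T) → ℝ := fun t =>
    max (max ‖wordOp D.sideL.op D.sideL.lab t‖ ‖wordOp D.sideK.op D.sideK.lab t‖) ‖D.target t‖
  have hreal : ∀ l, conj (D.target (FreeMonoid.of l)) = D.target (FreeMonoid.of l) := by
    rintro ⟨P | k, i⟩
    · rw [D.target_prime]; exact D.lam_real P i
    · rw [D.target_radial]; exact Complex.conj_ofReal _
  refine ⟨
    { N := D.N
      N_pos := D.N_pos
      N_squarefree := D.N_squarefree
      ι := D.ι
      T := D.T
      lam := D.lam
      lam_eq := D.lam_eq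
      above := D.above
      above_prime := D.above_prime
      above_comap := D.above_comap
      bound := M
      indexL := X.index
      wtL := X.weight
      sysL := X.sys
      indexK := Z.index
      wtK := Z.weight
      sysK := Z.sys
      isSystemL := fun v hv => ⟨fun t => ((X.isSystem v hv).1 t).trans
        ((le_max_left _ _).trans (le_max_left _ _)), (X.isSystem v hv).2⟩
      isSystemK := fun v hv => ⟨fun t => ((Z.isSystem v hv).1 t).trans
        ((le_max_right _ _).trans (le_max_left _ _)), (Z.isSystem v hv).2⟩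
      summableL := X.summable
      summableK := Z.summable
      trace_eq := fun t => by
        rw [← hXt D.sideL.basis t, ← hZt D.sideK.basis t]; exact D.trace_eq t
      target := D.target
      target_isSystem := ⟨fun t => le_max_right _ _, fun t => ?_⟩
      target_prime := D.target_prime
      target_radial := D.target_radial
      weight_ne_zero := ?_
      form := ?_ }⟩
  · rw [← FreeMonoid.lift_restrict D.target]
    exact lift_conj hreal t
  · rw [hXw D.α D.β D.α_ne_zero D.β_ne_zero D.target D.base_values.1 D.base_values.2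
      D.space_invariant]
    exact mul_ne_zero (mul_ne_zero D.α_ne_zero D.β_ne_zero) D.trace_ne_zero
  · intro v hv hk
    have hk' : ∀ (k : RadialKernel EisField) i,
        Z.eig v (D.sideK.lab (Sum.inr k, i)) = (k.scalar : ℂ) := fun k i => by
      rw [← Z.sys_of]; exact hk k i
    obtain ⟨φ, μ, h1, h2, h3, h4, h5⟩ := D.form (Z.vec v) (Z.eig v) (Z.orthonormal.ne_zero v)
      (Z.eig_eq v hv) (left_ne_zero_of_mul (left_ne_zero_of_mul hv))
      (right_ne_zero_of_mul (left_ne_zero_of_mul hv)) hk'
    exact ⟨φ, μ, h1, h2, h3, h4, fun P i => by rw [Z.sys_of]; exact h5 P i⟩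

/-- `DescentStep` from trace data. -/
theorem descentStep_of_traceData (h : ∀ (ρ : GalQ →* GF3) (hρ : IsSupersingularRep ρ)
    (Ψ : GF3 →* GL (Fin 2) (ℤ√(-2))),
      (∀ g, Matrix.GeneralLinearGroup.map FLT.ExplicitLift.red (Ψ g) = g) →
        Nonempty (TraceData hρ Ψ)) : DescentStep :=
  descentStep_of_data fun ρ hρ Ψ hΨ => (h ρ hρ Ψ hΨ).elim fun D => D.nonempty_descentData

end Fermat.Agent.LT.Descent

end
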