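import Fermat.Agent.LT.Descent.CuspFamily
import Fermat.Agent.LT.Spectral.Side
import Fermat.Agent.LT.Places.HeckeSetup
import Fermat.Agent.LT.Asai.Restrict.Field

/-!
# The classical forms behind the eigenvectors on `EisField`

A joint eigenvector of the tests and labels at a principal level, not killed by a test and with
parameter zero, gives a cusp form with a real system of Hecke eigenvalues at all good primes.
`form_side` is the `form` input of `TraceData`.
-/

set_option autoImplicit false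

noncomputable section

open MeasureTheory
open scoped NumberField ComplexConjugate
open NumberField (InfinitePlace IsTotallyComplex)
open Fermat.Agent.GaloisBasics
open Fermat.Agent.LT.Final (GF3)

namespace Fermat.Agent.LT.Descent

open Spectral CuspType Places

section Principal

variable {F : Type*} [Field F] [NumberField F] {S : ThreeSet F} {N : ℕ} {hN : 0 < N}

theorem notMem_places_of_notMem (h3 : 3 ∣ N) {v : FinPlace F} (h : (N : 𝓞 F) ∉ v.asIdeal) :
    v ∉ S.places := fun hv => h (by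
  obtain ⟨m, rfl⟩ := h3
  rw [Nat.cast_mul]
  exact v.asIdeal.mul_mem_right _ (three_mem S ⟨v, hv⟩))

variable (S hN) in
/-- The member of the family at a prime not dividing `N`. -/
def goodIdx (h3 : 3 ∣ N) {v : FinPlace F} (h : (N : 𝓞 F) ∉ v.asIdeal) :
    goodMonoid (Level.principal F N hN) S :=
  heckeIdx (isGoodAt_principal hN h) (notMem_places_of_notMem h3 h)

/-- A joint eigenvector with parameter zero gives a cusp form with a real eigensystem. -/
theorem exists_heckeForm [IsTotallyComplex F] (h3 : 3 ∣ N)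
    (hU : IsTypeLevel S (Level.principal F N hN)) (ε : Fin 2) (hS : S.places.Nonempty)
    (w : Weight (Level.principal F N hN)) {x : Lp ℂ 2 w.measure} (hx : x ≠ 0)
    {c : (LipKernel F × goodMonoid (Level.principal F N hN) S) ⊕
      Spectral.Label F (goodMonoid (Level.principal F N hN) S) → ℂ}
    (hc : ∀ i, (cuspFamily hU ε hS).fullOp w i x = c i • x)
    {t : LipKernel F × goodMonoid (Level.principal F N hN) S} (ht : c (Sum.inl t) ≠ 0)
    (hk : ∀ v k, c (Sum.inr (Sum.inl (v, k))) = (H3.sph k.toFun : ℂ)) :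
    ∃ (φ : Y (Level.principal F N hN) → ℂ) (μ : Ideal (𝓞 F) → ℂ),
      IsSphericalCuspForm φ ∧ (∃ y, φ y ≠ 0) ∧ IsHeckeEigenSystem N φ μ ∧
      (∀ 𝔭 : Ideal (𝓞 F), 𝔭.IsPrime → 𝔭 ≠ ⊥ → (N : 𝓞 F) ∉ 𝔭 → (μ 𝔭).im = 0) ∧
      (cuspFn hU ε).op φ = φ ∧
      ∀ (v : FinPlace F) (h : (N : 𝓞 F) ∉ v.asIdeal),
        c (Sum.inr (Sum.inr (goodIdx S hN h3 h))) = μ v.asIdeal := by
  classical
  set H := cuspFamily hU ε hS with hH
  have hχ : ∀ s, H.opT w s x = c (Sum.inl s) • x := fun s => hc (Sum.inl s)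
  obtain ⟨φ, hφ, -⟩ := H.exists_eigenForm w hx hχ ⟨t, ht⟩
  have hlab : ∀ l, H.labVal l φ = c (Sum.inr l) := fun l => by
    have h1 : H.opT w (H.step l t) x = (c (Sum.inr l) * c (Sum.inl t)) • x := by
      rw [H.opT_step, ContinuousLinearMap.comp_apply, hχ, map_smul,
        show H.labT w l x = _ from hc (Sum.inr l), smul_smul, mul_comm]
    have h2 := smul_left_injective ℂ hx ((hχ _).symm.trans h1)
    exact mul_right_cancel₀ ht ((hφ.chi_step l t).symm.trans h2)
  have hcusp : IsSphericalCuspForm φ := hφ.isSphericalCuspForm_of_places fun v k =>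
    (hlab (Sum.inl (v, k))).trans (hk v k)
  have hreal : ∀ j, (H.heckeVal j φ).im = 0 := fun j =>
    Complex.conj_eq_iff_im.1 ((hφ.conj_heckeVal j).trans
      (congrArg (fun i => H.heckeVal i φ) (cuspFamily_star hU ε hS j)))
  let μ : Ideal (𝓞 F) → ℂ := fun P =>
    if h : P.IsPrime ∧ P ≠ ⊥ ∧ (N : 𝓞 F) ∉ P then
      H.heckeVal (goodIdx S hN h3 (v := ⟨P, h.1, h.2.1⟩) h.2.2) φ
    else 0
  have hμ : ∀ (v : FinPlace F) (h : (N : 𝓞 F) ∉ v.asIdeal),
      μ v.asIdeal = H.heckeVal (goodIdx S hN h3 h) φ := fun v h =>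
    dif_pos (⟨v.isPrime, v.ne_bot, h⟩ :
      v.asIdeal.IsPrime ∧ v.asIdeal ≠ ⊥ ∧ (N : 𝓞 F) ∉ v.asIdeal)
  refine ⟨φ, μ, hcusp, hφ.ne_zero, fun P hP hP0 hNP => ?_, fun P hP hP0 hNP => ?_, ?_,
    fun v h => ?_⟩
  · let v : FinPlace F := ⟨P, hP, hP0⟩
    show IsHeckeEigenAt N φ v.asIdeal (μ v.asIdeal)
    rw [isHeckeEigenAt_iff hN hNP, hμ v hNP]
    intro y
    have h1 := cuspFamily_heckeIdx_op hU ε hS (isGoodAt_principal hN hNP)
      (notMem_places_of_notMem (S := S) (v := v) h3 hNP) φ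
    rw [← hH, hφ.one_op, hφ.hecke_op] at h1
    exact (congrFun h1 y).symm
  · show (μ (⟨P, hP, hP0⟩ : FinPlace F).asIdeal).im = 0
    rw [hμ ⟨P, hP, hP0⟩ hNP]
    exact hreal _
  · have h1 := hφ.one_op
    rwa [hH, cuspFamily_fn_one] at h1
  · rw [hμ v h, ← hlab (Sum.inr (goodIdx S hN h3 h))]
    rfl

end Principal

section Eis

variable {S : ThreeSet EisField} {N : ℕ} {hN : 0 < N} {ρ : GalQ →* GF3} {T : Finset ℕ}

/-- The place of a split prime. -/
def splitPlace (P : splitSet ρ N T) : FinPlace EisField := ⟨P.1, P.2.1, P.2.2.1⟩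

/-- The profile of a radial kernel of `EisField`. -/
def eisProfile (k : RadialKernel EisField) : Profile :=
  ⟨k.profile default, k.continuous _, k.hasCompactSupport _⟩

variable (S hN ρ T) in
/-- The labels on `EisField`: the three places above are the place itself. -/
def labK (h3 : 3 ∣ N) :
    Label ρ N T → Spectral.Label EisField (goodMonoid (Level.principal EisField N hN) S)
  | (Sum.inl P, _) => Sum.inr (goodIdx S hN h3 (v := splitPlace P) P.2.2.2.1)
  | (Sum.inr k, _) => Sum.inl (default, eisProfile k)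

theorem labK_selfAdjoint (h3 : 3 ∣ N) (hU : IsTypeLevel S (Level.principal EisField N hN))
    (ε : Fin 2) (hS : S.places.Nonempty) (l : Label ρ N T) :
    (cuspFamily hU ε hS).adjLabel (labK S hN ρ T h3 l) = labK S hN ρ T h3 l :=
  cuspFamily_adjLabel hU ε hS _

/-- The `form` input of `TraceData` for the side of `EisField`. -/
theorem form_side (h3 : 3 ∣ N) (hU : IsTypeLevel S (Level.principal EisField N hN))
    (ε : Fin 2) (hS : S.places.Nonempty) (w : Weight (Level.principal EisField N hN))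
    (a b : LipKernel EisField × goodMonoid (Level.principal EisField N hN) S)
    (U : Lp ℂ 2 w.measure →L[ℂ] Lp ℂ 2 w.measure) :
    ∀ (x : ((cuspFamily hU ε hS).side w (labK S hN ρ T h3) (labK_selfAdjoint h3 hU ε hS) a b U).E)
      (c : ((cuspFamily hU ε hS).side w (labK S hN ρ T h3) (labK_selfAdjoint h3 hU ε hS)
        a b U).κ → ℂ),
      x ≠ 0 → (∀ i, ((cuspFamily hU ε hS).side w (labK S hN ρ T h3)
          (labK_selfAdjoint h3 hU ε hS) a b U).op i x = c i • x) →
      c ((cuspFamily hU ε hS).side w (labK S hN ρ T h3) (labK_selfAdjoint h3 hU ε hS) a b U).a ≠ 0 →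
      c ((cuspFamily hU ε hS).side w (labK S hN ρ T h3) (labK_selfAdjoint h3 hU ε hS) a b U).b ≠ 0 →
      (∀ (k : RadialKernel EisField) i,
        c (((cuspFamily hU ε hS).side w (labK S hN ρ T h3) (labK_selfAdjoint h3 hU ε hS) a b U).lab
          (Sum.inr k, i)) = (k.scalar : ℂ)) →
      ∃ (φ : Y (Level.principal EisField N hN) → ℂ) (μ : Ideal (𝓞 EisField) → ℂ),
        IsSphericalCuspForm φ ∧ (∃ y, φ y ≠ 0) ∧ IsHeckeEigenSystem N φ μ ∧
        (∀ 𝔭 : Ideal (𝓞 EisField), 𝔭.IsPrime → 𝔭 ≠ ⊥ → (N : 𝓞 EisField) ∉ 𝔭 → (μ 𝔭).im = 0) ∧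
        ∀ P i, c (((cuspFamily hU ε hS).side w (labK S hN ρ T h3)
          (labK_selfAdjoint h3 hU ε hS) a b U).lab (Sum.inl P, i)) = μ P.1 := by
  intro x c hx hc hca _ hk
  have hk' : ∀ v k, c (Sum.inr (Sum.inl (v, k))) = (H3.sph k.toFun : ℂ) := fun v k => by
    rw [Subsingleton.elim v default]
    refine (hk ⟨fun _ => k.toFun, fun _ => k.continuous, fun _ => k.hasCompactSupport⟩ 0).trans ?_
    rw [RadialKernel.scalar, Fintype.prod_unique]
  obtain ⟨φ, μ, h1, h2, h3', h4, -, h5⟩ :=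
    exists_heckeForm h3 hU ε hS w hx hc (t := a) hca hk'
  exact ⟨φ, μ, h1, h2, h3', h4, fun P _ => h5 (splitPlace P) P.2.2.2.1⟩

end Eis

end Fermat.Agent.LT.Descent

end
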