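import Fermat.Agent.LT.Descent.Levels
import Fermat.Agent.LT.Places.Galois
import Fermat.Agent.LT.Places.Hecke
import Mathlib.GroupTheory.Perm.Cycle.Type
import Mathlib.RingTheory.Ideal.Norm.AbsNorm

/-!
# The places of the cubic field at the levels of cubic descent

The tame places have the generator in their inertia group. Above three there are three places,
each with residue field of order three and of ramification index two; the generator permutes them.
The remaining places are unramified over `ℚ`.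
-/

set_option autoImplicit false

noncomputable section

open scoped NumberField Pointwise
open WithZero
open IsDedekindDomain (HeightOneSpectrum)
open Fermat.Agent.GaloisBasics
open Fermat.Agent.LT.Final (GF3 upperUni)
open Fermat.Agent.LT.Places (FinPlace comapPlace placeEquiv)

namespace Fermat.Agent.LT.Descent

open GaloisData

variable {ρ : GalQ →* GF3} (hρ : IsSupersingularRep ρ) [NumberField (cubicField ρ)]
  [IsGalois ℚ (cubicField ρ)]

local notation "L" => cubicField ρ

include hρ

/-- The generator as an element of the Galois group over `ℚ`. -/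
def cubicGen : L ≃ₐ[ℚ] L := restrictK (cubicField ρ) (cycleLift hρ)

omit [NumberField L] in
theorem cubicAut_apply (x : L) : cubicAut hρ x = cubicGen hρ x :=
  Subtype.ext ((coe_cubicAut hρ x).trans (coe_restrictK_apply _ _ x).symm)

omit [NumberField L] in
theorem mapRingHom_cubicAut (a : 𝓞 L) :
    NumberField.RingOfIntegers.mapRingHom (cubicAut hρ : L →+* L) a = cubicGen hρ • a :=
  NumberField.RingOfIntegers.ext (cubicAut_apply hρ (a : L))

/-- The pull back of a place along `cubicAut` is its image by the inverse generator. -/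
theorem comapPlace_cubicAut (w : FinPlace L) :
    (comapPlace (cubicAut hρ : L →+* L) w).asIdeal = (cubicGen hρ)⁻¹ • w.asIdeal := by
  refine Ideal.ext fun a => ?_
  rw [Ideal.mem_pointwise_smul_iff_inv_smul_mem, inv_inv, ← mapRingHom_cubicAut]
  exact Iff.rfl

theorem cubicAut_fixed_iff_smul (w : FinPlace L) :
    comapPlace (cubicAut hρ : L →+* L) w = w ↔ cubicGen hρ • w.asIdeal = w.asIdeal := by
  rw [HeightOneSpectrum.ext_iff, comapPlace_cubicAut, inv_smul_eq_iff, eq_comm]

omit [NumberField L] in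
theorem cubicGen_pow_three : cubicGen hρ ^ 3 = 1 := by
  rw [cubicGen, ← map_pow, ← MonoidHom.mem_ker, ker_restrictK,
    mem_fixingSubgroup_fixH hρ.continuous, map_pow, rho_cycleLift]
  exact ⟨by rw [map_pow]; apply Units.ext; decide, by apply Units.ext; decide⟩

omit [NumberField L] in
/-- The elements of order three of the Galois group are the generator and its square. -/
theorem eq_cubicGen_or {g : L ≃ₐ[ℚ] L} (h3 : g ^ 3 = 1) (h1 : g ≠ 1) :
    g = cubicGen hρ ∨ g = cubicGen hρ ^ 2 := by
  obtain ⟨τ, rfl⟩ := restrictK_surjective (cubicField ρ) g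
  rw [← map_pow, ← MonoidHom.mem_ker, ker_restrictK, mem_fixingSubgroup_fixH hρ.continuous,
    map_pow] at h3
  have hdet : ρ τ ∈ slGroup := by
    have h := h3.1
    rw [map_pow] at h
    have hu : ∀ u : (ZMod 3)ˣ, u ^ 3 = 1 → u = 1 := by decide
    exact hu _ h
  obtain ⟨k, hk, -⟩ := existsUnique_upperUni hdet
  have hpow : ρ (cycleLift hρ ^ k.val) = upperUni k := by
    rw [map_pow, rho_cycleLift]
    apply Units.ext
    clear hk
    revert k
    decide
  have hinv : restrictK (cubicField ρ) τ * cubicGen hρ ^ k.val = 1 := by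
    rw [cubicGen, ← map_pow, ← map_mul, ← MonoidHom.mem_ker, ker_restrictK,
      mem_fixingSubgroup_fixH hρ.continuous, map_mul, hpow]
    exact hk
  have e : restrictK (cubicField ρ) τ = cubicGen hρ ^ (3 - k.val) := by
    rw [eq_inv_of_mul_eq_one_left hinv, inv_eq_iff_mul_eq_one, ← pow_add,
      Nat.add_sub_cancel' (ZMod.val_lt k).le, cubicGen_pow_three]
  have hk3 : k.val < 3 := ZMod.val_lt k
  rcases (by omega : k.val = 0 ∨ k.val = 1 ∨ k.val = 2) with h | h | h <;> rw [h] at e
  · exact absurd (e.trans (cubicGen_pow_three hρ)) h1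
  · exact Or.inr e
  · exact Or.inl (e.trans (pow_one _))

omit [NumberField L] in
theorem cubicGen_mem_of_order_three (H : Subgroup (L ≃ₐ[ℚ] L)) {g : L ≃ₐ[ℚ] L} (hg : g ∈ H)
    (h3 : g ^ 3 = 1) (h1 : g ≠ 1) : cubicGen hρ ∈ H := by
  rcases eq_cubicGen_or hρ h3 h1 with rfl | rfl
  · exact hg
  · have e : (cubicGen hρ ^ 2) ^ 2 = cubicGen hρ := by
      rw [← pow_mul, show 2 * 2 = 3 + 1 from rfl, pow_add, cubicGen_pow_three, one_mul, pow_one]
    exact e ▸ pow_mem hg 2

/-! ### The tame places -/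

omit [NumberField L] in
/-- The generator lies in the inertia group at a tame place. -/
theorem cubicGen_mem_inertia {w : FinPlace L} (hw : w ∈ placesTame hρ) :
    cubicGen hρ ∈ w.asIdeal.inertia (L ≃ₐ[ℚ] L) := by
  obtain ⟨q, hq, hqw⟩ := (mem_placesTame hρ).1 hw
  obtain ⟨hqp, hq3, hram⟩ := (mem_ramSet hρ).1 hq
  obtain ⟨A, hA, hAw⟩ := exists_intIdeal_eq (cubicField ρ) hqp w.asIdeal hqw
  simp only [IsUnramAt, not_forall] at hram
  obtain ⟨B, hB, τ, hτ, hτ1⟩ := hram
  obtain ⟨s, hs⟩ := exists_smul_eq hB hA hqp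
  have hτA : s * τ * s⁻¹ ∈ A.inertiaSubgroupIn ℚ := hs ▸ (inertiaSubgroupIn_smul_iff τ s).2 hτ
  have hne : ρ (s * τ * s⁻¹) ≠ 1 := fun e => hτ1 (by
    rwa [map_mul, map_mul, map_inv, mul_inv_eq_one, mul_eq_left] at e)
  rw [← hAw, ← map_inertiaSubgroupIn (cubicField ρ) hA hqp]
  refine cubicGen_mem_of_order_three hρ _ ⟨_, hτA, rfl⟩ ?_ fun h => hne ?_
  · rw [← map_pow, ← MonoidHom.mem_ker, ker_restrictK, mem_fixingSubgroup_fixH hρ.continuous,
      map_pow, hρ.tame q hqp hq3 A hA _ hτA]
    exact one_mem quatGroup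
  · rw [← MonoidHom.mem_ker, ker_restrictK] at h
    exact rho_inertia_eq_one hρ hqp hq3 hA hτA h

omit [NumberField L] in
/-- The generator is trivial on the residue field of a tame place. -/
theorem cubicAut_sub_mem {w : FinPlace L} (hw : w ∈ placesTame hρ) (a : 𝓞 L) :
    NumberField.RingOfIntegers.mapRingHom (cubicAut hρ : L →+* L) a - a ∈ w.asIdeal := by
  rw [mapRingHom_cubicAut]
  exact cubicGen_mem_inertia hρ hw a

/-- The generator fixes the tame places. -/
theorem comapPlace_tame {w : FinPlace L} (hw : w ∈ placesTame hρ) :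
    comapPlace (cubicAut hρ : L →+* L) w = w := by
  refine HeightOneSpectrum.ext (Ideal.ext fun a => ?_)
  rw [Places.mem_comapPlace]
  have h := cubicAut_sub_mem hρ hw a
  exact ⟨fun ha => by simpa using w.asIdeal.sub_mem ha h,
    fun ha => by simpa using w.asIdeal.add_mem h ha⟩

/-! ### The places above three -/

omit [NumberField L] [IsGalois ℚ L] in
/-- A square root of `-3` in the integers of the cubic field. -/
theorem exists_sq_eq_neg_three : ∃ s : 𝓞 L, s ^ 2 = -3 := by
  have := isCyclotomicExtension_eisField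
  have hζ := IsCyclotomicExtension.zeta_spec 3 ℚ EisField
  set z : 𝓞 EisField := hζ.toInteger
  have hz : z ^ 2 + z + 1 = 0 := by
    refine NumberField.RingOfIntegers.ext ?_
    have h1 : (IsCyclotomicExtension.zeta 3 ℚ EisField) ≠ 1 := hζ.ne_one (by norm_num)
    have h := hζ.pow_eq_one
    have h0 : (IsCyclotomicExtension.zeta 3 ℚ EisField - 1) *
        ((IsCyclotomicExtension.zeta 3 ℚ EisField) ^ 2 +
          IsCyclotomicExtension.zeta 3 ℚ EisField + 1) = 0 := by linear_combination h
    simp only [z, map_add, map_pow, map_one, map_zero]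
    exact (mul_eq_zero.mp h0).resolve_left (sub_ne_zero.mpr h1)
  set x : 𝓞 L := NumberField.RingOfIntegers.mapRingHom (eisToCubic hρ).toRingHom z
  refine ⟨2 * x + 1, ?_⟩
  have hx : x ^ 2 + x + 1 = 0 := by
    simpa [x] using congrArg (NumberField.RingOfIntegers.mapRingHom (eisToCubic hρ).toRingHom) hz
  linear_combination (4 : 𝓞 L) * hx

omit [NumberField L] [IsGalois ℚ L] in
theorem three_mem_sq {w : FinPlace L} (hw : w ∈ placesThree hρ) :
    (3 : 𝓞 L) ∈ w.asIdeal ^ 2 := by
  obtain ⟨s, hs⟩ := exists_sq_eq_neg_three hρ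
  have h3 := (mem_placesThree hρ).1 hw
  have hsw : s ∈ w.asIdeal := w.isPrime.mem_of_pow_mem 2 (hs ▸ neg_mem h3)
  have h := Ideal.pow_mem_pow hsw 2
  rw [hs] at h
  simpa using h

/-- The generator moves the places above three. -/
theorem comapPlace_three_ne {w : FinPlace L} (hw : w ∈ placesThree hρ) :
    comapPlace (cubicAut hρ : L →+* L) w ≠ w := by
  rw [Ne, cubicAut_fixed_iff_smul]
  intro h
  obtain ⟨A, hA, hAw⟩ := exists_intIdeal_eq (cubicField ρ) Nat.prime_three w.asIdeal
    (by exact_mod_cast (mem_placesThree hρ).1 hw)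
  rw [← hAw, cubicGen, ← intIdeal_smul] at h
  obtain ⟨n, hn, hnA⟩ := exists_smul_eq_of_fixed (liesOverPrime_smul hA (cycleLift hρ))
    Nat.prime_three (cubicField ρ).fixingSubgroup (InfiniteGalois.fixingSubgroup_isClosed _)
    (B := A) fun b hb => by
      obtain ⟨a, rfl⟩ := (fixed_iff_mem_range_intIncl (cubicField ρ) b).1 hb
      exact SetLike.ext_iff.1 h a
  have hD : n * cycleLift hρ ^ 1 ∈ A.decompositionSubgroup ℚ := by
    rw [mem_decompositionSubgroup_iff_eq, pow_one, mul_smul, hnA]
  exact cycleLift_notMem_decomposition hρ hA hn (by norm_num) hD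

omit [IsGalois ℚ L] in
theorem three_mem_comapPlace {w : FinPlace L} (hw : w ∈ placesThree hρ) :
    comapPlace (cubicAut hρ : L →+* L) w ∈ placesThree hρ := by
  rw [mem_placesThree] at hw ⊢
  rw [Places.mem_comapPlace, map_ofNat]
  exact hw

/-- The pull back along `cubicAut` has period three on places. -/
theorem comapPlace_cubicAut_three (w : FinPlace L) :
    comapPlace (cubicAut hρ : L →+* L) (comapPlace (cubicAut hρ : L →+* L)
      (comapPlace (cubicAut hρ : L →+* L) w)) = w := by
  refine HeightOneSpectrum.ext ?_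
  rw [comapPlace_cubicAut, comapPlace_cubicAut, comapPlace_cubicAut, smul_smul, smul_smul,
    show (cubicGen hρ)⁻¹ * (cubicGen hρ)⁻¹ * (cubicGen hρ)⁻¹ = (cubicGen hρ ^ 3)⁻¹ by group,
    cubicGen_pow_three, inv_one, one_smul]

theorem absNorm_comapPlace (w : FinPlace L) :
    Ideal.absNorm (comapPlace (cubicAut hρ : L →+* L) w).asIdeal = Ideal.absNorm w.asIdeal := by
  rw [comapPlace_cubicAut, Ideal.absNorm_apply, Ideal.absNorm_apply, Submodule.cardQuot_apply,
    Submodule.cardQuot_apply]
  exact Nat.card_congr (Ideal.quotientEquiv w.asIdeal ((cubicGen hρ)⁻¹ • w.asIdeal)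
    (MulSemiringAction.toRingEquiv _ _ (cubicGen hρ)⁻¹) rfl).symm.toEquiv

omit [IsGalois ℚ L] in
theorem absNorm_span_three :
    Ideal.absNorm (Ideal.span {(3 : 𝓞 L)}) = 3 ^ 6 := by
  rw [Ideal.absNorm_span_singleton, show (3 : 𝓞 L) = algebraMap ℤ (𝓞 L) 3 from (map_ofNat _ 3).symm,
    Algebra.norm_algebraMap, NumberField.RingOfIntegers.rank,
    finrank_cubicField hρ.continuous hρ.surjective]
  norm_num

/-- Above three: residue fields of order three, ramification index two, three places in all. -/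
theorem span_three_eq {w : FinPlace L} (hw : w ∈ placesThree hρ) :
    Ideal.absNorm w.asIdeal = 3 ∧
      Ideal.span {(3 : 𝓞 L)} = w.asIdeal ^ 2 *
        ((comapPlace (cubicAut hρ : L →+* L) w).asIdeal ^ 2 *
          (comapPlace (cubicAut hρ : L →+* L)
            (comapPlace (cubicAut hρ : L →+* L) w)).asIdeal ^ 2) := by
  set σ := comapPlace (cubicAut hρ : L →+* L) with hσ
  have hw1 := three_mem_comapPlace hρ hw
  have hw2 := three_mem_comapPlace hρ hw1
  have n01 : w ≠ σ w := (comapPlace_three_ne hρ hw).symm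
  have n12 : σ w ≠ σ (σ w) := (comapPlace_three_ne hρ hw1).symm
  have n02 : w ≠ σ (σ w) := fun e => comapPlace_three_ne hρ hw
    ((congrArg σ e).trans (comapPlace_cubicAut_three hρ w))
  have hco : ∀ {u v : FinPlace L}, u ≠ v → IsCoprime u.asIdeal v.asIdeal := fun {u v} h =>
    Ideal.isCoprime_iff_sup_eq.2 (u.isMaximal.coprime_of_ne v.isMaximal
      fun e => h (HeightOneSpectrum.ext e))
  have hle : Ideal.span {(3 : 𝓞 L)} ≤
      w.asIdeal ^ 2 * ((σ w).asIdeal ^ 2 * (σ (σ w)).asIdeal ^ 2) := by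
    rw [Ideal.span_singleton_le_iff_mem, Ideal.mul_eq_inf_of_coprime,
      Ideal.mul_eq_inf_of_coprime]
    · exact ⟨three_mem_sq hρ hw, three_mem_sq hρ hw1, three_mem_sq hρ hw2⟩
    · exact Ideal.isCoprime_iff_sup_eq.1 ((hco n12).pow)
    · exact Ideal.isCoprime_iff_sup_eq.1 (((hco n01).pow).mul_right ((hco n02).pow))
  have hd := Ideal.absNorm_dvd_absNorm_of_le hle
  simp only [absNorm_span_three hρ, map_mul, map_pow, hσ, absNorm_comapPlace] at hd
  rw [← pow_add, ← pow_add, Nat.pow_dvd_pow_iff (by norm_num)] at hd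
  have h1 : Ideal.absNorm w.asIdeal ≠ 1 := fun h => w.isPrime.ne_top
    (Ideal.absNorm_eq_one_iff.1 h)
  have hN : Ideal.absNorm w.asIdeal = 3 :=
    ((Nat.dvd_prime Nat.prime_three).1 hd).resolve_left h1
  refine ⟨hN, le_antisymm hle ?_⟩
  obtain ⟨C, hC⟩ := Ideal.dvd_iff_le.2 hle
  have hnorm := congrArg Ideal.absNorm hC
  simp only [absNorm_span_three hρ, map_mul, map_pow, hσ, absNorm_comapPlace, hN] at hnorm
  rw [← pow_add, ← pow_add] at hnorm
  have hC1 : Ideal.absNorm C = 1 :=
    Nat.eq_of_mul_eq_mul_left (by positivity) (hnorm.symm.trans (mul_one _).symm)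
  rw [Ideal.absNorm_eq_one_iff] at hC1
  rw [hC, hC1, Ideal.mul_top]

/-- The residue fields above three have three elements. -/
theorem card_residue_three {w : FinPlace L} (hw : w ∈ placesThree hρ) :
    Nat.card (Places.Residue w) = 3 := by
  rw [← (span_three_eq hρ hw).1, Ideal.absNorm_apply, Submodule.cardQuot_apply]

/-- The three places above three. -/
theorem eq_or_eq_of_three {w u : FinPlace L} (hw : w ∈ placesThree hρ)
    (hu : u ∈ placesThree hρ) : u = w ∨ u = comapPlace (cubicAut hρ : L →+* L) w ∨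
      u = comapPlace (cubicAut hρ : L →+* L) (comapPlace (cubicAut hρ : L →+* L) w) := by
  have h := (Ideal.span_singleton_le_iff_mem _).2 ((mem_placesThree hρ).1 hu)
  rw [(span_three_eq hρ hw).2] at h
  have key : ∀ v : FinPlace L, v.asIdeal ^ 2 ≤ u.asIdeal → u = v := fun v hv =>
    (HeightOneSpectrum.ext (v.isMaximal.eq_of_le u.isPrime.ne_top (u.isPrime.le_of_pow_le hv))).symm
  rcases u.isPrime.mul_le.1 h with h | h
  · exact Or.inl (key _ h)
  rcases u.isPrime.mul_le.1 h with h | h
  · exact Or.inr (Or.inl (key _ h))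
  · exact Or.inr (Or.inr (key _ h))

/-- Three has valuation two at the places above three. -/
theorem valuation_three {w : FinPlace L} (hw : w ∈ placesThree hρ) :
    w.valuation L (3 : L) = exp (-2 : ℤ) := by
  have h2 : w.intValuation (3 : 𝓞 L) ≤ exp (-((2 : ℕ) : ℤ)) :=
    (w.intValuation_le_pow_iff_mem _ 2).2 (three_mem_sq hρ hw)
  have h3 : ¬ w.intValuation (3 : 𝓞 L) ≤ exp (-((3 : ℕ) : ℤ)) := fun h => by
    have hm := (Ideal.span_singleton_le_iff_mem _).2 ((w.intValuation_le_pow_iff_mem _ 3).1 h)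
    rw [(span_three_eq hρ hw).2, ← Ideal.dvd_iff_le, show (3 : ℕ) = 2 + 1 from rfl,
      pow_succ] at hm
    have hm' := (mul_dvd_mul_iff_left (pow_ne_zero 2 w.ne_bot)).1 hm
    rcases w.prime.dvd_mul.1 hm' with h | h <;> replace h := w.prime.dvd_of_dvd_pow h <;>
      rw [Ideal.dvd_iff_le] at h
    · exact comapPlace_three_ne hρ hw (HeightOneSpectrum.ext
        ((HeightOneSpectrum.isMaximal _).eq_of_le w.isPrime.ne_top h))
    · refine comapPlace_three_ne hρ hw ?_
      conv_rhs => rw [← comapPlace_cubicAut_three hρ w,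
        show comapPlace (cubicAut hρ : L →+* L) (comapPlace (cubicAut hρ : L →+* L) w) = w from
          HeightOneSpectrum.ext ((HeightOneSpectrum.isMaximal _).eq_of_le w.isPrime.ne_top h)]
  have h0 : w.intValuation (3 : 𝓞 L) ≠ 0 := w.intValuation_ne_zero _ (by norm_num)
  rw [show (3 : L) = algebraMap (𝓞 L) L 3 from (map_ofNat _ 3).symm,
    HeightOneSpectrum.valuation_of_algebraMap, ← exp_log h0, exp_inj]
  rw [← exp_log h0, exp_le_exp] at h2 h3
  omega

/-- The decomposition group above three has order prime to three. -/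
theorem not_three_dvd_card_stabilizer {w : FinPlace L} (hw : w ∈ placesThree hρ) :
    ¬ 3 ∣ Nat.card (MulAction.stabilizer (L ≃ₐ[ℚ] L) w.asIdeal) := by
  intro h
  have : Fact (Nat.Prime 3) := ⟨Nat.prime_three⟩
  obtain ⟨g, hg⟩ := exists_prime_orderOf_dvd_card' 3 h
  have hg' : orderOf (g : L ≃ₐ[ℚ] L) = 3 := (Subgroup.orderOf_coe g).trans hg
  exact comapPlace_three_ne hρ hw ((cubicAut_fixed_iff_smul hρ w).2
    (cubicGen_mem_of_order_three hρ _ g.2 (hg' ▸ pow_orderOf_eq_one _)
      fun e => by rw [e, orderOf_one] at hg'; omega))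

/-- Outside the level the cubic field is unramified over `ℚ`. -/
theorem not_differentIdeal_le {v : FinPlace L} (hQ : v ∉ placesTame hρ)
    (hR : v ∉ placesThree hρ) : ¬ differentIdeal ℤ (𝓞 L) ≤ v.asIdeal := by
  obtain ⟨p, hp, hpv⟩ : ∃ p : ℕ, p.Prime ∧ (p : 𝓞 L) ∈ v.asIdeal :=
    ⟨_, Places.resPrime_prime v, Places.natCast_mem v⟩
  have hp3 : p ≠ 3 := fun e => hR ((mem_placesThree hρ).2 (by subst e; exact_mod_cast hpv))
  have hpr : p ∉ ramSet hρ := fun h => hQ ((mem_placesTame hρ).2 ⟨p, h, hpv⟩)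
  obtain ⟨A, hA, hAv⟩ := exists_intIdeal_eq (cubicField ρ) hp v.asIdeal hpv
  have hun : Algebra.IsUnramifiedAt ℤ (intIdeal (cubicField ρ) A) :=
    (inertia_le_fixingSubgroup_iff (cubicField ρ) hA hp).1 fun τ hτ =>
      (mem_fixingSubgroup_fixH hρ.continuous).2
        (isUnramAt_of_notMem hρ hp hp3 hpr A hA τ hτ ▸ one_mem quatGroup)
  rw [← hAv, ← Ideal.dvd_iff_le]
  exact not_dvd_differentIdeal_iff.2 hun

/-- The places above three are ramified. -/
theorem differentIdeal_le_of_three {w : FinPlace L} (hw : w ∈ placesThree hρ) :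
    differentIdeal ℤ (𝓞 L) ≤ w.asIdeal := by
  obtain ⟨A, hA, hAw⟩ := exists_intIdeal_eq (cubicField ρ) Nat.prime_three w.asIdeal
    (by exact_mod_cast (mem_placesThree hρ).1 hw)
  rw [← hAw, ← Ideal.dvd_iff_le, dvd_differentIdeal_iff]
  intro hun
  obtain ⟨τ, hτ, hτn⟩ := exists_inertia_three_notMem hρ hA
  exact hτn (IntermediateField.fixingSubgroup_le eisSub_le_cubicField
    ((inertia_le_fixingSubgroup_iff (cubicField ρ) hA Nat.prime_three).2 hun hτ))

end Fermat.Agent.LT.Descent

end
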