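import Fermat.Agent.LT.Descent.Levels
import Fermat.Agent.LT.Descent.Form
import Fermat.Agent.LT.Descent.LevelPlaces
import Fermat.Agent.LT.PlaceMatching.Frame
import Fermat.Agent.LT.Asai.EisPrimes

/-!
# The places of the cubic field and the levels of cubic descent

A place of `L` prime to three is tame for `cubicAut` exactly when it lies over a prime of
`ramSet`, the places over three are moved, and the levels of `Descent.Levels` match. Over a prime
of `EisField` split in `L` there are three places, permuted cyclically by `cubicAut`.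
-/

set_option autoImplicit false

noncomputable section

open IsDedekindDomain NumberField WithZero
open scoped NumberField Pointwise
open Fermat.Agent.GaloisBasics
open Fermat.Agent.LT.Final (GF3 upperUni)
open Fermat.Agent.LT.Places
open Fermat.Agent.LT.PlaceMatching

namespace Fermat.Agent.LT.Descent

open GaloisData

/-- A prime number in a place is its residue characteristic. -/
theorem prime_eq_resPrime {F : Type*} [Field F] [NumberField F] {w : FinPlace F} {r : ℕ}
    (hr : r.Prime) (h : (r : 𝓞 F) ∈ w.asIdeal) : r = (resPrime w : ℕ) :=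
  congrArg Subtype.val (eq_resPrime (p := ⟨r, hr⟩) h)

/-- Away from three the rational primes are uniformisers of `EisField`. -/
theorem valuation_eis_prime {q : ℕ} (hq : q.Prime) (h3 : q ≠ 3) {v : FinPlace EisField}
    (hv : (q : 𝓞 EisField) ∈ v.asIdeal) : v.valuation EisField (q : EisField) = exp (-1 : ℤ) := by
  have hne : q % 3 ≠ 0 := fun h => h3
    ((Nat.prime_dvd_prime_iff_eq Nat.prime_three hq).1 (Nat.dvd_of_mod_eq_zero h)).symm
  have hexp : Asai.placeExp v q = 1 := by
    rcases (show q % 3 = 1 ∨ q % 3 = 2 by omega) with h | h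
    · obtain ⟨a, b, -, hab, -, -, ha, hb⟩ := Asai.exists_split_places hq h
      rcases (hab v).1 hv with rfl | rfl
      · exact ha
      · exact hb
    · obtain ⟨a, ha, -, he⟩ := Asai.exists_inert_place hq h
      rwa [(ha v).1 hv]
  rw [Asai.valuation_eq_exp_placeExp v hq.pos, hexp, Nat.cast_one]

/-- The maximal ideal generates the maximal ideal of the completion. -/
theorem locIdeal_self {F : Type*} [Field F] [NumberField F] (w : FinPlace F) :
    locIdeal w.asIdeal w = Ideal.span {piInt w} := by
  refine le_antisymm ?_ ?_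
  · rw [locIdeal, Ideal.map_le_iff_le_comap]
    intro a ha
    rw [Ideal.mem_comap, Ideal.mem_span_singleton, piInt_dvd_iff, valued_toInt]
    exact (w.valuation_lt_one_iff_mem a).2 ha
  · rw [Ideal.span_singleton_le_iff_mem]
    obtain ⟨π, hπ⟩ := w.intValuation_exists_uniformizer
    have hv : Valued.v (toInt w π : w.adicCompletion F) = exp (-1 : ℤ) := by
      rw [valued_toInt, RingOfIntegers.coe_eq_algebraMap, HeightOneSpectrum.valuation_of_algebraMap,
        hπ]
    have hmem : π ∈ w.asIdeal := by
      refine (w.valuation_lt_one_iff_mem (K := F) π).1 ?_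
      rw [HeightOneSpectrum.valuation_of_algebraMap, hπ, ← exp_zero, exp_lt_exp]
      omega
    refine Ideal.mem_of_dvd _ ?_ (Ideal.mem_map_of_mem (toInt w) hmem)
    rw [dvd_iff_valued ((Valuation.ne_zero_iff Valued.v).1 (by rw [hv]; exact exp_ne_zero)),
      valued_piInt, hv]

theorem mem_span_toInt_iff {F : Type*} [Field F] [NumberField F] {w : FinPlace F} {n : ℕ}
    (hn : 0 < n) {x : intRing w} :
    x ∈ Ideal.span {toInt w (n : 𝓞 F)} ↔
      Valued.v (x : w.adicCompletion F) ≤ w.valuation F (n : F) := by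
  have hv : Valued.v (toInt w (n : 𝓞 F) : w.adicCompletion F) = w.valuation F (n : F) := by
    rw [valued_toInt, RingOfIntegers.coe_eq_algebraMap, map_natCast]
  rw [Ideal.mem_span_singleton, dvd_iff_valued ((Valuation.ne_zero_iff Valued.v).1 (by
    rw [hv]; exact valuation_natCast_ne_zero w hn)), hv]

variable {ρ : GalQ →* GF3} (hρ : IsSupersingularRep ρ) [NumberField (cubicField ρ)]

/-- The generator of `Gal(L / K)` on the integers. -/
abbrev cubicInt : 𝓞 (cubicField ρ) →+* 𝓞 (cubicField ρ) :=
  RingOfIntegers.mapRingHom (cubicAut hρ : cubicField ρ →+* cubicField ρ)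

/-- The generator of `Gal(L / K)` as a `ℚ`-automorphism. -/
def cubicGal : cubicField ρ ≃ₐ[ℚ] cubicField ρ :=
  haveI := isGalois_fixH hρ.continuous quatGroup
  restrictK (cubicField ρ) (cycleLift hρ)

omit [NumberField (cubicField ρ)] in
theorem cubicGal_smul (a : 𝓞 (cubicField ρ)) : cubicGal hρ • a = cubicInt hρ a :=
  RingOfIntegers.ext rfl

/-- The generator is trivial on the residue field of `w`. -/
def IsResTrivial (w : FinPlace (cubicField ρ)) : Prop :=
  ∀ a, cubicInt hρ a - a ∈ w.asIdeal

/-- A residually trivial place is fixed by `cubicAut`. -/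
theorem IsResTrivial.fixed {w : FinPlace (cubicField ρ)} (h : IsResTrivial hρ w) :
    comapPlace (cubicAut hρ : cubicField ρ →+* cubicField ρ) w = w := by
  refine HeightOneSpectrum.ext (Ideal.ext fun a => ?_)
  rw [mem_comapPlace]
  refine ⟨fun h' => ?_, fun h' => ?_⟩
  · simpa using sub_mem h' (h a)
  · simpa using add_mem h' (h a)

omit [NumberField (cubicField ρ)] in
/-- Where `ρ` is unramified the generator moves the residue field. -/
theorem not_isResTrivial_of_isUnramAt {q : ℕ} (hq : q.Prime) (hI : IsUnramAt ρ q)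
    {w : FinPlace (cubicField ρ)} (hw : (q : 𝓞 (cubicField ρ)) ∈ w.asIdeal) :
    ¬ IsResTrivial hρ w := by
  intro h
  have := isGalois_fixH hρ.continuous quatGroup
  have := w.isPrime
  obtain ⟨A, hA, hAw⟩ := exists_intIdeal_eq (cubicField ρ) hq w.asIdeal hw
  have hin : cubicGal hρ ∈ (intIdeal (cubicField ρ) A).inertia
      (cubicField ρ ≃ₐ[ℚ] cubicField ρ) := fun a => by
    show cubicGal hρ • a - a ∈ intIdeal (cubicField ρ) A
    rw [hAw, cubicGal_smul]
    exact h a
  rw [← map_inertiaSubgroupIn (cubicField ρ) hA hq, Subgroup.mem_map] at hin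
  obtain ⟨τ, hτ, e⟩ := hin
  have h1 : restrictK (cubicField ρ) τ = 1 := by
    rw [← MonoidHom.mem_ker, ker_restrictK]
    exact (mem_fixingSubgroup_fixH hρ.continuous).2 (by rw [hI A hA τ hτ]; exact one_mem _)
  rw [h1] at e
  exact cubicAut_ne_one hρ (RingEquiv.ext fun x => (DFunLike.congr_fun e x).symm)

omit [NumberField (cubicField ρ)] in
/-- At a ramified prime the generator is trivial on the residue field. -/
theorem isResTrivial_of_mem_ramSet {q : ℕ} (hq : q ∈ ramSet hρ) {w : FinPlace (cubicField ρ)}
    (hw : (q : 𝓞 (cubicField ρ)) ∈ w.asIdeal) : IsResTrivial hρ w :=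
  have := isGalois_fixH hρ.continuous quatGroup
  cubicAut_sub_mem hρ ((mem_placesTame hρ).2 ⟨q, hq, hw⟩)

theorem placeIso_toInt {w : FinPlace (cubicField ρ)}
    (h : comapPlace (cubicAut hρ : cubicField ρ →+* cubicField ρ) w = w) (a : 𝓞 (cubicField ρ)) :
    placeIso (cubicAut hρ) h (toInt w a : w.adicCompletion (cubicField ρ)) =
      toInt w (cubicInt hρ a) := by
  rw [coe_toInt, coe_toInt, placeIso_apply, placeMap_algebraMap]
  rfl

/-- A tame place has trivial residual action. -/
theorem isResTrivial_of_isTame {w : FinPlace (cubicField ρ)} (hw : IsTame (cubicAut hρ) w)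
    (h3 : (3 : 𝓞 (cubicField ρ)) ∉ w.asIdeal) : IsResTrivial hρ w := by
  intro a
  have h := (hw.datum (isCubic_cubicAut hρ) h3).residue_fixed (toInt w a)
  rw [piInt_dvd_iff, AddSubgroupClass.coe_sub] at h
  rw [show (((levelAutSpan (uniformizer_piInt w) (placeIso_pow_three (isCubic_cubicAut hρ).pow
    hw.fixed) (fun _ => placeIso_mem hw.fixed)).aut (toInt w a) : intRing w) :
      w.adicCompletion (cubicField ρ)) = placeIso (cubicAut hρ) hw.fixed (toInt w a) from rfl,
    placeIso_toInt, ← AddSubgroupClass.coe_sub, ← map_sub, valued_toInt] at h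
  exact (w.valuation_lt_one_iff_mem _).1 h

/-- An inert place does not have trivial residual action. -/
theorem not_isInert_of_isResTrivial {w : FinPlace (cubicField ρ)} (hres : IsResTrivial hρ w)
    (h3 : (3 : 𝓞 (cubicField ρ)) ∉ w.asIdeal) : ¬ IsInert (cubicAut hρ) w := by
  intro hw
  obtain ⟨t, ht, _, k, _, _, ⟨D⟩⟩ := hw.exists_datum (isCubic_cubicAut hρ) h3
  have hone : D.resAut = 1 := by
    refine RingEquiv.ext fun y => ?_
    obtain ⟨x, rfl⟩ := D.res_surjective y
    rw [← D.res_comm, RingAut.one_apply, ← sub_eq_zero, ← map_sub, D.dvd_iff,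
      dvd_iff_valued ht.ne_zero, valued_uniformizer ht, AddSubgroupClass.coe_sub]
    obtain ⟨o, ho⟩ := exists_integer_near w (mem_intRing.mp x.2) one_ne_zero
    set τ := placeIso (cubicAut hρ) hw.fixed
    set d := (toInt w o : w.adicCompletion (cubicField ρ)) - (x : w.adicCompletion (cubicField ρ))
    have hd : Valued.v d < 1 := ho
    have hσ : Valued.v (τ (toInt w o : w.adicCompletion (cubicField ρ)) - toInt w o) < 1 := by
      rw [placeIso_toInt, ← AddSubgroupClass.coe_sub, ← map_sub, valued_toInt]
      exact (w.valuation_lt_one_iff_mem _).2 (hres o)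
    have hlt : Valued.v (τ (x : w.adicCompletion (cubicField ρ)) - x) < 1 := by
      rw [show τ (x : w.adicCompletion (cubicField ρ)) - x =
        (τ (toInt w o : w.adicCompletion (cubicField ρ)) - toInt w o) + (d - τ d) by
        simp only [d, map_sub]; ring]
      refine (Valued.v.map_add _ _).trans_lt (max_lt hσ ((Valued.v.map_sub _ _).trans_lt ?_))
      exact max_lt hd (by rw [valued_placeIso]; exact hd)
    have h := piInt_dvd_iff.2 (show Valued.v
      ((⟨_, sub_mem (placeIso_mem hw.fixed x.2) x.2⟩ : intRing w) :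
        w.adicCompletion (cubicField ρ)) < 1 from hlt)
    rw [dvd_iff_valued (piLocal w).ne_zero, valued_piInt] at h
    exact h
  exact absurd (D.resAut_injective (a₁ := (0 : Fin 3)) (a₂ := 1) (by simp [hone])) (by decide)

/-- The places over three are moved. -/
theorem moved_of_three_mem {w : FinPlace (cubicField ρ)}
    (h3 : (3 : 𝓞 (cubicField ρ)) ∈ w.asIdeal) :
    comapPlace (cubicAut hρ : cubicField ρ →+* cubicField ρ) w ≠ w :=
  have := isGalois_fixH hρ.continuous quatGroup
  comapPlace_three_ne hρ ((mem_placesThree hρ).2 h3)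

omit [NumberField (cubicField ρ)] in
theorem isUnramAt_resPrime {w : FinPlace (cubicField ρ)}
    (h3 : (3 : 𝓞 (cubicField ρ)) ∉ w.asIdeal) (h : w ∉ placesTame hρ) :
    IsUnramAt ρ (resPrime w : ℕ) :=
  isUnramAt_of_notMem hρ (resPrime_prime w) (fun e => h3 (by
    have := natCast_mem w
    rwa [e, Nat.cast_ofNat] at this))
    fun hq => h ((mem_placesTame hρ).2 ⟨_, hq, natCast_mem w⟩)

omit [NumberField (cubicField ρ)] in
/-- A tame place does not contain three. -/
theorem three_notMem_of_placesTame {w : FinPlace (cubicField ρ)} (h : w ∈ placesTame hρ) :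
    (3 : 𝓞 (cubicField ρ)) ∉ w.asIdeal := fun h3 =>
  Finset.disjoint_left.1 (disjoint_places hρ) h ((mem_placesThree hρ).2 h3)

/-- **The tame places are those over the ramified primes.** -/
theorem isTame_iff (w : FinPlace (cubicField ρ)) :
    IsTame (cubicAut hρ) w ↔ w ∈ placesTame hρ := by
  refine ⟨fun hw => ?_, fun hw => ?_⟩
  · have h3 : (3 : 𝓞 (cubicField ρ)) ∉ w.asIdeal := fun h3 => moved_of_three_mem hρ h3 hw.fixed
    by_contra h
    exact not_isResTrivial_of_isUnramAt hρ (resPrime_prime w) (isUnramAt_resPrime hρ h3 h)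
      (natCast_mem w) (isResTrivial_of_isTame hρ hw h3)
  · obtain ⟨q, hq, hqw⟩ := (mem_placesTame hρ).1 hw
    have hres := isResTrivial_of_mem_ramSet hρ hq hqw
    rcases moved_or_inert_or_tame (σ := cubicAut hρ) w with h | h | h
    · exact absurd (IsResTrivial.fixed hρ hres) h
    · exact absurd h (not_isInert_of_isResTrivial hρ hres (three_notMem_of_placesTame hρ hw))
    · exact h

theorem not_isInert_of_placesTame {w : FinPlace (cubicField ρ)} (hw : w ∈ placesTame hρ) :
    ¬ IsInert (cubicAut hρ) w := by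
  obtain ⟨q, hq, hqw⟩ := (mem_placesTame hρ).1 hw
  exact not_isInert_of_isResTrivial hρ (isResTrivial_of_mem_ramSet hρ hq hqw)
    (three_notMem_of_placesTame hρ hw)

theorem locIdeal_levelI_tame {w : FinPlace (cubicField ρ)} (hw : w ∈ placesTame hρ) :
    locIdeal (levelI hρ) w = Ideal.span {piInt w} := by
  classical
  have h1 : locIdeal (Ideal.span {(3 : 𝓞 (cubicField ρ))}) w = ⊤ := locIdeal_eq_top fun h =>
    three_notMem_of_placesTame hρ hw ((Ideal.span_singleton_le_iff_mem _).1 h)
  have h2 : locIdeal (∏ u ∈ (placesTame hρ).erase w, u.asIdeal) w = ⊤ := locIdeal_eq_top fun h => by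
    obtain ⟨u, hu, huw⟩ := w.isPrime.prod_le.1 h
    exact (Finset.mem_erase.1 hu).1
      (HeightOneSpectrum.ext (u.isMaximal.eq_of_le w.isPrime.ne_top huw))
  rw [levelI, ← Finset.mul_prod_erase _ _ hw, locIdeal, Ideal.map_mul, Ideal.map_mul]
  show locIdeal _ w * (locIdeal _ w * locIdeal _ w) = _
  rw [h1, h2, locIdeal_self, Ideal.mul_top, Ideal.top_mul]

theorem locIdeal_levelI_three {w : FinPlace (cubicField ρ)} (hw : w ∈ placesThree hρ) :
    locIdeal (levelI hρ) w = Ideal.span {toInt w ((3 : ℕ) : 𝓞 (cubicField ρ))} := by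
  classical
  have h2 : locIdeal (∏ u ∈ placesTame hρ, u.asIdeal) w = ⊤ := locIdeal_eq_top fun h => by
    obtain ⟨u, hu, huw⟩ := w.isPrime.prod_le.1 h
    rw [HeightOneSpectrum.ext (u.isMaximal.eq_of_le w.isPrime.ne_top huw)] at hu
    exact Finset.disjoint_left.1 (disjoint_places hρ) hu hw
  rw [levelI, locIdeal, Ideal.map_mul]
  show locIdeal _ w * locIdeal _ w = _
  rw [h2, Ideal.mul_top, locIdeal, Ideal.map_span, Set.image_singleton, Nat.cast_ofNat]

omit [NumberField (cubicField ρ)] in
theorem notMem_eis_prod {v : FinPlace EisField} {s : Finset ℕ} (hs : s ⊆ ramSet hρ)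
    (h : ∀ r ∈ s, r ≠ (resPrime v : ℕ)) : ((∏ r ∈ s, r : ℕ) : 𝓞 EisField) ∉ v.asIdeal := by
  rw [Nat.cast_prod]
  intro hm
  obtain ⟨r, hr, hrv⟩ := v.isPrime.prod_mem_iff.1 hm
  exact h r hr (prime_eq_resPrime (prime_of_mem_ramSet hρ (hs hr)) hrv)

/-- **The levels match.** -/
theorem levelsMatch : LevelsMatch (eisToCubic hρ).toRingHom (cubicAut hρ) (levelI hρ)
    (Ideal.span {(levelN hρ : 𝓞 EisField)}) where
  three w h3 := moved_of_three_mem hρ h3
  inert w hw := locIdeal_eq_top fun h => by
    rcases (levelI_le_iff hρ w).1 h with h' | h'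
    · exact not_isInert_of_placesTame hρ h' hw
    · exact moved_of_three_mem hρ ((mem_placesThree hρ).1 h') hw.fixed
  tame w hw := locIdeal_levelI_tame hρ ((isTame_iff hρ w).1 hw)
  mem_iff w v hv x := by
    classical
    have hqv : ((resPrime w : ℕ) : 𝓞 EisField) ∈ v.asIdeal := by
      rw [← hv, mem_comapPlace, map_natCast]
      exact natCast_mem w
    have hres : (resPrime w : ℕ) = resPrime v := prime_eq_resPrime (resPrime_prime w) hqv
    have hJ : locIdeal (Ideal.span {(levelN hρ : 𝓞 EisField)}) v =
        Ideal.span {toInt v (levelN hρ : 𝓞 EisField)} := by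
      rw [locIdeal, Ideal.map_span, Set.image_singleton]
    by_cases h3 : w ∈ placesThree hρ
    · have hq3 : 3 = (resPrime v : ℕ) := (prime_eq_resPrime (w := w) Nat.prime_three
        (by exact_mod_cast (mem_placesThree hρ).1 h3)).trans hres
      rw [locIdeal_levelI_three hρ h3, hJ, mem_span_toInt_iff three_pos,
        mem_span_toInt_iff (levelN_pos hρ), coe_placeMapInt]
      obtain ⟨e, he, hval, hmap⟩ := exists_valued_placeMap hv
      have hrest : v.valuation EisField ((∏ r ∈ ramSet hρ, r : ℕ) : EisField) = 1 :=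
        valuation_natCast_eq_one (notMem_eis_prod hρ Finset.Subset.rfl fun r hr e' =>
          three_notMem_ramSet hρ (by rwa [← hq3.trans e'.symm] at hr))
      have h33 : w.valuation (cubicField ρ) ((3 : ℕ) : cubicField ρ) =
          v.valuation EisField ((3 : ℕ) : EisField) ^ e := by
        rw [← hval, map_natCast (eisToCubic hρ).toRingHom]
      rw [hmap, h33, levelN, Nat.cast_mul, map_mul, hrest, mul_one,
        pow_le_pow_iff_left₀ zero_le zero_le he]
    · by_cases ht : w ∈ placesTame hρ
      · obtain ⟨q, hq, hqw⟩ := (mem_placesTame hρ).1 ht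
        obtain rfl := prime_eq_resPrime (prime_of_mem_ramSet hρ hq) hqw
        obtain ⟨hqp, hq3, -⟩ := (mem_ramSet hρ).1 hq
        have hvN : v.valuation EisField (levelN hρ : EisField) = exp (-1 : ℤ) := by
          rw [levelN, ← Finset.mul_prod_erase _ _ hq, Nat.cast_mul, Nat.cast_mul, map_mul, map_mul,
            valuation_eis_prime hqp hq3 hqv,
            valuation_natCast_eq_one (notMem_eis_prod hρ (Finset.erase_subset _ _) fun r hr e =>
              (Finset.mem_erase.1 hr).1 (e.trans hres.symm)),
            valuation_natCast_eq_one fun h => hq3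
              ((prime_eq_resPrime Nat.prime_three h).trans hres.symm).symm, one_mul, mul_one]
        rw [locIdeal_levelI_tame hρ ht, hJ, mem_span_toInt_iff (levelN_pos hρ), hvN,
          Ideal.mem_span_singleton, piInt_dvd_iff, coe_placeMapInt, lt_iff_le_and_ne, Ne,
          valued_placeMap_le_one_iff hv, valued_placeMap_eq_one_iff hv, ← Ne, ← lt_iff_le_and_ne,
          ← piInt_dvd_iff, dvd_iff_valued (piLocal v).ne_zero, valued_piInt]
      · have hI : locIdeal (levelI hρ) w = ⊤ := locIdeal_eq_top fun h =>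
          ((levelI_le_iff hρ w).1 h).elim ht h3
        have hJ' : locIdeal (Ideal.span {(levelN hρ : 𝓞 EisField)}) v = ⊤ := by
          refine locIdeal_eq_top fun h => ?_
          rw [Ideal.span_singleton_le_iff_mem, levelN, Nat.cast_mul] at h
          rcases v.isPrime.mem_or_mem h with h' | h'
          · have e := (prime_eq_resPrime Nat.prime_three h').trans hres.symm
            refine h3 ((mem_placesThree hρ).2 ?_)
            have := natCast_mem w
            rw [← e] at this
            exact_mod_cast this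
          · refine notMem_eis_prod hρ Finset.Subset.rfl (fun r hr e => ht ?_) h'
            exact (mem_placesTame hρ).2 ⟨r, hr, by rw [e, ← hres]; exact natCast_mem w⟩
        rw [hI, hJ']
        simp

/-! ### The places over a split prime -/

variable {N : ℕ} {T : Finset ℕ}

/-- One of the places over a split prime. -/
def basePlace (P : splitSet ρ N T) : FinPlace (cubicField ρ) :=
  (exists_placeAbove (eisToCubic hρ).toRingHom (splitPlace P)).choose

theorem comapPlace_basePlace (P : splitSet ρ N T) :
    comapPlace (eisToCubic hρ).toRingHom (basePlace hρ P) = splitPlace P :=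
  (exists_placeAbove (eisToCubic hρ).toRingHom (splitPlace P)).choose_spec

/-- The three places over a split prime. -/
def abovePlace (P : splitSet ρ N T) (i : Fin 3) : FinPlace (cubicField ρ) :=
  (comapPlace (cubicAut hρ : cubicField ρ →+* cubicField ρ))^[(i : ℕ)] (basePlace hρ P)

theorem comapPlace_abovePlace (P : splitSet ρ N T) (i : Fin 3) :
    comapPlace (eisToCubic hρ).toRingHom (abovePlace hρ P i) = splitPlace P := by
  unfold abovePlace
  induction (i : ℕ) with
  | zero => exact comapPlace_basePlace hρ P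
  | succ n ih => rw [Function.iterate_succ_apply', comapPlace_base (isCubic_cubicAut hρ).fixed, ih]

/-- The three primes over a split prime. -/
def above (P : splitSet ρ N T) (i : Fin 3) : Ideal (𝓞 (cubicField ρ)) :=
  (abovePlace hρ P i).asIdeal

/-- The ideals above a split prime are prime. -/
theorem above_prime (P : splitSet ρ N T) (i : Fin 3) : (above hρ P i).IsPrime :=
  (abovePlace hρ P i).isPrime

/-- They lie over the split prime. -/
theorem above_comap (P : splitSet ρ N T) (i : Fin 3) :
    (above hρ P i).comap (eisIntHom hρ) = P.1 :=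
  congrArg HeightOneSpectrum.asIdeal (comapPlace_abovePlace hρ P i)

/-- The places over a split prime are moved. -/
theorem moved_of_split (P : splitSet ρ N T) {w : FinPlace (cubicField ρ)}
    (hw : comapPlace (eisToCubic hρ).toRingHom w = splitPlace P) :
    comapPlace (cubicAut hρ : cubicField ρ →+* cubicField ρ) w ≠ w := by
  intro h
  obtain ⟨p, A, σ, f, hp, -, -, hA, hI, hσ, hnorm, hq⟩ := P.2.2.2.2
  have hP : w.asIdeal.comap (eisIntHom hρ) = P.1 := congrArg HeightOneSpectrum.asIdeal hw
  have hpw : (p : 𝓞 (cubicField ρ)) ∈ w.asIdeal := by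
    have h1 := Ideal.absNorm_mem P.1
    rw [hnorm, Nat.cast_pow] at h1
    have h2 := P.2.1.mem_of_pow_mem f h1
    rwa [← hP, Ideal.mem_comap, map_natCast] at h2
  have := w.isPrime
  have hN := (exists_place_of_split hρ hp hA hI hσ hq w.asIdeal hpw (by rw [hP]; exact hnorm)).1
  refine not_isResTrivial_of_isUnramAt hρ hp
    (fun B hB => map_inertia_eq_one_of_one_place ρ hA hp hI hB) hpw fun a => ?_
  set red := Ideal.quotientMap w.asIdeal (eisIntHom hρ) (le_refl (w.asIdeal.comap (eisIntHom hρ)))
  have hfin : Finite (𝓞 (cubicField ρ) ⧸ w.asIdeal) :=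
    Ring.HasFiniteQuotients.finiteQuotient w.ne_bot
  have hbij : Function.Bijective red := by
    refine (Nat.bijective_iff_injective_and_card red).2 ⟨Ideal.quotientMap_injective, ?_⟩
    rw [← Submodule.cardQuot_apply, ← Submodule.cardQuot_apply, ← Ideal.absNorm_apply,
      ← Ideal.absNorm_apply, hP, hnorm, hN]
  obtain ⟨b, hb⟩ := hbij.2 (Ideal.Quotient.mk _ a)
  obtain ⟨b, rfl⟩ := Ideal.Quotient.mk_surjective b
  rw [Ideal.quotientMap_mk, eq_comm, Ideal.Quotient.eq] at hb
  have hfixb : cubicInt hρ (eisIntHom hρ b) = eisIntHom hρ b :=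
    RingOfIntegers.ext ((cubicAut_fixed_iff hρ _).2 ⟨(b : EisField), rfl⟩)
  have hσa : cubicInt hρ (a - eisIntHom hρ b) ∈ w.asIdeal := by
    rw [← mem_comapPlace, h]
    exact hb
  rw [map_sub, hfixb] at hσa
  simpa using sub_mem hσa hb

/-- The places above a split prime are moved by `cubicAut`. -/
theorem moved_abovePlace (P : splitSet ρ N T) (i : Fin 3) :
    comapPlace (cubicAut hρ : cubicField ρ →+* cubicField ρ) (abovePlace hρ P i) ≠
      abovePlace hρ P i :=
  moved_of_split hρ P (comapPlace_abovePlace hρ P i)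

/-- Every place over a split prime is one of the three. -/
theorem exists_abovePlace_eq (P : splitSet ρ N T) {w : FinPlace (cubicField ρ)}
    (hw : comapPlace (eisToCubic hρ).toRingHom w = splitPlace P) :
    ∃ i, abovePlace hρ P i = w := by
  rcases eq_of_comapPlace_eq (isCubic_cubicAut hρ).fixed (isCubic_cubicAut hρ).pow
    ((comapPlace_basePlace hρ P).trans hw.symm) with h | h | h
  exacts [⟨0, h.symm⟩, ⟨1, h.symm⟩, ⟨2, h.symm⟩]

/-- The level is trivial at the places over the split primes. -/
theorem not_levelI_le_abovePlace (P : splitSet ρ (levelN hρ) T) (i : Fin 3) :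
    ¬ levelI hρ ≤ (abovePlace hρ P i).asIdeal := by
  refine fun h => P.2.2.2.1 ?_
  obtain ⟨r, hr, hrw⟩ : ∃ r : ℕ, r ∣ levelN hρ ∧
      (r : 𝓞 (cubicField ρ)) ∈ (abovePlace hρ P i).asIdeal := by
    rcases (levelI_le_iff hρ _).1 h with h' | h'
    · obtain ⟨q, hq, hqw⟩ := (mem_placesTame hρ).1 h'
      exact ⟨q, (dvd_levelN_iff hρ (prime_of_mem_ramSet hρ hq)).2 (Or.inr hq), hqw⟩
    · exact ⟨3, three_dvd_levelN hρ, by exact_mod_cast (mem_placesThree hρ).1 h'⟩
  obtain ⟨c, hc⟩ := hr
  have hm : (levelN hρ : 𝓞 (cubicField ρ)) ∈ (abovePlace hρ P i).asIdeal := by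
    have e : (levelN hρ : 𝓞 (cubicField ρ)) = (r : 𝓞 (cubicField ρ)) * c := by
      rw [← Nat.cast_mul, ← hc]
    rw [e]
    exact Ideal.mul_mem_right _ _ hrw
  have := above_comap hρ P i
  rw [← this, Ideal.mem_comap, map_natCast]
  exact hm

end Fermat.Agent.LT.Descent

end
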