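import Fermat.Agent.LT.Descent.Sides
import Fermat.Agent.LT.Descent.PlacesData

/-!
# The places of the cubic field used by the comparison

`cubicPlaces` takes the places above three with their residue fields of order three and the three
places over each split prime, permuted cyclically by `cubicAut`.
-/

set_option autoImplicit false

noncomputable section

open scoped NumberField
open Fermat.Agent.GaloisBasics
open Fermat.Agent.LT.Final (GF3)

namespace Fermat.Agent.LT.Descent

open GaloisData

variable {ρ : GalQ →* GF3} (hρ : IsSupersingularRep ρ) [NumberField (cubicField ρ)]

omit [NumberField (cubicField ρ)] in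
/-- There is a place above three. -/
theorem placesThree_nonempty : (placesThree hρ).Nonempty := by
  obtain ⟨A, hA⟩ := exists_liesOverPrime Nat.prime_three
  have h3 := natCast_mem_intIdeal (cubicField ρ) hA
  exact ⟨⟨intIdeal (cubicField ρ) A, intIdeal_isPrime _ _, fun h => by
    rw [h, Ideal.mem_bot, Nat.cast_eq_zero] at h3
    omega⟩, (mem_placesThree hρ).2 (by exact_mod_cast h3)⟩

/-- The choice of the places. -/
def cubicPlaces : CubicPlaces hρ where
  three :=
    haveI := isGalois_fixH hρ.continuous quatGroup
    { places := placesThree hρ
      card_residue := fun _ hv => card_residue_three hρ hv }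
  three_places := rfl
  three_nonempty := placesThree_nonempty hρ
  pl := abovePlace hρ
  pl_comap := above_comap hρ
  pl_good := not_levelI_le_abovePlace hρ

@[simp] theorem cubicPlaces_pl : (cubicPlaces hρ).pl = abovePlace hρ := rfl

/-- The places of the type are those above three. -/
theorem cubicPlaces_three : (cubicPlaces hρ).three.places = placesThree hρ := rfl

end Fermat.Agent.LT.Descent

end
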