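import Fermat.Agent.LT.Setup.IdealLevel
import Fermat.Agent.LT.Reduction.Integral

/-!
# The ideal level of a rational integer is the principal level

`Level.ofIdeal` of the ideal generated by `N` is `Level.principal N`: congruences modulo `N` of the
integral adeles can be checked on either description.
-/

set_option autoImplicit false

noncomputable section

open scoped NumberField

namespace Fermat.Agent.LT

variable {F : Type*} [Field F] [NumberField F]

omit [NumberField F] in
/-- The ideal of `N` contains a positive integer. -/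
theorem exists_mem_span_natCast {N : ℕ} (hN : 0 < N) :
    ∃ M : ℕ, 0 < M ∧ (M : 𝓞 F) ∈ Ideal.span {(N : 𝓞 F)} :=
  ⟨N, hN, Ideal.mem_span_singleton_self _⟩

theorem exists_eq_natCast_mul {N : ℕ} {x : FinAdele F}
    (hx : x ∈ idealAdele F (Ideal.span {(N : 𝓞 F)})) :
    ∃ a ∈ integralAdele F, x = (N : FinAdele F) * a := by
  induction hx using AddSubgroup.closure_induction with
  | mem x hx =>
    obtain ⟨o, ho, a, ha, rfl⟩ := hx
    obtain ⟨c, rfl⟩ := Ideal.mem_span_singleton'.1 ho
    refine ⟨finIncl F (c : F) * a, mul_mem (Reduction.finIncl_mem_of_isIntegral c) ha, ?_⟩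
    push_cast
    rw [map_mul, map_natCast]
    ring
  | zero => exact ⟨0, zero_mem _, by ring⟩
  | add x y _ _ hx hy =>
    obtain ⟨a, ha, rfl⟩ := hx
    obtain ⟨b, hb, rfl⟩ := hy
    exact ⟨a + b, add_mem ha hb, by ring⟩
  | neg x _ hx =>
    obtain ⟨a, ha, rfl⟩ := hx
    exact ⟨-a, neg_mem ha, by ring⟩

theorem isCongrIdeal_span_natCast_iff {N : ℕ} {g : GLFin F} :
    IsCongrIdeal (Ideal.span {(N : 𝓞 F)}) g ↔ IsPrincipal F N g := by
  refine ⟨fun h i j => ?_, isCongrIdeal_of_isPrincipal (Ideal.mem_span_singleton_self _)⟩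
  obtain ⟨a, ha, e⟩ := exists_eq_natCast_mul (h.2 i j)
  obtain ⟨b, hb, e'⟩ := exists_eq_natCast_mul (h.inv.2 i j)
  exact ⟨a, ha, b, hb, sub_eq_iff_eq_add'.1 e, sub_eq_iff_eq_add'.1 e'⟩

/-- The level of the ideal generated by `N` is the principal level. -/
theorem Level.ofIdeal_span_natCast {N : ℕ} (hN : 0 < N) :
    (Level.ofIdeal F (Ideal.span {(N : 𝓞 F)}) (exists_mem_span_natCast hN)).toSubgroup =
      (Level.principal F N hN).toSubgroup := by
  ext g
  refine (exists_congr fun a => exists_congr fun k => ?_)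
  rw [isCongrIdeal_span_natCast_iff]

/-- The level of the ideal of `N` is the principal level `N`. -/
theorem Level.ofIdeal_eq_principal {N : ℕ} (hN : 0 < N) :
    Level.ofIdeal F (Ideal.span {(N : 𝓞 F)}) (exists_mem_span_natCast hN) =
      Level.principal F N hN := by
  have h := Level.ofIdeal_span_natCast (F := F) hN
  revert h
  generalize Level.ofIdeal F (Ideal.span {(N : 𝓞 F)}) (exists_mem_span_natCast hN) = U
  generalize Level.principal F N hN = V
  cases U; cases V
  rintro rfl
  rfl

end Fermat.Agent.LT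

end
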