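import Fermat.Agent.LT.Descent.TestWords
import Fermat.Agent.LT.Descent.CubicPlaces
import Fermat.Agent.LT.Descent.PrincipalLevel

/-!
# Matched members of the families on `L` and on `K`

`IsMatchedPair x y`: the members are those of one word of split letters. This holds for `(1, 1)`,
passes to the product with the operators of a label, and gives compatible families of kernels.
-/

set_option autoImplicit false

noncomputable section

open scoped NumberField
open Fermat.Agent.GaloisBasics
open Fermat.Agent.LT.Final (GF3)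

namespace Fermat.Agent.LT.Descent

open Places Spectral CuspType PlaceMatching CubicDescent Matching
open Fermat.Agent.LT.Geometric (IsCubic)

section Generic

variable {K L : Type*} [Field K] [NumberField K] [Field L] [NumberField L] {ι : K →+* L}
  {σ : L ≃+* L} {I : Ideal (𝓞 L)} {J : Ideal (𝓞 K)} {SK : ThreeSet K} {SL : ThreeSet L}
  (s : PlaceSection ι) {hI : ∃ N : ℕ, 0 < N ∧ (N : 𝓞 L) ∈ I}
  {hJ : ∃ N : ℕ, 0 < N ∧ (N : 𝓞 K) ∈ J} {UK : Level K}

variable (σ) in
/-- The members of one word of split letters. -/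
def IsMatchedPair (hSL : ∀ w ∈ SL.places, I ≤ w.asIdeal) (hSK : ∀ v ∈ SK.places, J ≤ v.asIdeal)
    (hUK : Level.ofIdeal K J hJ = UK) (x : goodMonoid (Level.ofIdeal L I hI) SL)
    (y : goodMonoid UK SK) : Prop :=
  ∃ t : List (SplitLetter σ s I J), x = (t.map fun l => l.idxL hI hSL).prod ∧
    y = (t.map fun l => heckeIdx (hUK ▸ isGoodAt_ofIdeal hJ l.notK) (l.notMem_K hSK)).prod

variable {s} {hSL : ∀ w ∈ SL.places, I ≤ w.asIdeal} {hSK : ∀ v ∈ SK.places, J ≤ v.asIdeal}
  {hUK : Level.ofIdeal K J hJ = UK}

theorem isMatchedPair_one : IsMatchedPair σ s (hI := hI) hSL hSK hUK 1 1 :=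
  ⟨[], rfl, rfl⟩

/-- Prepending the operators of a moved place and of the place below. -/
theorem IsMatchedPair.heckeIdx_mul (hc : IsCubic ι σ) {x : goodMonoid (Level.ofIdeal L I hI) SL}
    {y : goodMonoid UK SK} (h : IsMatchedPair σ s hSL hSK hUK x y) {w : FinPlace L}
    {v : FinPlace K} (hv : comapPlace ι w = v) (hmv : comapPlace (σ : L →+* L) w ≠ w)
    (hIw : ¬ I ≤ w.asIdeal) (hJv : ¬ J ≤ v.asIdeal)
    (hw : IsGoodAt (Level.ofIdeal L I hI) w) (hwS : w ∉ SL.places) (hg : IsGoodAt UK v)
    (hvS : v ∉ SK.places) :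
    IsMatchedPair σ s hSL hSK hUK (heckeIdx hw hwS * x) (heckeIdx hg hvS * y) := by
  obtain ⟨t, rfl, rfl⟩ := h
  obtain ⟨i, rfl⟩ : ∃ i, s.pl σ v i = w := hv ▸ s.exists_pl_eq hc w
  have hmoved : s.Moved σ v := by
    intro hfix
    have e : s.pl σ v i = s.sec v := s.pl_of_fixed (fun h' => h' hfix) i
    rw [e] at hmv
    exact hmv hfix
  exact ⟨⟨_, i, hmoved, hJv, hIw⟩ :: t, rfl, rfl⟩

/-- **Matched members come from compatible families**, whose members on `K` are in the family. -/
theorem IsMatchedPair.exists_compatible {x : goodMonoid (Level.ofIdeal L I hI) SL}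
    {y : goodMonoid (Level.ofIdeal K J hJ) SK} (h : IsMatchedPair σ s hSL hSK rfl x y)
    (hm : LevelsMatch ι σ I J) (hc : IsCubic ι σ)
    (hover : ∀ w, w ∈ SL.places ↔ comapPlace ι w ∈ SK.places) (hneL : SL.places.Nonempty)
    (hneK : SK.places.Nonempty) (ε : Fin 2) :
    ∃ (k : Fin 3 → KerFam J) (kL : KerFam I), Compatible hm hc s k kL ∧
      kL.hecke hI = (cuspFamily (isTypeLevel_ofIdeal hI hSL) ε hneL).fn x ∧
      (k 0).hecke hJ * (k 1).hecke hJ * (k 2).hecke hJ =
        (cuspFamily (isTypeLevel_ofIdeal hJ hSK) ε hneK).fn y ∧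
      ∀ i, ∃ m : goodMonoid (Level.ofIdeal K J hJ) SK,
        (k i).hecke hJ = (cuspFamily (isTypeLevel_ofIdeal hJ hSK) ε hneK).fn m := by
  obtain ⟨t, rfl, rfl⟩ := h
  exact ⟨_, _, compatible_wordFam hI hJ hSL hSK ε hm hc hover t, wordFamL_hecke hSL hneL ε t,
    wordFamK_hecke_prod hSK hneK ε t, exists_wordFamK_hecke hSK hneK ε t⟩

end Generic

/-! ### The cubic field over `EisField` -/

section Cubic

open GaloisData

variable {ρ : GalQ →* GF3} {hρ : IsSupersingularRep ρ} [NumberField (cubicField ρ)]
  (D : CubicPlaces hρ)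

omit [NumberField (cubicField ρ)] in
/-- The places above three divide the level of the cubic field. -/
theorem CubicPlaces.levelI_le_three {w : FinPlace (cubicField ρ)} (hw : w ∈ D.three.places) :
    levelI hρ ≤ w.asIdeal :=
  (levelI_le_iff hρ w).2 (Or.inr (D.three_places ▸ hw))

omit [NumberField (cubicField ρ)] in
/-- The places over three divide the level of `EisField`. -/
theorem span_levelN_le_eisThree {v : FinPlace EisField} (hv : v ∈ eisThree.places) :
    Ideal.span {(levelN hρ : 𝓞 EisField)} ≤ v.asIdeal := by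
  rw [Ideal.span_singleton_le_iff_mem, levelN, Nat.cast_mul]
  exact v.asIdeal.mul_mem_right _ (by exact_mod_cast mem_eisThree.1 hv)

omit [NumberField (cubicField ρ)] in
/-- The places of the type lie over the place of `EisField` over three. -/
theorem CubicPlaces.mem_three_iff (w : FinPlace (cubicField ρ)) :
    w ∈ D.three.places ↔ comapPlace (eisToCubic hρ).toRingHom w ∈ eisThree.places := by
  rw [D.three_places, mem_placesThree, mem_eisThree, mem_comapPlace, map_ofNat]

/-- The matched members of the comparison. -/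
def CubicPlaces.IsMatched (x : goodMonoid (levelL hρ) D.three)
    (y : goodMonoid (levelK hρ) eisThree) : Prop :=
  IsMatchedPair (cubicAut hρ) (someSection (eisToCubic hρ).toRingHom)
    (hI := exists_mem_levelI hρ) (fun _ hw => D.levelI_le_three hw)
    (fun _ hv => span_levelN_le_eisThree (hρ := hρ) hv)
    (Level.ofIdeal_eq_principal (levelN_pos hρ)) x y

/-- The identities are matched. -/
theorem CubicPlaces.isMatched_one : D.IsMatched 1 1 := isMatchedPair_one

/-- Matched pairs stay matched after a split Hecke step on both sides. -/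
theorem CubicPlaces.isMatched_step (P : splitSet ρ (levelN hρ) ∅) (i : Fin 3)
    {x : goodMonoid (levelL hρ) D.three} {y : goodMonoid (levelK hρ) eisThree}
    (h : D.IsMatched x y) :
    D.IsMatched (heckeIdx (D.pl_isGoodAt P i) (D.pl_notMem P i) * x)
      (goodIdx eisThree (levelN_pos hρ) (three_dvd_levelN hρ) (v := splitPlace P)
        P.2.2.2.1 * y) := by
  have hv : comapPlace (eisToCubic hρ).toRingHom (D.pl P i) = splitPlace P :=
    IsDedekindDomain.HeightOneSpectrum.ext (D.pl_comap P i)
  exact IsMatchedPair.heckeIdx_mul (isCubic_cubicAut hρ) h hv (moved_of_split hρ P hv)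
    (D.pl_good P i) (fun hle => P.2.2.2.1 ((Ideal.span_singleton_le_iff_mem _).1 hle)) _ _ _ _

end Cubic

end Fermat.Agent.LT.Descent

end
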