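import Fermat.Agent.LT.Descent.Step
import Fermat.Agent.LT.Descent.RadialPerm
import Fermat.Agent.LT.Geometric.ClassAssembly
import Fermat.Agent.LT.Geometric.HyperbolicTests

/-!
# `HasClasswise` from the bands of the classes with an eigenvalue

The matched tests of cubic descent are compatible families with the cusp condition over the place
over three, and their radial parts are products over the coordinates above one embedding.
-/

set_option autoImplicit false

noncomputable section

open scoped NumberField
open NumberField (InfinitePlace IsTotallyComplex)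
open Fermat.Agent.GaloisBasics
open Fermat.Agent.LT.Final (GF3)

namespace Fermat.Agent.LT.Descent

open GaloisData Places CuspType PlaceMatching
open Fermat.Agent.LT.Spectral (Weight LipKernel)
open Fermat.Agent.LT.Geometric (IsCubic HasCuspConditionAt ClassesTend)

section Generic

variable {K L : Type} [Field K] [NumberField K] [Field L] [NumberField L] [IsTotallyComplex K]
  [IsTotallyComplex L] [Unique (InfinitePlace K)] {ι : K →+* L} {σ : L ≃+* L} {I : Ideal (𝓞 L)}
  {J : Ideal (𝓞 K)} (hI : ∃ N : ℕ, 0 < N ∧ (N : 𝓞 L) ∈ I) (hJ : ∃ N : ℕ, 0 < N ∧ (N : 𝓞 K) ∈ J)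
  (hm : LevelsMatch ι σ I J) (hc : IsCubic ι σ) (s : PlaceSection ι)

/-- The comparison of the classes satisfying `P` for matched tests. -/
def HasLimitClasses (P : PGLIndex K → Prop) : Prop :=
  ∀ (φ₀ : L →+* ℂ), (∀ v : InfinitePlace K, v.embedding = φ₀.comp ι) →
    ¬ NumberField.ComplexEmbedding.IsReal (φ₀.comp ι) →
    ∀ (v₀ : FinPlace K), s.Moved σ v₀ → ∀ {k : Fin 3 → KerFam J} {kL : KerFam I},
      Compatible hm hc s k kL → HasCuspConditionAt (kL.hecke hI) (finExtend ι (idem v₀)) →
      ∀ (wL : Weight (Level.ofIdeal L I hI)) (wK : Weight (Level.ofIdeal K J hJ))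
        (q : Kernel.PointKer L) (qK : Kernel.PointKer K) (κ : Fin 3 → H3 → H3 → ℂ),
        (∀ i (g : GL (Fin 2) ℂ) P Q, κ i (g • P) (g • Q) = κ i P Q) →
        (∀ P Q, q.toFun P Q = Geometric.coordKernel φ₀ σ κ P Q) →
        (∀ P Q, qK.toFun P Q = Geometric.tripleKernel H3.vol κ (P default) (Q default)) →
        ClassesTend ι (hm.stable hc) wL.toPartitionOfUnity wK.toPartitionOfUnity q (kL.hecke hI) qK
          ((k 0).hecke hJ * (k 1).hecke hJ * (k 2).hecke hJ) P

end Generic

variable {ρ : GalQ →* GF3} (hρ : IsSupersingularRep ρ) [NumberField (cubicField ρ)]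

/-- **`HasClasswise` from the unipotent and central classes.** -/
theorem hasClasswise_of_limits
    (hunip : ∀ [IsTotallyComplex (cubicField ρ)],
      HasLimitClasses (exists_mem_levelI hρ) (exists_mem_span_natCast (levelN_pos hρ))
        (levelsMatch hρ) (isCubic_cubicAut hρ) (someSection (eisToCubic hρ).toRingHom)
        fun γ => γ ≠ 1 ∧ Geometric.classInv γ = 4)
    (hone : ∀ [IsTotallyComplex (cubicField ρ)],
      HasLimitClasses (exists_mem_levelI hρ) (exists_mem_span_natCast (levelN_pos hρ))
        (levelsMatch hρ) (isCubic_cubicAut hρ) (someSection (eisToCubic hρ).toRingHom)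
        fun γ => γ = 1) :
    HasClasswise hρ := by
  intro _ ε wL _ w l m x y hr hxy
  obtain ⟨k, kL, hk, hx, hy, -⟩ := hxy
  obtain ⟨φ₀, hemb, hcomplex⟩ := exists_emb_over (L := cubicField ρ) (eisToCubic hρ).toRingHom
  obtain ⟨v₀, hv₀⟩ := eisThree_nonempty
  have hmoved : (someSection (eisToCubic hρ).toRingHom).Moved (cubicAut hρ) v₀ :=
    Geometric.moved_of_mem_three (levelsMatch hρ) hv₀
  have hcusp : HasCuspConditionAt (kL.hecke (exists_mem_levelI hρ))
      (finExtend (eisToCubic hρ).toRingHom (idem v₀)) := by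
    rw [hx]
    exact Geometric.hasCuspConditionAt_over (cubicPlaces hρ).mem_three_iff
      (eisThree_places_eq hv₀) _ ε _ x
  have hr' := hr.to_placeOver (isCubic_cubicAut hρ) hemb hcomplex
  have hinv := Geometric.radialFactor_smul l
    fun i => Geometric.placeOver φ₀ (cubicAut hρ) i
  have hq := Geometric.pointKer_eq_coordKernel (isCubic_cubicAut hρ) hemb hcomplex
    (p := fun i => Geometric.placeOver φ₀ (cubicAut hρ) i) (fun _ => rfl) l
  have hqK := Geometric.pointKer_eq_tripleKernel hr'
  rw [← hx, ← hy]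
  exact Geometric.classwiseTotals_of_matched _ _ _ hemb hcomplex hk wL.measurable w.measurable
    hinv hq hqK (fun a b ha hab T => Geometric.exists_weight_diagBand_tendsto hemb hk hmoved
      hcusp _ ha hab T)
    (hunip φ₀ hemb hcomplex v₀ hmoved hk hcusp wL w _ _ _ hinv hq hqK)
    (hone φ₀ hemb hcomplex v₀ hmoved hk hcusp wL w _ _ _ hinv hq hqK)

end Fermat.Agent.LT.Descent

end
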