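import Fermat.Agent.LT.Descent.TraceTest
import Fermat.Agent.LT.Descent.RadialMatch

/-!
# Equality of the traces of words from equality of the geometric totals

A label is a prime or a radial kernel downstairs together with one of the three places upstairs.
Words of labels between matched base tests give matched tests, so the traces agree as soon as the
geometric totals of matched tests agree.
-/

set_option autoImplicit false

noncomputable section

open MeasureTheory
open scoped NumberField
open NumberField (InfinitePlace IsTotallyComplex)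

namespace Fermat.Agent.LT.Descent

open Fermat.Agent.L2Kernel Operators
open Fermat.Agent.LT.Spectral (Weight LipKernel HeckeFamily Profile)

variable {K L : Type*} [Field K] [NumberField K] [Field L] [NumberField L]
  {UK : Level K} {UL : Level L} {ιK ιL : Type*} {π : Type*}

/-- The labels upstairs: the `i`-th prime over `P`, or the profile at the `i`-th place. -/
def labUp (p : Fin 3 → InfinitePlace L) (v : InfinitePlace K) (jL : π → Fin 3 → ιL) :
    (π ⊕ RadialKernel K) × Fin 3 → Spectral.Label L ιL
  | (.inl P, i) => .inr (jL P i)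
  | (.inr k, i) => .inl (p i, profileAt k v)

/-- The labels downstairs, forgetting the choice of the place. -/
def labDown (v : InfinitePlace K) (jK : π → ιK) :
    (π ⊕ RadialKernel K) × Fin 3 → Spectral.Label K ιK
  | (.inl P, _) => .inr (jK P)
  | (.inr k, _) => .inl (v, profileAt k v)

variable (HL : HeckeFamily UL ιL) (HK : HeckeFamily UK ιK)

/-- The equality of the geometric totals of matched tests. -/
def GeometricTotals {σ : L ≃+* L} (hσ : IsStable UL σ) (wL : Weight UL) (wK : Weight UK)
    (p : Fin 3 → InfinitePlace L) (v : InfinitePlace K) (M : ιL → ιK → Prop) : Prop :=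
  ∀ (l : LipKernel L) (m : LipKernel K) (x : ιL) (y : ιK), RadialMatch p v l m → M x y →
    ∫ z, wL.weight z • ∑' δ, Geometric.term σ hσ l.pointKer (HL.fn x) δ z ∂yVol UL =
      ∫ z, wK.weight z • ∑' δ, Geometric.term (RingEquiv.refl K) (Geometric.refl_stable UK)
        m.pointKer (HK.fn y) δ z ∂yVol UK

variable {p : Fin 3 → InfinitePlace L} {v : InfinitePlace K} {M : ιL → ιK → Prop}
  {jL : π → Fin 3 → ιL} {jK : π → ιK} {a : LipKernel L × ιL} {a' : LipKernel K × ιK}

/-- A word sends matched tests to matched tests. -/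
theorem match_wordTest (hp : Function.Injective p)
    (hstep : ∀ P i x y, M x y → M (HL.mul (jL P i) x) (HK.mul (jK P) y))
    (hr : RadialMatch p v a.1 a'.1) (hh : M a.2 a'.2)
    (t : FreeMonoid ((π ⊕ RadialKernel K) × Fin 3)) :
    RadialMatch p v (HL.wordTest (labUp p v jL) t a).1 (HK.wordTest (labDown v jK) t a').1 ∧
      M (HL.wordTest (labUp p v jL) t a).2 (HK.wordTest (labDown v jK) t a').2 := by
  induction t using FreeMonoid.recOn with
  | one => rw [map_one, map_one]; exact ⟨hr, hh⟩
  | of_mul l s ih =>
    rw [map_mul, map_mul]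
    show RadialMatch p v (HL.step (labUp p v jL l) (HL.wordTest (labUp p v jL) s a)).1
        (HK.step (labDown v jK l) (HK.wordTest (labDown v jK) s a')).1 ∧
      M (HL.step (labUp p v jL l) (HL.wordTest (labUp p v jL) s a)).2
        (HK.step (labDown v jK l) (HK.wordTest (labDown v jK) s a')).2
    obtain ⟨P | k, i⟩ := l
    · exact ⟨ih.1, hstep P i _ _ ih.2⟩
    · exact ⟨ih.1.step hp i _, ih.2⟩

variable [IsTotallyComplex K] [IsTotallyComplex L] {σ τ : L ≃+* L} {hσ : IsStable UL σ}
  {wL : Weight UL} {wK : Weight UK} {b : LipKernel L × ιL}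
  {b' : LipKernel K × ιK}

/-- **The traces of words on `L`, twisted by `τ = σ⁻¹`, and on `K` agree.** -/
theorem trace_eq_of_geometric (hτ : IsStable UL τ) (hτσ : τ * σ = 1)
    (hwL : IsFixedWeight wL hσ)
    (hs : MeasurePreserving (galY τ UL hτ) wL.measure wL.measure)
    (hgeo : GeometricTotals HL HK hσ wL wK p v M) (hp : Function.Injective p)
    (hstep : ∀ P i x y, M x y → M (HL.mul (jL P i) x) (HK.mul (jK P) y))
    (hlast : ∀ x y, M x y → M (HL.mul x b.2) (HK.mul y b'.2))
    (hra : RadialMatch p v a.1 a'.1) (hrb : RadialMatch p v b.1 b'.1) (hh : M a.2 a'.2)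
    {κ κ' : Type*} (e : HilbertBasis κ ℂ (Lp ℂ 2 wL.measure))
    (e' : HilbertBasis κ' ℂ (Lp ℂ 2 wK.measure))
    (t : FreeMonoid ((π ⊕ RadialKernel K) × Fin 3)) :
    hsTrace e (compCLM hs ∘L
        (wordOp (HL.fullOp wL) (fun l => Sum.inr (labUp p v jL l)) t ∘L
          HL.fullOp wL (Sum.inl a)))
        (HL.fullOp wL (Sum.inl b)) =
      hsTrace e' (1 ∘L
        (wordOp (HK.fullOp wK) (fun l => Sum.inr (labDown v jK l)) t ∘L
          HK.fullOp wK (Sum.inl a')))
        (HK.fullOp wK (Sum.inl b')) := by
  rw [hsTrace_word HL wL (labUp p v jL) (hσ := hσ) hτ hτσ hwL hs a b e t,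
    hsTrace_word_refl HK wK (labDown v jK) a' b' e' t]
  obtain ⟨h1, h2⟩ := match_wordTest HL HK hp hstep hra hh t
  exact hgeo _ _ _ _ (h1.mul hrb) (hlast _ _ h2)

end Fermat.Agent.LT.Descent
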