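import Fermat.Agent.LT.Descent.Classwise
import Fermat.Agent.LT.Geometric.UnipotentClass

/-!
# `HasClasswise`

The unipotent and central classes of matched tests agree in the limit of the cutoffs, which
completes the comparison class by class.
-/

set_option autoImplicit false

noncomputable section

open scoped NumberField
open NumberField (InfinitePlace IsTotallyComplex)
open Fermat.Agent.GaloisBasics
open Fermat.Agent.LT.Final (GF3)

namespace Fermat.Agent.LT.Descent

open PlaceMatching GaloisData
open Fermat.Agent.LT.Geometric (IsCubic classInv classInv_mk)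

theorem classInv_unip_one {F : Type*} [Field F] [NumberField F] :
    classInv (QuotientGroup.mk (unip (1 : F)) : PGLIndex F) = 4 := by
  rw [classInv_mk]
  simp [Matrix.trace_fin_two, Matrix.det_fin_two,
    Matrix.GeneralLinearGroup.upperRightHom_apply]
  norm_num

/-- A nontrivial class with invariant four is that of the unipotents. -/
theorem mk_eq_unip_of_classInv {F : Type*} [Field F] [NumberField F] {γ : PGLIndex F}
    (h1 : γ ≠ 1) (h4 : classInv γ = 4) :
    ConjClasses.mk γ = ConjClasses.mk (QuotientGroup.mk (unip (1 : F)) : PGLIndex F) :=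
  ConjClasses.mk_eq_mk_iff_isConj.mpr <| Geometric.isConj_of_classInv_eq h1
    (Geometric.mk_unip_ne_one one_ne_zero) (h4.trans classInv_unip_one.symm)
    (Or.inl (by rw [h4]; norm_num))

section Generic

variable {K L : Type} [Field K] [NumberField K] [Field L] [NumberField L] [IsTotallyComplex K]
  [IsTotallyComplex L] [Unique (InfinitePlace K)] {ι : K →+* L} {σ : L ≃+* L} {I : Ideal (𝓞 L)}
  {J : Ideal (𝓞 K)} (hI : ∃ N : ℕ, 0 < N ∧ (N : 𝓞 L) ∈ I) (hJ : ∃ N : ℕ, 0 < N ∧ (N : 𝓞 K) ∈ J)
  (hm : LevelsMatch ι σ I J) (hc : IsCubic ι σ) (s : PlaceSection ι)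

theorem hasLimitClasses_unipotent :
    HasLimitClasses hI hJ hm hc s fun γ => γ ≠ 1 ∧ classInv γ = 4 := by
  intro φ₀ hemb hcomplex v₀ hv₀ k kL hk hcusp wL wK q qK κ hinv hq hqK
  obtain ⟨RL, RK, h⟩ := Geometric.exists_reps_unipotentClass hemb hcomplex hv₀ hcusp hinv hq hqK
    hk wL.toPartitionOfUnity wL.measurable wK.toPartitionOfUnity wK.measurable
  refine ⟨RL, RK, fun R R' hR hR' γ δ _ hP => ?_⟩
  unfold Geometric.classDiff
  rw [mk_eq_unip_of_classInv hP.1 hP.2]
  exact h R R' hR hR'

theorem hasLimitClasses_one : HasLimitClasses hI hJ hm hc s fun γ => γ = 1 := by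
  intro φ₀ hemb hcomplex v₀ _ k kL hk _ wL wK q qK κ hinv hq hqK
  obtain ⟨RL, RK, h⟩ := Geometric.exists_reps_identityClass hemb hcomplex hinv hq hqK
    hk wL.toPartitionOfUnity wL.measurable wK.toPartitionOfUnity wK.measurable
  refine ⟨RL, RK, fun R R' hR hR' γ δ _ hP => ?_⟩
  subst hP
  exact h R R' hR hR'

end Generic

variable {ρ : GalQ →* GF3} (hρ : IsSupersingularRep ρ) [NumberField (cubicField ρ)]

/-- **The matched tests of cubic descent agree class by class.** -/
theorem hasClasswise : HasClasswise hρ :=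
  hasClasswise_of_limits hρ (hasLimitClasses_unipotent _ _ _ _ _) (hasLimitClasses_one _ _ _ _ _)

end Fermat.Agent.LT.Descent

end
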