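import Fermat.Agent.LT.Descent.TraceSides
import Fermat.Agent.LT.Descent.MatchedPairs

/-!
# Equal traces for cubic descent from the geometric totals of compatible tests

`CompatibleMatch` is the relation on members under which the geometric side is compared. Its
totals give those of the matched members of words, hence the `trace_eq` input of `TraceData`.
-/

set_option autoImplicit false

noncomputable section

open MeasureTheory
open scoped NumberField
open NumberField (InfinitePlace IsTotallyComplex)
open Fermat.Agent.GaloisBasics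
open Fermat.Agent.LT.Final (GF3)

namespace Fermat.Agent.LT.Descent

open Places CuspType PlaceMatching
open Fermat.Agent.LT.Spectral (Weight LipKernel HeckeFamily)
open Fermat.Agent.LT.Geometric (IsCubic)

section Generic

variable {K L : Type} [Field K] [NumberField K] [Field L] [NumberField L] {ι : K →+* L}
  {σ : L ≃+* L} {I : Ideal (𝓞 L)} {J : Ideal (𝓞 K)} {SK : ThreeSet K} {SL : ThreeSet L}
  (hI : ∃ N : ℕ, 0 < N ∧ (N : 𝓞 L) ∈ I) (hJ : ∃ N : ℕ, 0 < N ∧ (N : 𝓞 K) ∈ J)
  (hSL : ∀ w ∈ SL.places, I ≤ w.asIdeal) (hSK : ∀ v ∈ SK.places, J ≤ v.asIdeal)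
  (hneL : SL.places.Nonempty) (hneK : SK.places.Nonempty) (ε : Fin 2) (s : PlaceSection ι)

/-- Members coming from compatible families of local kernels, the one on `K` being the product of
the three, each of which is again a member. -/
def CompatibleMatch (hm : LevelsMatch ι σ I J) (hc : IsCubic ι σ)
    (x : goodMonoid (Level.ofIdeal L I hI) SL) (y : goodMonoid (Level.ofIdeal K J hJ) SK) : Prop :=
  ∃ (k : Fin 3 → KerFam J) (kL : KerFam I), Compatible hm hc s k kL ∧
    kL.hecke hI = (cuspFamily (isTypeLevel_ofIdeal hI hSL) ε hneL).fn x ∧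
    (k 0).hecke hJ * (k 1).hecke hJ * (k 2).hecke hJ =
      (cuspFamily (isTypeLevel_ofIdeal hJ hSK) ε hneK).fn y ∧
    ∀ i, ∃ m : goodMonoid (Level.ofIdeal K J hJ) SK,
      (k i).hecke hJ = (cuspFamily (isTypeLevel_ofIdeal hJ hSK) ε hneK).fn m

/-- The totals of compatible tests give those of matched members, at any equal level. -/
theorem geometricTotals_matched (hm : LevelsMatch ι σ I J) (hc : IsCubic ι σ)
    (hover : ∀ w, w ∈ SL.places ↔ comapPlace ι w ∈ SK.places)
    {hσ : IsStable (Level.ofIdeal L I hI) σ} {wL : Weight (Level.ofIdeal L I hI)}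
    {p : Fin 3 → InfinitePlace L} {v : InfinitePlace K}
    (hgeo : ∀ w : Weight (Level.ofIdeal K J hJ),
      GeometricTotals (cuspFamily (isTypeLevel_ofIdeal hI hSL) ε hneL)
        (cuspFamily (isTypeLevel_ofIdeal hJ hSK) ε hneK) hσ wL w p v
        (CompatibleMatch hI hJ hSL hSK hneL hneK ε s hm hc))
    {UK : Level K} (hUK : IsTypeLevel SK UK) (e : Level.ofIdeal K J hJ = UK) (wU : Weight UK) :
    GeometricTotals (cuspFamily (isTypeLevel_ofIdeal hI hSL) ε hneL) (cuspFamily hUK ε hneK) hσ
      wL wU p v (IsMatchedPair σ s hSL hSK e) := by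
  subst e
  intro l m x y hr h
  exact hgeo wU l m x y hr (h.exists_compatible hm hc hover hneL hneK ε)

end Generic

section Cubic

open GaloisData

variable {ρ : GalQ →* GF3} {hρ : IsSupersingularRep ρ} [NumberField (cubicField ρ)]
  (D : CubicPlaces hρ)

theorem CubicPlaces.labelL_eq_labUp : D.labelL = labUp (infPlace hρ) default
    fun P i => heckeIdx (D.pl_isGoodAt P i) (D.pl_notMem P i) :=
  funext fun l => by rcases l with ⟨P | k, i⟩ <;> rfl

/-- The geometric input of cubic descent: equal totals for compatible tests. -/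
def CubicPlaces.CompatibleTotals (ε : Fin 2) {hσ : IsStable (levelL hρ) (cubicAut hρ)}
    (wL : Weight (levelL hρ)) : Prop :=
  ∀ w : Weight (Level.ofIdeal EisField (Ideal.span {(levelN hρ : 𝓞 EisField)})
      (exists_mem_span_natCast (levelN_pos hρ))),
    GeometricTotals (cuspFamily (isTypeLevel_ofIdeal (exists_mem_levelI hρ)
        fun _ hw => D.levelI_le_three hw) ε D.three_nonempty)
      (cuspFamily (isTypeLevel_ofIdeal (exists_mem_span_natCast (levelN_pos hρ))
        fun _ hv => span_levelN_le_eisThree (hρ := hρ) hv) ε eisThree_nonempty)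
      hσ wL w (infPlace hρ) default
      (CompatibleMatch (exists_mem_levelI hρ) (exists_mem_span_natCast (levelN_pos hρ))
        (fun _ hw => D.levelI_le_three hw) (fun _ hv => span_levelN_le_eisThree (hρ := hρ) hv)
        D.three_nonempty eisThree_nonempty ε (someSection (eisToCubic hρ).toRingHom)
        (levelsMatch hρ) (isCubic_cubicAut hρ))

/-- The level on the cubic field is stable under `cubicAut`. -/
theorem isStable_cubicAut : IsStable (levelL hρ) (cubicAut hρ) :=
  (levelsMatch hρ).stable (isCubic_cubicAut hρ)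

/-- **The traces of the two sides of cubic descent agree on every word.** -/
theorem CubicPlaces.trace_eq [IsTotallyComplex (cubicField ρ)] (ε : Fin 2)
    {hσ : IsStable (levelL hρ) (cubicAut hρ)} {wL : Weight (levelL hρ)}
    (hgeo : D.CompatibleTotals ε (hσ := hσ) wL) (hwL : IsFixedWeight wL hσ)
    {τ : cubicField ρ ≃+* cubicField ρ} (hτ : IsStable (levelL hρ) τ)
    (hτσ : τ * cubicAut hρ = 1)
    (hs : MeasurePreserving (galY τ (levelL hρ) hτ) wL.measure wL.measure)
    (wK : Weight (levelK hρ)) {a b : LipKernel (cubicField ρ)} {a' b' : LipKernel EisField}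
    (ha : RadialMatch (infPlace hρ) default a a') (hb : RadialMatch (infPlace hρ) default b b') :
    ∀ t, ((D.familyL ε).side wL D.labelL (D.adjLabel_labelL ε) (a, 1) (b, 1)
        (Operators.compCLM hs)).trace t =
      ((familyK hρ ε).side wK (labelK hρ) (adjLabel_labelK hρ ε) (a', 1) (b', 1) 1).trace t := by
  intro t
  have h := trace_eq_of_geometric (D.familyL ε) (familyK hρ ε) hτ hτσ hwL hs
    (geometricTotals_matched _ _ _ _ D.three_nonempty eisThree_nonempty ε
      (someSection (eisToCubic hρ).toRingHom) (levelsMatch hρ) (isCubic_cubicAut hρ)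
      D.mem_three_iff hgeo (isTypeLevel_levelK hρ) (Level.ofIdeal_eq_principal (levelN_pos hρ)) wK)
    (infPlace hρ).injective (M := D.IsMatched)
    (jL := fun P i => heckeIdx (D.pl_isGoodAt P i) (D.pl_notMem P i))
    (jK := fun P =>
      goodIdx eisThree (levelN_pos hρ) (three_dvd_levelN hρ) (v := splitPlace P) P.2.2.2.1)
    (a := (a, 1)) (a' := (a', 1)) (b := (b, 1)) (b' := (b', 1))
    (fun P i x y h => D.isMatched_step P i h)
    (fun x y h => by show D.IsMatched (x * 1) (y * 1); rwa [mul_one, mul_one]) ha hb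
    D.isMatched_one ((D.familyL ε).basis wL) ((familyK hρ ε).basis wK) t
  simp only [labelK, labK_eq_labDown, D.labelL_eq_labUp]
  exact h

end Cubic

end Fermat.Agent.LT.Descent
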