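import Fermat.Agent.LT.Geometric.Assembly
import Fermat.Agent.LT.Descent.TraceCubic

/-!
# The totals of compatible tests from the comparison class by class

The geometric totals of compatible tests on the cubic field and on `ℚ(ζ₃)` agree once they agree
class by class.
-/

set_option autoImplicit false

noncomputable section

open scoped NumberField
open NumberField (InfinitePlace IsTotallyComplex)
open Fermat.Agent.GaloisBasics
open Fermat.Agent.LT.Final (GF3)

namespace Fermat.Agent.LT.Descent

open Places CuspType PlaceMatching GaloisData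
open Fermat.Agent.LT.Spectral (Weight LipKernel HeckeFamily)
open Fermat.Agent.LT.Geometric (IsCubic ClasswiseTotals)

/-- Compatible members are matched tests. -/
theorem testMatch_of_compatibleMatch {K L : Type} [Field K] [NumberField K] [Field L]
    [NumberField L] {ι : K →+* L} {σ : L ≃+* L} {I : Ideal (𝓞 L)} {J : Ideal (𝓞 K)}
    {SK : ThreeSet K} {SL : ThreeSet L} {hI : ∃ N : ℕ, 0 < N ∧ (N : 𝓞 L) ∈ I}
    {hJ : ∃ N : ℕ, 0 < N ∧ (N : 𝓞 K) ∈ J} {hSL : ∀ w ∈ SL.places, I ≤ w.asIdeal}
    {hSK : ∀ v ∈ SK.places, J ≤ v.asIdeal} {hneL : SL.places.Nonempty}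
    {hneK : SK.places.Nonempty} {ε : Fin 2} {s : PlaceSection ι} {hm : LevelsMatch ι σ I J}
    {hc : IsCubic ι σ} {x : goodMonoid (Level.ofIdeal L I hI) SL}
    {y : goodMonoid (Level.ofIdeal K J hJ) SK}
    (h : CompatibleMatch hI hJ hSL hSK hneL hneK ε s hm hc x y) :
    TestMatch hm hc s (cuspFamily (isTypeLevel_ofIdeal hI hSL) ε hneL)
      (cuspFamily (isTypeLevel_ofIdeal hJ hSK) ε hneK) x y := by
  obtain ⟨k, kL, hk, hx, hy, -⟩ := h
  exact ⟨k, kL, hk, hx, hy, (hasCuspCondition (isTypeLevel_ofIdeal hI hSL) ε hneL).mul_left _,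
    (hasCuspCondition (isTypeLevel_ofIdeal hJ hSK) ε hneK).mul_left _⟩

variable {ρ : GalQ →* GF3} {hρ : IsSupersingularRep ρ} [NumberField (cubicField ρ)]
  (D : CubicPlaces hρ)

/-- **Equal totals of compatible tests from the comparison class by class.** -/
theorem CubicPlaces.compatibleTotals_of_classwise [IsTotallyComplex (cubicField ρ)] (ε : Fin 2)
    {hσ : IsStable (levelL hρ) (cubicAut hρ)} (wL : Weight (levelL hρ))
    (H : ∀ (w : Weight (Level.ofIdeal EisField (Ideal.span {(levelN hρ : 𝓞 EisField)})
        (exists_mem_span_natCast (levelN_pos hρ)))) (l : LipKernel (cubicField ρ))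
      (m : LipKernel EisField) (x y), RadialMatch (infPlace hρ) default l m →
      CompatibleMatch (exists_mem_levelI hρ) (exists_mem_span_natCast (levelN_pos hρ))
        (fun _ hw => D.levelI_le_three hw) (fun _ hv => span_levelN_le_eisThree (hρ := hρ) hv)
        D.three_nonempty eisThree_nonempty ε (someSection (eisToCubic hρ).toRingHom)
        (levelsMatch hρ) (isCubic_cubicAut hρ) x y →
      ClasswiseTotals (eisToCubic hρ).toRingHom hσ wL.toPartitionOfUnity w.toPartitionOfUnity
        l.pointKer
        ((cuspFamily (isTypeLevel_ofIdeal (exists_mem_levelI hρ)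
          fun _ hw => D.levelI_le_three hw) ε D.three_nonempty).fn x) m.pointKer
        ((cuspFamily (isTypeLevel_ofIdeal (exists_mem_span_natCast (levelN_pos hρ))
          fun _ hv => span_levelN_le_eisThree (hρ := hρ) hv) ε eisThree_nonempty).fn y)) :
    D.CompatibleTotals ε (hσ := hσ) wL := fun w =>
  geometricTotals_of_classwise _ _ _ _ _ hσ wL w _ _
    (fun _ _ h => testMatch_of_compatibleMatch h) (H w)

end Fermat.Agent.LT.Descent

end
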