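import Fermat.Agent.LT.Spectral.Family
import Fermat.Agent.LT.Spectral.Labels
import Fermat.Agent.LT.CuspType.Cusp
import Fermat.Agent.LT.CuspType.Hecke
import Fermat.Agent.LT.HeckeAlg.Support

/-!
# The Hecke family of the type at three

The members are `M * e'` for `M` in the monoid generated by the Hecke operators at the good places
outside the type, `e'` the idempotent of the type.
-/

set_option autoImplicit false

noncomputable section

open scoped NumberField ComplexConjugate

namespace Fermat.Agent.LT.Descent

open Places Spectral CuspType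

variable {F : Type*} [Field F] [NumberField F] {U : Level F}

/-- Hecke functions are determined by their operators. -/
theorem eq_of_op {f g : HeckeFn U} (h : ∀ φ : Y U → ℂ, f.op φ = g.op φ) : f = g :=
  HeckeFn.ext_kernel fun a c => by
    have key : ∀ k : HeckeFn U, k.op (fun y => (1 : HeckeFn U).kernel y.2 c)
        ((fun _ => H3.origin), a) = k.kernel a c := fun k => by
      rw [HeckeFn.op_eq_act, ← HeckeFn.kernel_mul, mul_one]
    rw [← key f, ← key g, h]

variable (S : ThreeSet F) (U) in
/-- The monoid of the good Hecke operators outside the type. -/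
def goodMonoid : Submonoid (HeckeFn U) :=
  Submonoid.closure {g | ∃ (v : FinPlace F) (hv : IsGoodAt U v), v ∉ S.places ∧ g = heckeAt U v hv}

variable {S : ThreeSet F}

/-- The good monoid is commutative. -/
theorem commute_goodMonoid {a b : HeckeFn U} (ha : a ∈ goodMonoid U S) (hb : b ∈ goodMonoid U S) :
    Commute a b := by
  have h0 : ∀ g ∈ {g | ∃ (v : FinPlace F) (hv : IsGoodAt U v), v ∉ S.places ∧ g = heckeAt U v hv},
      Commute g b := fun g hg => by
    induction hb using Submonoid.closure_induction with
    | mem x hx =>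
      obtain ⟨v, hv, -, rfl⟩ := hg
      obtain ⟨w, hw, -, rfl⟩ := hx
      obtain rfl | hvw := eq_or_ne v w
      · exact Commute.refl _
      · exact HeckeFn.commute_heckeAt hvw hv hw
    | one => exact Commute.one_right _
    | mul x y _ _ hx hy => exact hx.mul_right hy
  induction ha using Submonoid.closure_induction with
  | mem x hx => exact h0 x hx
  | one => exact Commute.one_left _
  | mul x y _ _ hx hy => exact hx.mul_left hy

theorem star_goodMonoid {a : HeckeFn U} (ha : a ∈ goodMonoid U S) : star a = a := by
  induction ha using Submonoid.closure_induction with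
  | mem x hx =>
    obtain ⟨v, hv, -, rfl⟩ := hx
    exact HeckeFn.star_heckeAt hv
  | one => exact star_one _
  | mul x y hx' hy' hx hy => rw [star_mul, hx, hy, (commute_goodMonoid hy' hx').eq]

/-- The good monoid commutes with the idempotent of the type. -/
theorem commute_goodMonoid_cuspFn (hU : IsTypeLevel S U) (ε : Fin 2) {a : HeckeFn U}
    (ha : a ∈ goodMonoid U S) : Commute a (cuspFn hU ε) := by
  induction ha using Submonoid.closure_induction with
  | mem x hx =>
    obtain ⟨v, hv, hvS, rfl⟩ := hx
    exact (HeckeFn.commute_of_op fun φ => cuspFn_op_heckeAt hU ε hv hvS φ).symm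
  | one => exact Commute.one_left _
  | mul x y _ _ hx hy => exact hx.mul_left hy

/-- `cuspFn` is idempotent. -/
theorem cuspFn_mul_self (hU : IsTypeLevel S U) (ε : Fin 2) :
    cuspFn hU ε * cuspFn hU ε = cuspFn hU ε :=
  eq_of_op fun φ => by rw [HeckeFn.op_mul, cuspFn_op_op]

theorem star_cuspFn (hU : IsTypeLevel S U) (ε : Fin 2) : star (cuspFn hU ε) = cuspFn hU ε :=
  HeckeFn.ext_kernel fun a b => by rw [HeckeFn.kernel_star, ← cuspFn_kernel_symm]

/-- The family of the type and the good Hecke operators. -/
def cuspFamily (hU : IsTypeLevel S U) (ε : Fin 2) (hS : S.places.Nonempty) :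
    HeckeFamily U (goodMonoid U S) :=
  HeckeFamily.ofSubmonoid (goodMonoid U S) (fun _ ha _ hb => commute_goodMonoid ha hb)
    (fun _ ha => (star_goodMonoid ha).symm ▸ ha) (cuspFn hU ε) (cuspFn_mul_self hU ε)
    (star_cuspFn hU ε) (fun _ ha => commute_goodMonoid_cuspFn hU ε ha) (hasCuspCondition hU ε hS)

/-- The member at `m` is `m` times the idempotent. -/
theorem cuspFamily_fn (hU : IsTypeLevel S U) (ε : Fin 2) (hS : S.places.Nonempty)
    (m : goodMonoid U S) : (cuspFamily hU ε hS).fn m = (m : HeckeFn U) * cuspFn hU ε := rfl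

/-- The member at one is the idempotent. -/
theorem cuspFamily_fn_one (hU : IsTypeLevel S U) (ε : Fin 2) (hS : S.places.Nonempty) :
    (cuspFamily hU ε hS).fn (cuspFamily hU ε hS).one = cuspFn hU ε := one_mul _

/-- The members are their own adjoints. -/
theorem cuspFamily_star (hU : IsTypeLevel S U) (ε : Fin 2) (hS : S.places.Nonempty)
    (m : goodMonoid U S) : (cuspFamily hU ε hS).star m = m :=
  Subtype.ext (star_goodMonoid m.2)

/-- Every label is its own adjoint. -/
theorem cuspFamily_adjLabel (hU : IsTypeLevel S U) (ε : Fin 2) (hS : S.places.Nonempty) :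
    ∀ l : Label F (goodMonoid U S), (cuspFamily hU ε hS).adjLabel l = l
  | .inl _ => rfl
  | .inr m => congrArg Sum.inr (cuspFamily_star hU ε hS m)

/-- The member of the family at a good place outside the type. -/
def heckeIdx {v : FinPlace F} (hv : IsGoodAt U v) (hvS : v ∉ S.places) : goodMonoid U S :=
  ⟨heckeAt U v hv, Submonoid.subset_closure ⟨v, hv, hvS, rfl⟩⟩

/-- The member at a good place is its Hecke operator after the idempotent. -/
theorem cuspFamily_heckeIdx_op (hU : IsTypeLevel S U) (ε : Fin 2) (hS : S.places.Nonempty)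
    {v : FinPlace F} (hv : IsGoodAt U v) (hvS : v ∉ S.places) (φ : Y U → ℂ) :
    ((cuspFamily hU ε hS).fn (heckeIdx hv hvS)).op φ =
      (heckeAt U v hv).op (((cuspFamily hU ε hS).fn (cuspFamily hU ε hS).one).op φ) := by
  rw [cuspFamily_fn, cuspFamily_fn_one, HeckeFn.op_mul]
  rfl

end Fermat.Agent.LT.Descent

end
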