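import Fermat.Agent.LT.Spectral.Labels
import Fermat.Agent.LT.Translate.Cusp
import Fermat.Agent.LT.HeckeAlg.Basic

/-!
# Joint eigenvectors with parameter zero and classical forms

Cusp forms fixed by the idempotent of a family are the joint eigenvectors whose labels at the
infinite places take the values of the spherical function of parameter zero. `spaceEquiv` is the
bijection on the spaces cut out by a system.
-/

set_option autoImplicit false

noncomputable section

open MeasureTheory Topology
open scoped NumberField ComplexConjugate InnerProductSpace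
open NumberField (InfinitePlace IsTotallyComplex)

namespace Fermat.Agent.LT.Descent

open Spectral Spectral.HeckeFamily

variable {F : Type*} [Field F] [NumberField F] {U : Level F} {ι : Type*}
  {H : HeckeFamily U ι} {φ ψ : Y U → ℂ}

theorem continuous_of_cusp (h : IsSphericalCuspForm φ) : Continuous φ :=
  continuous_prod_of_discrete_right.2 h.cuspEigen.continuous

/-- The averages of functions fixed by the idempotent vanish. -/
theorem average_of_fixed (hone : (H.fn H.one).op φ = φ) (c : GLFin F ⧸ U.toSubgroup) :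
    ∃ (n : ℕ) (u : Fin (n + 1) → FinAdele F), ∀ P, ∑ l, φ (P, unip (u l) • c) = 0 := by
  classical
  obtain ⟨n, u, hu⟩ := H.average c
  refine ⟨n, u, fun P => ?_⟩
  set T := Finset.univ.biUnion fun l : Fin (n + 1) =>
    (Kernel.finite_kernel_support (H.fn H.one) (unip (u l) • c)).toFinset
  have h : ∀ l, φ (P, unip (u l) • c) =
      ∑ b ∈ T, (H.fn H.one).kernel (unip (u l) • c) b * φ (P, b) := fun l => by
    conv_lhs => rw [← hone]
    refine finsum_eq_sum_of_support_subset _ fun b hb => ?_
    rw [Finset.coe_biUnion]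
    refine Set.mem_iUnion₂.mpr ⟨l, Finset.mem_univ l, ?_⟩
    rw [Set.Finite.coe_toFinset]
    exact left_ne_zero_of_mul (Function.mem_support.mp hb)
  simp only [h]
  rw [Finset.sum_comm]
  exact Finset.sum_eq_zero fun b _ => by rw [← Finset.sum_mul, hu b, zero_mul]

/-- Fixed bounded functions with parameter zero at every place are cusp forms. -/
theorem isSphericalCuspForm_of_opAt [IsTotallyComplex F] (hc : Continuous φ)
    (ha : IsAutomorphic φ) (hb : ∃ M, ∀ y, ‖φ y‖ ≤ M) (hone : (H.fn H.one).op φ = φ)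
    (hk : ∀ (v : InfinitePlace F) (k : Profile),
      opAt v k φ = fun y => (H3.sph k.toFun : ℂ) * φ y) :
    IsSphericalCuspForm φ := by
  classical
  have hr : IsRadialEigen φ :=
    isRadialEigen_of_slice (continuous_slice hc) fun y v =>
      { continuous := (continuous_slice hc y.2).comp (continuous_const.update v continuous_id)
        kop_eq := fun k hk' hs S => by
          have h := congrFun (hk v ⟨k, hk', hs⟩) ((Function.update y.1 v S, y.2) : Y U)
          simp only [opAt, Function.update_idem, Function.update_self] at h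
          rw [Complex.real_smul]
          exact h }
  exact Whittaker.isSphericalCuspForm_of_average ha (continuous_slice hc) hb hr
    (average_of_fixed hone)

/-- Cusp forms have parameter zero at every place. -/
theorem opAt_of_cusp (h : IsSphericalCuspForm φ) (v : InfinitePlace F) (k : Profile) :
    opAt v k φ = fun y => (H3.sph k.toFun : ℂ) * φ y := by
  classical
  funext y
  rw [opAt, (h.radial.isSphEigen_slice h.cuspEigen.continuous y v).kop_eq _ k.continuous
    k.hasCompactSupport, Complex.real_smul, Function.update_eq_self]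

/-- A test acts on a cusp form through its Hecke function. -/
theorem act_of_cusp (h : IsSphericalCuspForm φ) (k : LipKernel F) {j : ι} {c : ℂ}
    (hj : (H.fn j).op φ = fun y => c * φ y) :
    H.act (k, j) φ = fun y => (k.scalar : ℂ) * c * φ y := by
  funext y
  rw [act, hj, radial_op_const_mul]
  simp only
  rw [h.radial]
  ring

theorem radial_op_add (k : RadialKernel F) (hφ : Continuous φ) (hψ : Continuous ψ) :
    k.op (φ + ψ) = k.op φ + k.op ψ := by
  funext y
  simp only [RadialKernel.op, Pi.add_apply, smul_add]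
  exact integral_add (integrable_weight_smul k (continuous_slice hφ y.2) y.1)
    (integrable_weight_smul k (continuous_slice hψ y.2) y.1)

theorem act_add (t : LipKernel F × ι) (hφ : Continuous φ) (hψ : Continuous ψ) :
    H.act t (φ + ψ) = H.act t φ + H.act t ψ := by
  simp only [act, HeckeFn.op_add_fun]
  exact radial_op_add _ (continuous_hecke_op _ hφ) (continuous_hecke_op _ hψ)

theorem isSphericalCuspForm_add (hφ : IsSphericalCuspForm φ) (hψ : IsSphericalCuspForm ψ) :
    IsSphericalCuspForm (φ + ψ) := by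
  rw [show φ + ψ = fun y => ∑ i : Fin 2, (![1, 1] : Fin 2 → ℂ) i * ![φ, ψ] i y from
    funext fun y => by simp [Fin.sum_univ_two]]
  refine Translate.isSphericalCuspForm_sum _ _ _ fun i _ => ?_
  fin_cases i
  · exact hφ
  · exact hψ

theorem isSphericalCuspForm_smul (c : ℂ) (hφ : IsSphericalCuspForm φ) :
    IsSphericalCuspForm (c • φ) := by
  rw [show c • φ = fun y => ∑ _i : Fin 1, c * φ y from funext fun y => by simp]
  exact Translate.isSphericalCuspForm_sum _ (fun _ => c) (fun _ => φ) fun _ _ => hφ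

theorem isSphericalCuspForm_zero : IsSphericalCuspForm (0 : Y U → ℂ) := by
  rw [show (0 : Y U → ℂ) = fun y => ∑ i ∈ (∅ : Finset (Fin 1)), (0 : ℂ) * (0 : Y U → ℂ) y from
    funext fun y => by simp]
  exact Translate.isSphericalCuspForm_sum ∅ (fun _ => 0) (fun _ => 0)
    fun i hi => absurd hi (Finset.notMem_empty i)

section Space

variable (H) {Λ : Type*} (lab : Λ → Label F ι) (a b : LipKernel F × ι) (α β : ℂ)
  (z : FreeMonoid Λ →* ℂ)

/-- The cusp forms with the given base values and system. -/
def formSpace : Submodule ℂ (Y U → ℂ) where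
  carrier := {φ | IsSphericalCuspForm φ ∧ (H.fn H.one).op φ = φ ∧ H.act a φ = α • φ ∧
    H.act b φ = β • φ ∧ ∀ l j, lab l = Sum.inr j → (H.fn j).op φ = z (FreeMonoid.of l) • φ}
  add_mem' := by
    rintro φ ψ ⟨h1, h2, h3, h4, h5⟩ ⟨g1, g2, g3, g4, g5⟩
    have hc := continuous_of_cusp h1
    have hd := continuous_of_cusp g1
    exact ⟨isSphericalCuspForm_add h1 g1, by rw [HeckeFn.op_add_fun, h2, g2],
      by rw [act_add a hc hd, h3, g3, smul_add], by rw [act_add b hc hd, h4, g4, smul_add],
      fun l j hl => by rw [HeckeFn.op_add_fun, h5 l j hl, g5 l j hl, smul_add]⟩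
  zero_mem' := by
    have h0 : ∀ h : HeckeFn U, h.op (0 : Y U → ℂ) = 0 := fun h => by
      simpa using HeckeFn.op_smul_fun h 0 (0 : Y U → ℂ)
    have h1 : ∀ t, H.act t (0 : Y U → ℂ) = 0 := fun t => funext fun y => by
      simp only [act, h0, RadialKernel.op, Pi.zero_apply, smul_zero, integral_zero]
    exact ⟨isSphericalCuspForm_zero, h0 _, by rw [h1, smul_zero], by rw [h1, smul_zero],
      fun l j _ => by rw [h0, smul_zero]⟩
  smul_mem' := by
    rintro c φ ⟨h1, h2, h3, h4, h5⟩
    have hs : ∀ t, H.act t (c • φ) = c • H.act t φ := fun t => H.act_const_mul t c φ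
    exact ⟨isSphericalCuspForm_smul c h1, by rw [HeckeFn.op_smul_fun, h2],
      by rw [hs, h3, smul_comm], by rw [hs, h4, smul_comm],
      fun l j hl => by rw [HeckeFn.op_smul_fun, h5 l j hl, smul_comm]⟩

variable {H lab a b α β z}

/-- The defining conditions of the space of forms. -/
theorem mem_formSpace {φ : Y U → ℂ} : φ ∈ formSpace H lab a b α β z ↔
    IsSphericalCuspForm φ ∧ (H.fn H.one).op φ = φ ∧ H.act a φ = α • φ ∧ H.act b φ = β • φ ∧
      ∀ l j, lab l = Sum.inr j → (H.fn j).op φ = z (FreeMonoid.of l) • φ :=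
  Iff.rfl

variable (w : Weight U)

/-- The vector of a form. -/
def toVec : formSpace H lab a b α β z →ₗ[ℂ] Lp ℂ 2 w.measure where
  toFun φ := (HeckeFamily.memLp_of_bounded w (continuous_of_cusp φ.2.1)
    φ.2.1.cuspEigen.bounded).toLp φ.1
  map_add' φ ψ := MemLp.toLp_add
    (HeckeFamily.memLp_of_bounded w (continuous_of_cusp φ.2.1) φ.2.1.cuspEigen.bounded)
    (HeckeFamily.memLp_of_bounded w (continuous_of_cusp ψ.2.1) ψ.2.1.cuspEigen.bounded)
  map_smul' c φ := MemLp.toLp_const_smul c
    (HeckeFamily.memLp_of_bounded w (continuous_of_cusp φ.2.1) φ.2.1.cuspEigen.bounded)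

/-- `toVec` is the form almost everywhere. -/
theorem toVec_ae (φ : formSpace H lab a b α β z) : (toVec w φ : Y U → ℂ) =ᵐ[w.measure] φ.1 :=
  MemLp.coeFn_toLp
    (HeckeFamily.memLp_of_bounded w (continuous_of_cusp φ.2.1) φ.2.1.cuspEigen.bounded)

variable [IsTotallyComplex F]

omit [IsTotallyComplex F] in
theorem toVec_injective (hα : α ≠ 0) :
    Function.Injective (toVec (H := H) (lab := lab) (a := a) (b := b)
      (α := α) (β := β) (z := z) w) := by
  intro φ ψ h
  have he : φ.1 =ᵐ[w.measure] ψ.1 := (toVec_ae w φ).symm.trans (h ▸ toVec_ae w ψ)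
  exact Subtype.ext (H.eq_of_toLp_eq w (continuous_of_cusp φ.2.1) φ.2.1.cuspEigen.automorphic
    (continuous_of_cusp ψ.2.1) ψ.2.1.cuspEigen.automorphic he hα φ.2.1.cuspEigen.bounded
    φ.2.2.2.1 ψ.2.2.2.1)

/-- The vector of a form lies in the class space. -/
theorem toVec_mem (hα : α ≠ 0)
    (hz : ∀ l v k, lab l = Sum.inl (v, k) → z (FreeMonoid.of l) = (H3.sph k.toFun : ℂ))
    (φ : formSpace H lab a b α β z) :
    toVec w φ ∈ classSpace (H.fullOp w) (fun l => Sum.inr (lab l)) (Sum.inl a)
      (Sum.inl b) α β z := by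
  obtain ⟨h1, h2, h3, h4, h5⟩ := φ.2
  have hc := continuous_of_cusp h1
  refine mem_classSpace.mpr ⟨H.opT_toLp w hc h1.cuspEigen.automorphic h1.cuspEigen.bounded h3,
    H.opT_toLp w hc h1.cuspEigen.automorphic h1.cuspEigen.bounded h4, fun l => ?_⟩
  refine H.labT_toLp w hc h1.cuspEigen.automorphic h1.cuspEigen.bounded hα h3 ?_
  rcases hl : lab l with ⟨v, k⟩ | j
  · rw [hz l v k hl]
    exact opAt_of_cusp h1 v k
  · exact h5 l j hl

/-- Every vector of the class space comes from a form. -/
theorem exists_toVec_eq (hα : α ≠ 0)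
    (hz : ∀ l v k, lab l = Sum.inl (v, k) → z (FreeMonoid.of l) = (H3.sph k.toFun : ℂ))
    (hall : ∀ v k, ∃ l, lab l = Sum.inl (v, k)) {x : Lp ℂ 2 w.measure}
    (hx : x ∈ classSpace (H.fullOp w) (fun l => Sum.inr (lab l)) (Sum.inl a) (Sum.inl b) α β z) :
    ∃ φ : formSpace H lab a b α β z, toVec w φ = x := by
  obtain ⟨hxa, hxb, hxl⟩ := mem_classSpace.mp hx
  obtain ⟨φ, hc, ha, hb, hae, hact, hone, hs, hlab⟩ := H.exists_rep w hα hxa
  have hcusp : IsSphericalCuspForm φ := isSphericalCuspForm_of_opAt hc ha hb hone fun v k => by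
    obtain ⟨l, hl⟩ := hall v k
    have h := hlab (lab l) _ (hxl l)
    rwa [hz l v k hl, hl] at h
  have hmem : φ ∈ formSpace H lab a b α β z :=
    ⟨hcusp, hone, hact, hs b β hxb, fun l j hl => by
      have h := hlab (lab l) _ (hxl l)
      rwa [hl] at h⟩
  exact ⟨⟨φ, hmem⟩, Lp.ext ((toVec_ae w (⟨φ, hmem⟩ : formSpace H lab a b α β z)).trans hae.symm)⟩

/-- The space of a system is the space of its cusp forms. -/
def spaceEquiv (hα : α ≠ 0)
    (hz : ∀ l v k, lab l = Sum.inl (v, k) → z (FreeMonoid.of l) = (H3.sph k.toFun : ℂ))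
    (hall : ∀ v k, ∃ l, lab l = Sum.inl (v, k)) :
    formSpace H lab a b α β z ≃ₗ[ℂ]
      classSpace (H.fullOp w) (fun l => Sum.inr (lab l)) (Sum.inl a) (Sum.inl b) α β z :=
  LinearEquiv.ofBijective ((toVec w).codRestrict _ (toVec_mem w hα hz))
    ⟨fun _ _ h => toVec_injective w hα (congrArg Subtype.val h),
      fun x => (exists_toVec_eq w hα hz hall x.2).imp fun _ hφ => Subtype.ext hφ⟩

/-- The trace of an operator on the space of a system is its trace on the forms. -/
theorem trace_restrict_eq_forms (hα : α ≠ 0)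
    (hz : ∀ l v k, lab l = Sum.inl (v, k) → z (FreeMonoid.of l) = (H3.sph k.toFun : ℂ))
    (hall : ∀ v k, ∃ l, lab l = Sum.inl (v, k)) {T : Lp ℂ 2 w.measure →ₗ[ℂ] Lp ℂ 2 w.measure}
    (hT : ∀ x ∈ classSpace (H.fullOp w) (fun l => Sum.inr (lab l)) (Sum.inl a) (Sum.inl b) α β z,
      T x ∈ classSpace (H.fullOp w) (fun l => Sum.inr (lab l)) (Sum.inl a) (Sum.inl b) α β z)
    {g : (Y U → ℂ) →ₗ[ℂ] (Y U → ℂ)}
    (hg : ∀ φ ∈ formSpace H lab a b α β z, g φ ∈ formSpace H lab a b α β z)
    (hTg : ∀ φ : formSpace H lab a b α β z, T (toVec w φ) = toVec w ⟨g φ.1, hg _ φ.2⟩) :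
    LinearMap.trace ℂ _ (T.restrict hT) = LinearMap.trace ℂ _ (g.restrict hg) := by
  have e : T.restrict hT = (spaceEquiv w hα hz hall).conj (g.restrict hg) := by
    refine LinearMap.ext fun x => ?_
    obtain ⟨φ, rfl⟩ := (spaceEquiv w hα hz hall).surjective x
    rw [LinearEquiv.conj_apply_apply, LinearEquiv.symm_apply_apply]
    exact Subtype.ext (hTg φ)
  rw [e, LinearMap.trace_conj']

end Space

end Fermat.Agent.LT.Descent

end
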