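import Fermat.Agent.LT.Geometric.ArchPlace
import Fermat.Agent.LT.CuspType.Galois
import Fermat.Agent.LT.Spectral.Measure

/-!
# A field automorphism preserves the measures on `Y`

`galY σ` preserves `yVol`; the weights can be averaged to weights fixed by an automorphism of
order three, and then it preserves the weighted measure as well.
-/

set_option autoImplicit false

noncomputable section

open MeasureTheory
open scoped ENNReal
open NumberField (InfinitePlace)

namespace Fermat.Agent.LT.Descent

open Fermat.Agent.LT.Spectral (Weight)

variable {F : Type*} [Field F] [NumberField F]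

omit [NumberField F] in
theorem atEmb_embedding (w : InfinitePlace F) (P : InfinitePlace F → H3) :
    Geometric.atEmb w.embedding P = P w := by
  rw [Geometric.atEmb, if_pos (by rw [InfinitePlace.mk_embedding]), InfinitePlace.mk_embedding]

omit [NumberField F] in
theorem galInf_galInf (σ τ : F ≃+* F) (P : InfinitePlace F → H3) :
    galInf σ (galInf τ P) = galInf (σ * τ) P := by
  funext w
  rw [← atEmb_embedding w (galInf σ (galInf τ P)), ← atEmb_embedding w (galInf (σ * τ) P),
    Geometric.atEmb_galInf, Geometric.atEmb_galInf, Geometric.atEmb_galInf]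
  rfl

omit [NumberField F] in
theorem galInf_one (P : InfinitePlace F → H3) : galInf (1 : F ≃+* F) P = P := by
  funext w
  rw [← atEmb_embedding w (galInf (1 : F ≃+* F) P), Geometric.atEmb_galInf]
  exact atEmb_embedding w P

/-- An automorphism preserves the measure at the infinite places. -/
theorem measurePreserving_galInf (σ : F ≃+* F) :
    MeasurePreserving (galInf σ) (infVol F) (infVol F) := by
  classical
  let p : InfinitePlace F ≃ InfinitePlace F :=
    { toFun := fun w => w.comap (σ : F →+* F)
      invFun := fun w => w.comap (σ.symm : F →+* F)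
      left_inv := fun w => by
        simp only
        rw [← InfinitePlace.mk_embedding w, InfinitePlace.comap_mk, InfinitePlace.comap_mk]
        congr 1
        ext x
        simp
      right_inv := fun w => by
        simp only
        rw [← InfinitePlace.mk_embedding w, InfinitePlace.comap_mk, InfinitePlace.comap_mk]
        congr 1
        ext x
        simp }
  let t : InfinitePlace F → H3 ≃ᵐ H3 := fun w =>
    if w.embedding.comp (σ : F →+* F) = (w.comap (σ : F →+* F)).embedding then
      MeasurableEquiv.refl H3 else Geometric.conjH3
  have ht : ∀ w, MeasurePreserving (t w) H3.vol H3.vol := fun w => by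
    simp only [t]
    split_ifs
    · exact MeasurePreserving.id _
    · exact Geometric.measurePreserving_conjPoint
  let e1 := (MeasurableEquiv.piCongrLeft (fun _ : InfinitePlace F => H3) p).symm
  have h1 : MeasurePreserving e1 (infVol F) (infVol F) :=
    (measurePreserving_piCongrLeft (fun _ : InfinitePlace F => H3.vol) p).symm _
  let e2 := MeasurableEquiv.piCongrRight t
  have h2 : MeasurePreserving e2 (infVol F) (infVol F) := measurePreserving_pi _ _ fun w => ht w
  have he : galInf σ = e2 ∘ e1 := by
    funext P w
    show _ = t w (P (p w))
    simp only [galInf, t]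
    split_ifs <;> rfl
  rw [he]
  exact h2.comp h1

variable (U : Level F)

/-- A level fixed by an automorphism and its inverse. -/
def IsStable (σ : F ≃+* F) : Prop :=
  ∀ g ∈ U.toSubgroup, glFinMap (σ : F →+* F) g ∈ U.toSubgroup

variable {U}

omit [NumberField F] in
theorem glFinMap_glFinMap (σ τ : F ≃+* F) (g : GLFin F) :
    glFinMap (σ : F →+* F) (glFinMap (τ : F →+* F) g) =
      glFinMap ((σ * τ : F ≃+* F) : F →+* F) g := by
  refine Units.ext (Matrix.ext fun i j => ?_)
  show finMap (σ : F →+* F) (finMap (τ : F →+* F) (g.val i j)) =
    finMap ((σ * τ : F ≃+* F) : F →+* F) (g.val i j)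
  generalize g.val i j = x
  induction x using TensorProduct.induction_on with
  | zero => simp
  | tmul a z => rfl
  | add a b ha hb => simp [ha, hb]

/-- A product of automorphisms stabilising a level stabilises it. -/
theorem IsStable.mul {σ τ : F ≃+* F} (hσ : IsStable U σ) (hτ : IsStable U τ) :
    IsStable U (σ * τ) := fun g hg => by
  rw [← glFinMap_glFinMap]
  exact hσ _ (hτ g hg)

theorem galY_galY {σ τ : F ≃+* F} (hσ : IsStable U σ) (hτ : IsStable U τ)
    (hστ : IsStable U (σ * τ)) (y : Y U) :
    galY σ U hσ (galY τ U hτ y) = galY (σ * τ) U hστ y := by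
  refine Prod.ext (galInf_galInf σ τ y.1) ?_
  show galFin σ U hσ (galFin τ U hτ y.2) = galFin (σ * τ) U hστ y.2
  induction y.2 using QuotientGroup.induction_on with
  | H g => exact congrArg QuotientGroup.mk (glFinMap_glFinMap σ τ g)

/-- The identity acts trivially on `Y`. -/
theorem galY_one (h : IsStable U (1 : F ≃+* F)) (y : Y U) : galY 1 U h y = y := by
  refine Prod.ext (galInf_one y.1) ?_
  show galFin 1 U h y.2 = y.2
  induction y.2 using QuotientGroup.induction_on with
  | H g =>
    show QuotientGroup.mk (glFinMap ((1 : F ≃+* F) : F →+* F) g) = _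
    congr 1
    refine Units.ext (Matrix.ext fun i j => ?_)
    show finMap ((1 : F ≃+* F) : F →+* F) (g.val i j) = g.val i j
    generalize g.val i j = x
    induction x using TensorProduct.induction_on with
    | zero => simp
    | tmul a z => rfl
    | add a b ha hb => simp [ha, hb]

/-- Inverse automorphisms act by inverse maps on `Y`. -/
theorem galY_inv_galY {σ τ : F ≃+* F} (hσ : IsStable U σ) (hτ : IsStable U τ) (h : σ * τ = 1)
    (y : Y U) : galY σ U hσ (galY τ U hτ y) = y := by
  have h1 : IsStable U (1 : F ≃+* F) := h ▸ hσ.mul hτ
  rw [galY_galY hσ hτ (hσ.mul hτ)]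
  calc galY (σ * τ) U _ y = galY 1 U h1 y := by congr 1
    _ = y := galY_one h1 y

variable {σ : F ≃+* F}

/-- An automorphism stabilising the level preserves the volume of `Y`. -/
theorem measurePreserving_galY (hσ : IsStable U σ) (hσ' : IsStable U σ⁻¹) :
    MeasurePreserving (galY σ U hσ) (yVol U) (yVol U) := by
  have hb : Function.Bijective (galFin σ U hσ) := CuspType.galFin_bijective σ hσ hσ'
  have : DiscreteMeasurableSpace (GLFin F ⧸ U.toSubgroup) := ⟨fun s => s.to_countable.measurableSet⟩
  have hc : MeasurePreserving (galFin σ U hσ) (Measure.count : Measure (GLFin F ⧸ U.toSubgroup))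
      Measure.count := by
    refine ⟨Measurable.of_discrete, Measure.ext_of_singleton fun a => ?_⟩
    obtain ⟨b, rfl⟩ := hb.2 a
    rw [Measure.map_apply Measurable.of_discrete (measurableSet_singleton _),
      ← Set.image_singleton, hb.1.preimage_image, Set.image_singleton, Measure.count_singleton,
      Measure.count_singleton]
  exact (measurePreserving_galInf σ).prod hc

/-- A weight is fixed by an automorphism. -/
def IsFixedWeight (w : Weight U) (hσ : IsStable U σ) : Prop :=
  ∀ y, w.weight (galY σ U hσ y) = w.weight y

/-- A fixed weight is fixed by the inverse automorphism. -/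
theorem IsFixedWeight.symm {w : Weight U} {hσ : IsStable U σ} (hw : IsFixedWeight w hσ)
    {τ : F ≃+* F} (hτ : IsStable U τ) (h : σ * τ = 1) : IsFixedWeight w hτ := fun y => by
  rw [← hw (galY τ U hτ y), galY_inv_galY hσ hτ h]

/-- An automorphism preserves the measure of a weight it fixes. -/
theorem IsFixedWeight.measurePreserving {w : Weight U} {hσ : IsStable U σ}
    (hw : IsFixedWeight w hσ) (hσ' : IsStable U σ⁻¹) :
    MeasurePreserving (galY σ U hσ) w.measure w.measure := by
  have hmp := measurePreserving_galY hσ hσ'
  refine ⟨hmp.measurable, Measure.ext fun S hS => ?_⟩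
  rw [Measure.map_apply hmp.measurable hS, Weight.measure,
    withDensity_apply _ (hmp.measurable hS), withDensity_apply _ hS,
    ← hmp.setLIntegral_comp_preimage hS w.measurable.ennreal_ofReal]
  simp only [hw _]

end Fermat.Agent.LT.Descent
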