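import Fermat.Agent.LT.Descent.CuspFamily
import Fermat.Agent.LT.Descent.FormSpace
import Fermat.Agent.LT.Rigidity.Trace
import Fermat.Agent.LT.CuspType.Fixed
import Fermat.Agent.LT.CuspType.Galois
import Fermat.Agent.LT.Spectral.Side

/-!
# The trace of the automorphism on the space of the target system

When the labels are the Hecke operators at all moved good places and every profile, the forms of
the target system are the members of the fibre fixed by the idempotent. They are stable under the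
tame operators and the automorphism, so the trace of the latter on that space is positive.
-/

set_option autoImplicit false

noncomputable section

open MeasureTheory
open scoped NumberField
open NumberField (InfinitePlace IsTotallyComplex)

namespace Fermat.Agent.LT.Descent

open Places CuspType Rigidity Spectral

variable {F : Type} [Field F] [NumberField F] {S : ThreeSet F}

/-- `e'` commutes with Hecke functions supported at a place outside the type. -/
theorem cuspFn_op_supportedAt {U : Level F} (hU : IsTypeLevel S U) (ε : Fin 2) {w : FinPlace F}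
    (hwS : w ∉ S.places) {T : HeckeFn U} (hT : IsSupportedAt w T) (φ : Y U → ℂ) :
    (cuspFn hU ε).op (T.op φ) = T.op ((cuspFn hU ε).op φ) := by
  obtain ⟨n, k, g, hg, hop⟩ := hT
  funext ⟨P, c⟩
  refine QuotientGroup.induction_on c fun x => ?_
  rw [cuspFn_op, hop]
  simp only [cuspFn_op, Finset.mul_sum]
  rw [Finset.sum_comm (γ := Fin n)]
  refine Finset.sum_congr rfl fun q _ => ?_
  obtain ⟨l, hl, u, hu, hq⟩ := (mem_typeSub hU).1 (rep_mem q)
  have hmk : ∀ y : GLFin F, (QuotientGroup.mk (y * rep q) : GLFin F ⧸ U.toSubgroup) =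
      QuotientGroup.mk (y * l) := fun y => by
    rw [hq, ← mul_assoc]
    exact (QuotientGroup.eq.2 (by simpa [mul_assoc] using hu)).symm
  have hlg : ∀ i, l * g i = g i * l := fun i => gl_ext fun z => by
    rw [map_mul, map_mul]
    by_cases hz : z = w
    · subst hz
      rw [hl.2 z hwS, one_mul, mul_one]
    · rw [hg i z hz, one_mul, mul_one]
  rw [hmk, hop, Finset.mul_sum]
  refine Finset.sum_congr rfl fun i _ => ?_
  rw [mul_left_comm, hmk, mul_assoc x l, hlg i, ← mul_assoc x (g i)]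

section Fibre

variable {I : Ideal (𝓞 F)} {hI : ∃ N : ℕ, 0 < N ∧ (N : 𝓞 F) ∈ I} {σ : F ≃+* F}
  {Q R : Finset (FinPlace F)} {g : Fˣ} {lam : FinPlace F → ℂ} {Λ : Type}

/-- The labels and base tests of the target system: all profiles, all moved good places, and base
tests without Hecke part. -/
structure IsFibreLabels (hU : IsTypeLevel S (Level.ofIdeal F I hI)) (σ : F ≃+* F)
    (Q R : Finset (FinPlace F)) (lam : FinPlace F → ℂ)
    (lab : Λ → Spectral.Label F (goodMonoid (Level.ofIdeal F I hI) S))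
    (a b : LipKernel F × goodMonoid (Level.ofIdeal F I hI) S)
    (z : FreeMonoid Λ →* ℂ) : Prop where
  three_mem : ∀ v ∈ R, v ∈ S.places
  tame_notMem : ∀ v ∈ Q, v ∉ S.places
  places_stable : ∀ v, comapPlace (σ : F →+* F) v ∈ S.places ↔ v ∈ S.places
  base_fst : a.2 = 1
  base_snd : b.2 = 1
  radial : ∀ l v k, lab l = Sum.inl (v, k) → z (FreeMonoid.of l) = (H3.sph k.toFun : ℂ)
  radial_all : ∀ v k, ∃ l, lab l = Sum.inl (v, k)
  hecke_all : ∀ v, v ∉ Q → v ∉ R → placeEquiv σ v ≠ v →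
    ∃ (l : Λ) (hv : IsGoodAt (Level.ofIdeal F I hI) v) (hvS : v ∉ S.places),
      lab l = Sum.inr (heckeIdx hv hvS) ∧ z (FreeMonoid.of l) = lam v
  hecke_shape : ∀ l j, lab l = Sum.inr j → ∃ v, v ∉ Q ∧ v ∉ R ∧ placeEquiv σ v ≠ v ∧
    ∃ (hv : IsGoodAt (Level.ofIdeal F I hI) v) (hvS : v ∉ S.places),
      j = heckeIdx hv hvS ∧ z (FreeMonoid.of l) = lam v

variable {hU : IsTypeLevel S (Level.ofIdeal F I hI)} {ε : Fin 2} {hS : S.places.Nonempty}
  {lab : Λ → Spectral.Label F (goodMonoid (Level.ofIdeal F I hI) S)}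
  {a b : LipKernel F × goodMonoid (Level.ofIdeal F I hI) S} {z : FreeMonoid Λ →* ℂ}
  [IsTotallyComplex F] (H : IsFibreSetting σ I Q R g lam)
  (L : IsFibreLabels hU σ Q R lam lab a b z)

omit [IsTotallyComplex F] in
theorem act_base {φ : Y (Level.ofIdeal F I hI) → ℂ} (hc : IsSphericalCuspForm φ)
    (hfix : (cuspFn hU ε).op φ = φ) {t : LipKernel F × goodMonoid (Level.ofIdeal F I hI) S}
    (ht : t.2 = 1) :
    (cuspFamily hU ε hS).act t φ = (t.1.scalar : ℂ) • φ := by
  obtain ⟨k, j⟩ := t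
  obtain rfl : j = 1 := ht
  have h1 : ((cuspFamily hU ε hS).fn 1).op φ = fun y => (1 : ℂ) * φ y := by
    rw [cuspFamily_fn, Submonoid.coe_one, one_mul (cuspFn hU ε), hfix]
    simp only [one_mul]
  rw [act_of_cusp hc k h1]
  funext y
  simp

omit [IsTotallyComplex F] in
include L in
/-- The forms of the target system are the members of the fibre fixed by `e'`. -/
theorem mem_formSpace_iff_inFibre {φ : Y (Level.ofIdeal F I hI) → ℂ} :
    φ ∈ formSpace (cuspFamily hU ε hS) lab a b (a.1.scalar : ℂ) (b.1.scalar : ℂ) z ↔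
      InFibre σ Q R lam ((-1 : ℂ) ^ (ε : ℕ)) φ ∧ (cuspFn hU ε).op φ = φ := by
  rw [mem_formSpace, cuspFamily_fn_one]
  constructor
  · rintro ⟨hc, hfix, -, -, hl⟩
    refine ⟨⟨hc, fun v hQ hR hσ y => ?_,
      fun w hw => isThreeFixed_of_fixed hU ε (L.three_mem w hw) hfix⟩, hfix⟩
    obtain ⟨l, hv, hvS, hlab, hz⟩ := L.hecke_all v hQ hR hσ
    rw [Places.doubleOp_eq hv (Rigidity.heckeSet_eq v)]
    have h1 := hl l _ hlab
    rw [cuspFamily_heckeIdx_op hU ε hS hv hvS, cuspFamily_fn_one, hfix, hz] at h1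
    exact congrFun h1 y
  · rintro ⟨h, hfix⟩
    refine ⟨h.cusp, hfix, act_base h.cusp hfix L.base_fst, act_base h.cusp hfix L.base_snd,
      fun l j hlab => ?_⟩
    obtain ⟨v, hQ, hR, hσ, hv, hvS, rfl, hz⟩ := L.hecke_shape l j hlab
    rw [cuspFamily_heckeIdx_op hU ε hS hv hvS, cuspFamily_fn_one, hfix, hz]
    funext y
    have h1 := h.hecke v hQ hR hσ y
    rwa [Places.doubleOp_eq hv (Rigidity.heckeSet_eq v)] at h1

variable (w : Weight (Level.ofIdeal F I hI))

omit [IsTotallyComplex F] in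
/-- A class space with nonzero eigenvalue is finite dimensional. -/
theorem finiteDimensional_classSpace [IsTotallyComplex F] {α : ℂ} (hα : α ≠ 0) (β : ℂ) :
    FiniteDimensional ℂ (classSpace ((cuspFamily hU ε hS).fullOp w) (fun l => Sum.inr (lab l))
      (Sum.inl a) (Sum.inl b) α β z) := by
  have : FiniteDimensional ℂ
      (Module.End.eigenspace ((cuspFamily hU ε hS).fullOp w (Sum.inl a) :
        Module.End ℂ (Lp ℂ 2 w.measure)) α) :=
    ContinuousLinearMap.finite_dimensional_eigenspace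
      (((cuspFamily hU ε hS).compactFamily_full w).compact _ ⟨a, rfl⟩) α hα
  exact Submodule.finiteDimensional_of_le (inf_le_left.trans inf_le_left)

include H L in
/-- **The trace of the automorphism on the space of the target system is a positive integer.** -/
theorem trace_space_pos (h3 : ∀ x : F, σ (σ (σ x)) = x)
    (hUσ : ∀ x ∈ (Level.ofIdeal F I hI).toSubgroup,
      glFinMap (σ : F →+* F) x ∈ (Level.ofIdeal F I hI).toSubgroup)
    (ha : (a.1.scalar : ℂ) ≠ 0) {κ : Type} [Fintype κ] {place : κ → FinPlace F}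
    {proj up : κ → HeckeFn (Level.ofIdeal F I hI)}
    (T : IsTameSystem H hI ((-1 : ℂ) ^ (ε : ℕ)) hUσ place proj up)
    {φ₀ : Y (Level.ofIdeal F I hI) → ℂ} (hφ₀ : InFibre σ Q R lam ((-1 : ℂ) ^ (ε : ℕ)) φ₀)
    (hfix₀ : (cuspFn hU ε).op φ₀ = φ₀) (hne : φ₀ ≠ 0) (hkill : ∀ k, (proj k).op φ₀ = 0)
    (hs : MeasurePreserving (galY σ (Level.ofIdeal F I hI) hUσ) w.measure w.measure) :
    ∃ (hT : ∀ x ∈ classSpace ((cuspFamily hU ε hS).fullOp w) (fun l => Sum.inr (lab l))
        (Sum.inl a) (Sum.inl b) (a.1.scalar : ℂ) (b.1.scalar : ℂ) z,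
      (Operators.compCLM hs : Lp ℂ 2 w.measure →ₗ[ℂ] Lp ℂ 2 w.measure) x ∈
        classSpace ((cuspFamily hU ε hS).fullOp w) (fun l => Sum.inr (lab l))
          (Sum.inl a) (Sum.inl b) (a.1.scalar : ℂ) (b.1.scalar : ℂ) z) (n : ℕ),
      0 < n ∧ LinearMap.trace ℂ _
        ((Operators.compCLM hs : Lp ℂ 2 w.measure →ₗ[ℂ] Lp ℂ 2 w.measure).restrict hT) = n := by
  set V := formSpace (cuspFamily hU ε hS) lab a b (a.1.scalar : ℂ) (b.1.scalar : ℂ) z with hV
  have hmem : ∀ {φ : Y (Level.ofIdeal F I hI) → ℂ}, φ ∈ V ↔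
      InFibre σ Q R lam ((-1 : ℂ) ^ (ε : ℕ)) φ ∧ (cuspFn hU ε).op φ = φ :=
    mem_formSpace_iff_inFibre L
  have hσ' : ∀ x ∈ (Level.ofIdeal F I hI).toSubgroup,
      glFinMap (σ.symm : F →+* F) x ∈ (Level.ofIdeal F I hI).toSubgroup := fun x hx => by
    rw [← glFinMap_three σ h3 (glFinMap (σ.symm : F →+* F) x)]
    refine hUσ _ (hUσ _ ?_)
    rwa [show glFinMap (σ : F →+* F) (glFinMap (σ.symm : F →+* F) x) = x by
      simpa using glFinMap_symm_apply σ.symm x]
  -- stability of the space of forms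
  have hop : ∀ {v : FinPlace F}, v ∈ Q → ∀ {X : HeckeFn (Level.ofIdeal F I hI)},
      IsSupportedAt v X → ∀ φ ∈ V, X.op φ ∈ V := by
    intro v hv X hX φ hφ
    obtain ⟨h, hfix⟩ := hmem.1 hφ
    exact hmem.2 ⟨h.op H hv hX,
      by rw [cuspFn_op_supportedAt hU ε (L.tame_notMem v hv) hX, hfix]⟩
  let gal : (Y (Level.ofIdeal F I hI) → ℂ) →ₗ[ℂ] (Y (Level.ofIdeal F I hI) → ℂ) :=
    LinearMap.funLeft ℂ ℂ (galY σ (Level.ofIdeal F I hI) hUσ)
  have hgal : ∀ φ ∈ V, gal φ ∈ V := by
    intro φ hφ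
    obtain ⟨h, hfix⟩ := hmem.1 hφ
    refine hmem.2 ⟨(fibreGalY H h3 hUσ ⟨φ, h⟩).2, ?_⟩
    show (cuspFn hU ε).op (φ ∘ galY σ _ hUσ) = φ ∘ galY σ _ hUσ
    rw [cuspFn_op_galY hU σ L.places_stable hUσ hσ', hfix]
  have hTg : ∀ φ : V, (Operators.compCLM hs : Lp ℂ 2 w.measure →ₗ[ℂ] Lp ℂ 2 w.measure)
      (toVec w φ) = toVec w ⟨gal φ.1, hgal _ φ.2⟩ := fun φ => by
    refine Lp.ext ?_
    filter_upwards [Operators.compCLM_coe hs (toVec w φ),
      hs.quasiMeasurePreserving.ae_eq_comp (toVec_ae w φ),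
      toVec_ae w (⟨gal φ.1, hgal _ φ.2⟩ : V)] with y h1 h2 h3
    rw [ContinuousLinearMap.coe_coe, h1, h3]
    exact h2
  have hT : ∀ x ∈ classSpace ((cuspFamily hU ε hS).fullOp w) (fun l => Sum.inr (lab l))
      (Sum.inl a) (Sum.inl b) (a.1.scalar : ℂ) (b.1.scalar : ℂ) z,
      (Operators.compCLM hs : Lp ℂ 2 w.measure →ₗ[ℂ] Lp ℂ 2 w.measure) x ∈
        classSpace ((cuspFamily hU ε hS).fullOp w) (fun l => Sum.inr (lab l))
          (Sum.inl a) (Sum.inl b) (a.1.scalar : ℂ) (b.1.scalar : ℂ) z := by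
    intro x hx
    obtain ⟨φ, rfl⟩ := exists_toVec_eq w ha L.radial L.radial_all hx
    rw [hTg]
    exact toVec_mem w ha L.radial _
  refine ⟨hT, ?_⟩
  rw [trace_restrict_eq_forms w ha L.radial L.radial_all hT hgal hTg]
  have := finiteDimensional_classSpace (hU := hU) (ε := ε) (hS := hS) (lab := lab) (a := a)
    (b := b) (z := z) w ha (b.1.scalar : ℂ)
  have : FiniteDimensional ℂ V :=
    LinearEquiv.finiteDimensional (spaceEquiv w ha L.radial L.radial_all).symm
  -- the tame components on the space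
  let E : κ → Module.End ℂ V := fun k =>
    { toFun := fun φ => ⟨(proj k).op φ.1, hop (T.place_mem k) (T.proj_supported k) _ φ.2⟩
      map_add' := fun φ ψ => Subtype.ext ((proj k).op_add_fun φ.1 ψ.1)
      map_smul' := fun c φ => Subtype.ext ((proj k).op_smul_fun c φ.1) }
  let W : κ → Module.End ℂ V := fun k =>
    { toFun := fun φ => ⟨(up k).op φ.1, hop (T.place_mem k) (T.up_supported k) _ φ.2⟩
      map_add' := fun φ ψ => Subtype.ext ((up k).op_add_fun φ.1 ψ.1)
      map_smul' := fun c φ => Subtype.ext ((up k).op_smul_fun c φ.1) }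
  have hfib : ∀ φ : V, φ.1 ∈ fibre H hI ((-1 : ℂ) ^ (ε : ℕ)) := fun φ => (hmem.1 φ.2).1
  refine trace_ne_zero (gal.restrict hgal) E W Finset.univ (fun k _ => ?_)
    (fun k l => LinearMap.ext fun φ => Subtype.ext (T.comm_proj k l φ.1 (hfib φ)))
    (fun k _ l _ => LinearMap.ext fun φ => Subtype.ext (T.comm_up k l φ.1 (hfib φ)))
    (fun φ hφ => Subtype.ext (funext fun y => ?_))
    (v₀ := ⟨φ₀, hmem.2 ⟨hφ₀, hfix₀⟩⟩) (fun e => hne (congrArg Subtype.val e))
    (fun k _ => Subtype.ext (hkill k))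
  · obtain ⟨c, hc, htw⟩ := T.twist k
    exact
      { idem := LinearMap.ext fun φ => Subtype.ext (T.idem k φ.1 (hfib φ))
        comm_S := LinearMap.ext fun φ => Subtype.ext (T.comm_galY k φ.1 (hfib φ)).symm
        comm_U := LinearMap.ext fun φ => Subtype.ext (T.comm_up k k φ.1 (hfib φ))
        injective := fun φ hφ =>
          Subtype.ext (T.injective k φ.1 (hfib φ) (congrArg Subtype.val hφ))
        twist := ⟨c, hc, LinearMap.ext fun φ => Subtype.ext (htw φ.1 (hfib φ))⟩ }
  · exact InFibre.galY_eq H hUσ (hfib φ)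
      (T.invariant φ.1 (hfib φ) fun k => congrArg Subtype.val (hφ k (Finset.mem_univ k))) y

omit [IsTotallyComplex F] in
include L in
/-- Base tests without Hecke part have only their scalars as eigenvalues on the system. -/
theorem base_value_eq [IsTotallyComplex F]
    {t : LipKernel F × goodMonoid (Level.ofIdeal F I hI) S} (ht : t.2 = 1)
    {x : Lp ℂ 2 w.measure} {c : ℂ}
    (hx : ∀ l, (cuspFamily hU ε hS).labT w (lab l) x = z (FreeMonoid.of l) • x) (hc : c ≠ 0)
    (hxt : (cuspFamily hU ε hS).opT w t x = c • x) (hne : x ≠ 0) : c = (t.1.scalar : ℂ) := by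
  obtain ⟨φ, hφc, ha, hb, hae, hact, hone, -, hlab⟩ :=
    (cuspFamily hU ε hS).exists_rep w hc hxt
  have hcusp : IsSphericalCuspForm φ :=
    isSphericalCuspForm_of_opAt hφc ha hb hone fun v k => by
      obtain ⟨l, hl⟩ := L.radial_all v k
      have h := hlab (lab l) _ (hx l)
      rwa [L.radial l v k hl, hl] at h
  rw [cuspFamily_fn_one] at hone
  obtain ⟨y, hy⟩ : ∃ y, φ y ≠ 0 := by
    by_contra h
    push Not at h
    exact hne ((Lp.eq_zero_iff_ae_eq_zero).mpr (hae.trans (Filter.Eventually.of_forall h)))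
  exact mul_right_cancel₀ hy ((congrFun hact y).symm.trans
    (congrFun (act_base hcusp hone ht) y))

end Fibre

end Fermat.Agent.LT.Descent

end
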