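import Fermat.Agent.LT.Descent.PlacesData

/-!
# The places moved by the generator lie over split primes

At a moved place the residue field is that of the prime of `EisField` below, so the power of
Frobenius with the degree of that prime as exponent lies in the quaternion group.
-/

set_option autoImplicit false

noncomputable section

open scoped NumberField
open IsDedekindDomain (HeightOneSpectrum)
open Fermat.Agent.GaloisBasics
open Fermat.Agent.LT.Final (GF3)
open Fermat.Agent.LT.Places (FinPlace comapPlace)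

namespace Fermat.Agent.LT.Descent

open GaloisData PlaceMatching

variable {ρ : GalQ →* GF3} (hρ : IsSupersingularRep ρ) [NumberField (cubicField ρ)]

/-- A moved place and the place below it have residue fields of the same order. -/
theorem absNorm_comap_of_moved {w : FinPlace (cubicField ρ)}
    (hw : comapPlace (cubicAut hρ : cubicField ρ →+* cubicField ρ) w ≠ w) :
    Ideal.absNorm (w.asIdeal.comap (eisIntHom hρ)) = Ideal.absNorm w.asIdeal := by
  set v := comapPlace (eisToCubic hρ).toRingHom w with hv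
  set red := Ideal.quotientMap w.asIdeal (eisIntHom hρ) (le_refl (w.asIdeal.comap (eisIntHom hρ)))
  have hsurj : Function.Surjective red := by
    intro r
    obtain ⟨a, rfl⟩ := Ideal.Quotient.mk_surjective r
    obtain ⟨b, hb⟩ :=
      (placeMap_bijective_of_moved (isCubic_cubicAut hρ) hw hv.symm).2
        (algebraMap (cubicField ρ) _ (a : cubicField ρ))
    have hbi : Valued.v b ≤ 1 := by
      rw [← valued_placeMap_le_one_iff hv.symm, hb]
      exact (HeightOneSpectrum.valuedAdicCompletion_eq_valuation' w _).trans_le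
        (w.valuation_le_one a)
    obtain ⟨o, ho⟩ := Places.exists_integer_near v hbi one_ne_zero
    refine ⟨Ideal.Quotient.mk _ o, ?_⟩
    rw [Ideal.quotientMap_mk, Ideal.Quotient.eq, ← Places.valued_algebraMap_lt_one]
    have h := ho
    rw [← valued_placeMap_of_moved (isCubic_cubicAut hρ) hw hv.symm, map_sub, hb,
      placeMap_algebraMap] at h
    rw [show ((eisIntHom hρ o - a : 𝓞 (cubicField ρ)) : cubicField ρ) =
      (eisToCubic hρ).toRingHom (o : EisField) - (a : cubicField ρ) from map_sub _ _ _, map_sub]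
    exact h
  rw [Ideal.absNorm_apply, Ideal.absNorm_apply, Submodule.cardQuot_apply, Submodule.cardQuot_apply]
  exact Nat.card_eq_of_bijective red ⟨Ideal.quotientMap_injective, hsurj⟩

/-- A moved place outside the level lies over a prime of `splitSet`. -/
theorem exists_splitSet_of_moved {v : FinPlace (cubicField ρ)} (hQ : v ∉ placesTame hρ)
    (hR : v ∉ placesThree hρ)
    (hw : comapPlace (cubicAut hρ : cubicField ρ →+* cubicField ρ) v ≠ v) :
    ∃ P : splitSet ρ (levelN hρ) ∅,
      comapPlace (eisToCubic hρ).toRingHom v = splitPlace P := by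
  have := isGalois_fixH hρ.continuous quatGroup
  have := finiteDimensional_fixH hρ.continuous quatGroup
  obtain ⟨p, hp, hpv⟩ : ∃ p : ℕ, p.Prime ∧ (p : 𝓞 (cubicField ρ)) ∈ v.asIdeal :=
    ⟨_, Places.resPrime_prime v, Places.natCast_mem v⟩
  have hp3 : p ≠ 3 := fun e => hR ((mem_placesThree hρ).2 (by subst e; exact_mod_cast hpv))
  have hpr : p ∉ ramSet hρ := fun h => hQ ((mem_placesTame hρ).2 ⟨p, h, hpv⟩)
  have hun := isUnramAt_of_notMem hρ hp hp3 hpr
  obtain ⟨A, hA, hAv⟩ := exists_intIdeal_eq (cubicField ρ) hp v.asIdeal hpv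
  obtain ⟨σ, hσ⟩ := exists_isFrobeniusAt hA hp
  have hfix : ∀ τ ∈ A.inertiaSubgroupIn ℚ, τ ∈ (cubicField ρ).fixingSubgroup := fun τ hτ =>
    (mem_fixingSubgroup_fixH hρ.continuous).2 (hun A hA τ hτ ▸ one_mem quatGroup)
  set f := orderOf (restrictK (cubicField ρ) σ)
  have hq : Final.InQuaternion (ρ σ ^ f) :=
    (restrictK_pow_eq_one_iff hρ.continuous quatGroup σ f).1 (pow_orderOf_eq_one _)
  set u := comapPlace (eisToCubic hρ).toRingHom v
  have hnorm : Ideal.absNorm u.asIdeal = p ^ f := by
    refine (absNorm_comap_of_moved hρ hw).trans ?_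
    rw [← hAv]
    exact absNorm_intIdeal (cubicField ρ) hA hp hσ hfix
  have hpu : (p : 𝓞 EisField) ∈ u.asIdeal := by
    show (p : 𝓞 EisField) ∈ v.asIdeal.comap _
    rwa [Ideal.mem_comap, map_natCast]
  have hnd : ¬ p ∣ 3 * levelN hρ := fun h => by
    rcases hp.dvd_mul.1 h with h' | h'
    · exact hp3 ((Nat.prime_dvd_prime_iff_eq hp Nat.prime_three).1 h')
    · exact ((dvd_levelN_iff hρ hp).1 h').elim hp3 hpr
  have hN : (levelN hρ : 𝓞 EisField) ∉ u.asIdeal := fun h => by
    have hco : IsCoprime (p : ℤ) (levelN hρ : ℤ) :=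
      Int.isCoprime_iff_nat_coprime.mpr (by
        simpa using hp.coprime_iff_not_dvd.mpr fun h' => hnd (h'.mul_left 3))
    obtain ⟨a, b, hab⟩ := hco
    refine u.isPrime.ne_top ((Ideal.eq_top_iff_one _).mpr ?_)
    have e : (1 : 𝓞 EisField) = (a : 𝓞 EisField) * (p : 𝓞 EisField) +
        (b : 𝓞 EisField) * (levelN hρ : 𝓞 EisField) := by exact_mod_cast hab.symm
    rw [e]
    exact add_mem (u.asIdeal.mul_mem_left _ hpu) (u.asIdeal.mul_mem_left _ h)
  exact ⟨⟨u.asIdeal, u.isPrime, u.ne_bot, hN, p, A, σ, f, hp, Finset.notMem_empty _, hnd, hA,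
    hun A hA, hσ, hnorm, hq⟩, rfl⟩

/-- The moved places outside the level are the places over the split primes. -/
theorem exists_abovePlace_of_moved {v : FinPlace (cubicField ρ)} (hQ : v ∉ placesTame hρ)
    (hR : v ∉ placesThree hρ)
    (hw : comapPlace (cubicAut hρ : cubicField ρ →+* cubicField ρ) v ≠ v) :
    ∃ (P : splitSet ρ (levelN hρ) ∅) (i : Fin 3), abovePlace hρ P i = v := by
  obtain ⟨P, hP⟩ := exists_splitSet_of_moved hρ hQ hR hw
  exact ⟨P, exists_abovePlace_eq hρ P hP⟩

end Fermat.Agent.LT.Descent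

end
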