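import Fermat.Agent.LT.Rigidity.TameTrace.Shell
import Fermat.Agent.LT.Rigidity.TameTrace.System
import Fermat.Agent.LT.Descent.PlacesData

/-!
# The tame arithmetic of cubic descent

At the places of `placesTame` the level is exactly the prime, the generator is trivial on residues
and the additive character has conductor exponent one less than a multiple of three.
-/

set_option autoImplicit false

noncomputable section

open IsDedekindDomain NumberField WithZero
open scoped NumberField
open Fermat.Agent.GaloisBasics
open Fermat.Agent.LT.Final (GF3)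
open Fermat.Agent.LT.Places (FinPlace)

namespace Fermat.Agent.LT.Descent

open GaloisData

variable {ρ : GalQ →* GF3} (hρ : IsSupersingularRep ρ) [NumberField (cubicField ρ)]
include hρ

local notation "L" => cubicField ρ

/-- A tame place divides the level exactly once. -/
theorem exists_valuation_levelI {w : FinPlace L} (hw : w ∈ placesTame hρ) :
    ∃ o ∈ levelI hρ, w.valuation L (o : L) = exp (-1 : ℤ) := by
  classical
  by_contra hc
  push Not at hc
  have hle : levelI hρ ≤ w.asIdeal ^ 2 := fun o ho => by
    have h1 : o ∈ w.asIdeal := ((levelI_le_iff hρ w).2 (Or.inl hw)) ho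
    rw [← w.intValuation_le_pow_iff_mem o 2]
    rcases eq_or_ne (w.intValuation o) 0 with h0 | h0
    · rw [h0]; exact zero_le
    have h2 : w.intValuation o ≤ exp (-((1 : ℕ) : ℤ)) :=
      (w.intValuation_le_pow_iff_mem o 1).2 (by rwa [pow_one])
    have h3 : w.intValuation o ≠ exp (-1 : ℤ) := fun e => hc o ho
      ((w.valuation_of_algebraMap o).trans e)
    rw [← exp_log h0, exp_le_exp] at h2 ⊢
    rw [← exp_log h0, Ne, exp_inj] at h3
    omega
  rw [← Ideal.dvd_iff_le, levelI, ← Finset.mul_prod_erase _ _ hw, pow_two, mul_left_comm] at hle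
  rcases w.prime.dvd_mul.1 ((mul_dvd_mul_iff_left w.ne_bot).1 hle) with h | h
  · rw [Ideal.dvd_iff_le, Ideal.span_singleton_le_iff_mem] at h
    exact three_notMem_of_placesTame hρ hw h
  · rw [Ideal.dvd_iff_le] at h
    obtain ⟨u, hu, huw⟩ := w.isPrime.prod_le.1 h
    exact (Finset.mem_erase.1 hu).1
      (HeightOneSpectrum.ext (u.isMaximal.eq_of_le w.isPrime.ne_top huw))

/-- **The tame arithmetic.** -/
theorem isTameArith_cubic [IsGalois ℚ L] :
    Rigidity.Tame.IsTameArith (cubicAut hρ) (levelI hρ) (placesTame hρ) where
  pow := cubicAut_pow_three hρ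
  exact _ hw := exists_valuation_levelI hρ hw
  residue w hw _ x hx := Rigidity.Tame.residue_of_isTame (isCubic_cubicAut hρ)
    ((isTame_iff hρ w).2 hw) (three_notMem_of_placesTame hρ hw) x hx
  shell w hw := Rigidity.Tame.hasShellThree_of_isTame (isCubic_cubicAut hρ)
    ((isTame_iff hρ w).2 hw) (three_notMem_of_placesTame hρ hw)

end Fermat.Agent.LT.Descent

end
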