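import Fermat.Agent.LT.Descent.AdjointTrace
import Fermat.Agent.LT.Descent.CubicPlaces
import Fermat.Agent.LT.Descent.FibreTrace
import Fermat.Agent.LT.Descent.FromTraces
import Fermat.Agent.LT.Descent.SplitMoved
import Fermat.Agent.LT.Descent.TameArith
import Fermat.Agent.LT.Descent.TraceCubic
import Fermat.Agent.LT.Rigidity.Setting
import Fermat.Agent.LT.Rigidity.TameTrace.System

/-!
# The data of cubic descent

`CubicProducers` collects the eigenvalues and the dihedral form in the fibre, killed by the tame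
projections, and the equality of geometric totals. From these `CubicProducers.nonempty_traceData`
gives equal traces on the two sides and a nonzero trace of the automorphism on the target, and
`descentStep_of_producers` concludes.
-/

set_option autoImplicit false

noncomputable section

open MeasureTheory
open scoped NumberField ComplexConjugate
open NumberField (InfinitePlace IsTotallyComplex)
open Fermat.Agent.GaloisBasics
open Fermat.Agent.LT.Final (GF3)

namespace Fermat.Agent.LT.Descent

open GaloisData Places CuspType Rigidity Spectral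

variable {ρ : GalQ →* GF3} (hρ : IsSupersingularRep ρ) [NumberField (cubicField ρ)]

/-- The labels of the target system on the cubic field. -/
theorem isFibreLabels_cubic {Ψ : GF3 →* GL (Fin 2) (ℤ√(-2))} {ι : ℤ√(-2) →+* ℂ}
    {lam : Ideal (𝓞 (cubicField ρ)) → ℂ} (hlam : HasThetaEigenvalues hρ Ψ ι ∅ lam)
    {a b : LipKernel (cubicField ρ) × goodMonoid (levelL hρ) (cubicPlaces hρ).three}
    (ha : a.2 = 1) (hb : b.2 = 1) :
    IsFibreLabels (cubicPlaces hρ).isTypeLevel (cubicAut hρ) (placesTame hρ) (placesThree hρ)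
      (fun v => lam v.asIdeal) (cubicPlaces hρ).labelL a b
      (targetSystem lam (above hρ)) := by
  have := isGalois_fixH hρ.continuous quatGroup
  have H := isFibreSetting_cubic hρ hlam
  exact
    { three_mem := fun v hv => hv
      tame_notMem := fun v hv h => Finset.disjoint_left.1 (disjoint_places hρ) hv h
      places_stable := fun v => by
        rw [← placeEquiv_apply, cubicPlaces_three]
        exact H.stable v
      base_fst := ha
      base_snd := hb
      radial := fun l v k h => (cubicPlaces hρ).targetSystem_radial_label lam l v k h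
      radial_all := (cubicPlaces hρ).exists_labelL
      hecke_all := fun v hQ hR hσ => by
        obtain ⟨P, i, rfl⟩ := exists_abovePlace_of_moved hρ hQ hR hσ
        exact ⟨(Sum.inl P, i), (cubicPlaces hρ).pl_isGoodAt P i, (cubicPlaces hρ).pl_notMem P i,
          rfl, targetSystem_prime lam (above hρ) P i⟩
      hecke_shape := fun l j h => by
        obtain ⟨P | k, i⟩ := l
        · have hle := not_levelI_le_abovePlace hρ P i
          refine ⟨abovePlace hρ P i, fun h' => hle ((levelI_le_iff hρ _).2 (Or.inl h')),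
            fun h' => hle ((levelI_le_iff hρ _).2 (Or.inr h')), moved_abovePlace hρ P i,
            (cubicPlaces hρ).pl_isGoodAt P i, (cubicPlaces hρ).pl_notMem P i, ?_,
            targetSystem_prime lam (above hρ) P i⟩
          exact (Sum.inr_injective h).symm
        · simp [CubicPlaces.labelL] at h }

/-- What the dihedral form, the tame places and the geometric comparison supply. -/
structure CubicProducers (Ψ : GF3 →* GL (Fin 2) (ℤ√(-2))) : Type where
  /-- The embedding of the coefficients. -/
  ι : ℤ√(-2) →+* ℂ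
  /-- The type above three. -/
  ε : Fin 2
  /-- The eigenvalues of the dihedral form. -/
  lam : Ideal (𝓞 (cubicField ρ)) → ℂ
  lam_eq : HasThetaEigenvalues hρ Ψ ι ∅ lam
  /-- The dihedral form. -/
  form : Y (levelL hρ) → ℂ
  form_mem : InFibre (cubicAut hρ) (placesTame hρ) (placesThree hρ) (fun v => lam v.asIdeal)
    ((-1) ^ (ε : ℕ)) form
  form_fixed : (cuspFn (cubicPlaces hρ).isTypeLevel ε).op form = form
  form_tame : ∀ w ∈ placesTame hρ, ∀ (hT : Tame.IsTamePlace (cubicAut hρ) (levelL hρ) w) (χ : ℂ)
    (hχ : χ ^ 3 = 1), χ ≠ 1 → (hT.tameProj hχ).op form = 0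
  form_ne_zero : ∃ y, form y ≠ 0
  geometric : ∀ (wL : Weight (levelL hρ)), IsFixedWeight wL isStable_cubicAut →
    (cubicPlaces hρ).CompatibleTotals ε (hσ := isStable_cubicAut) wL

/-- The inputs of descent on the cubic field. -/
theorem CubicProducers.nonempty_traceData {Ψ : GF3 →* GL (Fin 2) (ℤ√(-2))}
    (hΨ : ∀ g, Matrix.GeneralLinearGroup.map FLT.ExplicitLift.red (Ψ g) = g)
    (D : CubicProducers hρ Ψ) : Nonempty (TraceData hρ Ψ) := by
  have := isTotallyComplex_cubicField hρ
  have := isGalois_fixH hρ.continuous quatGroup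
  set σ := cubicAut hρ
  have hσ : IsStable (levelL hρ) σ := isStable_cubicAut
  have hτ : IsStable (levelL hρ) (σ * σ) := hσ.mul hσ
  have hpow : σ ^ 3 = 1 := cubicAut_pow_three hρ
  have hτσ : σ * σ * σ = 1 := by rw [← pow_three', hpow]
  obtain ⟨wL, hwL, hsτ⟩ := exists_upWeight hσ hτ hpow hτσ
  have hsσ : MeasurePreserving (galY σ (levelL hρ) hσ) wL.measure wL.measure :=
    hwL.measurePreserving ((eq_inv_of_mul_eq_one_left hτσ) ▸ hτ)
  obtain ⟨wK⟩ := exists_weight (levelK hρ)
  let t₀ : LipKernel (cubicField ρ) × goodMonoid (levelL hρ) (cubicPlaces hρ).three :=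
    (baseUp (cubicField ρ), 1)
  have ht₀ : (t₀.1.scalar : ℂ) ≠ 0 := Complex.ofReal_ne_zero.2 scalar_baseUp_pos.ne'
  have L := isFibreLabels_cubic hρ D.lam_eq (a := t₀) (b := t₀) rfl rfl
  have H := isFibreSetting_cubic hρ D.lam_eq
  -- the primitive cube root of unity and the tame system
  obtain ⟨ω, hω, hω1⟩ : ∃ ω : ℂ, ω ^ 3 = 1 ∧ ω ≠ 1 := by
    have h := Complex.isPrimitiveRoot_exp 3 three_ne_zero
    exact ⟨_, h.pow_eq_one, h.ne_one (by norm_num)⟩
  have T := Tame.isTameSystem (hI := exists_mem_levelI hρ) (s := (-1 : ℂ) ^ (D.ε : ℕ))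
    (isTameArith_cubic hρ) H hω hω1 hσ
  obtain ⟨hT, n, hn, htr⟩ := trace_space_pos (hS := (cubicPlaces hρ).three_nonempty) H L wL
    (PlaceMatching.sigma_three hpow) hσ ht₀ T D.form_mem D.form_fixed
    (fun e => D.form_ne_zero.elim fun y hy => hy (congrFun e y))
    (fun k => D.form_tame _ (Tame.tamePlace_mem k) _ _ (Tame.tameChar_pow hω k.2)
      (Tame.tameChar_ne_one hω hω1 k.2))
    hsσ
  let V : Submodule ℂ (Lp ℂ 2 wL.measure) :=
    classSpace (((cubicPlaces hρ).familyL D.ε).fullOp wL)
      (fun l => Sum.inr ((cubicPlaces hρ).labelL l)) (Sum.inl t₀) (Sum.inl t₀)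
      (t₀.1.scalar : ℂ) (t₀.1.scalar : ℂ) (targetSystem D.lam (above hρ))
  have : FiniteDimensional ℂ V := finiteDimensional_classSpace wL ht₀ _
  let A : Lp ℂ 2 wL.measure →ₗᵢ[ℂ] Lp ℂ 2 wL.measure :=
    Lp.compMeasurePreservingₗᵢ ℂ (galY σ (levelL hρ) hσ) hsσ
  obtain ⟨hB, htrB⟩ := trace_restrict_leftInverse A
    (Operators.compCLM hsτ : Lp ℂ 2 wL.measure →ₗ[ℂ] Lp ℂ 2 wL.measure)
    (fun f => by
      refine Lp.ext ?_
      filter_upwards [Operators.compCLM_coe hsτ (Operators.compCLM hsσ f),
        hsτ.quasiMeasurePreserving.ae_eq_comp (Operators.compCLM_coe hsσ f)] with y h1 h2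
      refine h1.trans (h2.trans ?_)
      show (f : Y (levelL hρ) → ℂ) (galY σ _ hσ (galY (σ * σ) _ hτ y)) = _
      rw [galY_inv_galY hσ hτ (by rw [← mul_assoc, hτσ])])
    V hT
  let Z : Ideal (𝓞 (cubicField ρ)) → ℂ := D.lam
  have hform := form_side (T := (∅ : Finset ℕ)) (ρ := ρ) (three_dvd_levelN hρ)
    (isTypeLevel_levelK hρ) D.ε eisThree_nonempty wK (baseDown EisField, 1) (baseDown EisField, 1) 1
  refine ⟨{
    N := levelN hρ
    N_pos := levelN_pos hρ
    N_squarefree := fun q hq h3 => levelN_squarefree hρ hq h3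
    ι := D.ι
    T := ∅
    lam := Z
    lam_eq := D.lam_eq
    above := above hρ
    above_prime := above_prime hρ
    above_comap := above_comap hρ
    lam_real := fun P i => conj_lam_eq hρ hΨ D.lam_eq P _ (above_prime hρ P i) (above_comap hρ P i)
    sideL := ((cubicPlaces hρ).familyL D.ε).side wL (cubicPlaces hρ).labelL
      ((cubicPlaces hρ).adjLabel_labelL D.ε) t₀ t₀ (Operators.compCLM hsτ)
    sideK := (familyK hρ D.ε).side wK (labelK hρ) (adjLabel_labelK hρ D.ε) (baseDown EisField, 1)
      (baseDown EisField, 1) 1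
    trace_eq := (cubicPlaces hρ).trace_eq D.ε (D.geometric wL hwL) hwL hτ hτσ hsτ wK
      (radialMatch_base _ _) (radialMatch_base _ _)
    α := (t₀.1.scalar : ℂ)
    β := (t₀.1.scalar : ℂ)
    α_ne_zero := ht₀
    β_ne_zero := ht₀
    target := targetSystem D.lam (above hρ)
    target_prime := targetSystem_prime D.lam (above hρ)
    target_radial := targetSystem_radial D.lam (above hρ)
    base_values := ⟨fun x c hx hc hxt hne => base_value_eq L wL (t := t₀) rfl hx hc hxt hne,
      fun x c hx hc hxt hne => base_value_eq L wL (t := t₀) rfl hx hc hxt hne⟩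
    space_invariant := hB
    trace_ne_zero := ?_
    form := hform }⟩
  intro h
  replace h := congrArg conj (htrB.symm.trans h)
  rw [map_zero, Complex.conj_conj] at h
  exact hn.ne' (by exact_mod_cast htr.symm.trans h)

omit [NumberField (cubicField ρ)] in
/-- `DescentStep` from the producers. -/
theorem descentStep_of_producers (h : ∀ (ρ : GalQ →* GF3) (hρ : IsSupersingularRep ρ)
    (Ψ : GF3 →* GL (Fin 2) (ℤ√(-2))),
      (∀ g, Matrix.GeneralLinearGroup.map FLT.ExplicitLift.red (Ψ g) = g) →
        haveI := numberField_cubicField hρ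
        Nonempty (CubicProducers hρ Ψ)) : DescentStep :=
  descentStep_of_traceData fun ρ hρ Ψ hΨ => by
    have := numberField_cubicField hρ
    exact (h ρ hρ Ψ hΨ).elim fun D => D.nonempty_traceData hρ hΨ

end Fermat.Agent.LT.Descent

end
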