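import Fermat.Agent.LT.Descent.CompatibleTotals
import Fermat.Agent.LT.Descent.Data
import Fermat.Agent.LT.DihedralTheta.Target.Main

/-!
# `DescentStep` from the theta datum and the comparison class by class

`HasTarget` is the theta datum on the cubic field in the shape used by the target, `HasClasswise`
the comparison of the geometric sides class by class for matched tests.
-/

set_option autoImplicit false

noncomputable section

open scoped NumberField
open NumberField (InfinitePlace IsTotallyComplex)
open Fermat.Agent.GaloisBasics
open Fermat.Agent.LT.Final (GF3)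

namespace Fermat.Agent.LT.Descent

open GaloisData Places CuspType PlaceMatching
open Fermat.Agent.LT.Spectral (Weight LipKernel)
open Fermat.Agent.LT.Geometric (ClasswiseTotals)

variable {ρ : GalQ →* GF3} (hρ : IsSupersingularRep ρ) [NumberField (cubicField ρ)]

/-- A theta datum with the properties used by the target. -/
def HasTarget (Ψ : GF3 →* GL (Fin 2) (ℤ√(-2))) : Prop :=
  ∃ (ι : ℤ√(-2) →+* ℂ) (ε : Fin 2) (D : DihedralTheta.ThetaData (cubicField ρ)),
    DihedralTheta.IsTargetData D (cubicAut hρ) (exists_mem_levelI hρ) (placesTame hρ)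
      (placesThree hρ) (fun v => DihedralTheta.thetaLam ρ Ψ ι v.asIdeal) (cubicPlaces hρ).three ε

/-- The comparison of the geometric sides class by class for matched tests. -/
def HasClasswise : Prop :=
  ∀ [IsTotallyComplex (cubicField ρ)] (ε : Fin 2) (wL : Weight (levelL hρ)),
    IsFixedWeight wL isStable_cubicAut →
    ∀ (w : Weight (Level.ofIdeal EisField (Ideal.span {(levelN hρ : 𝓞 EisField)})
        (exists_mem_span_natCast (levelN_pos hρ)))) (l : LipKernel (cubicField ρ))
      (m : LipKernel EisField) (x y), RadialMatch (infPlace hρ) default l m →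
      CompatibleMatch (exists_mem_levelI hρ) (exists_mem_span_natCast (levelN_pos hρ))
        (fun _ hw => (cubicPlaces hρ).levelI_le_three hw)
        (fun _ hv => span_levelN_le_eisThree (hρ := hρ) hv)
        (cubicPlaces hρ).three_nonempty eisThree_nonempty ε
        (someSection (eisToCubic hρ).toRingHom) (levelsMatch hρ) (isCubic_cubicAut hρ) x y →
      ClasswiseTotals (eisToCubic hρ).toRingHom (isStable_cubicAut (hρ := hρ))
        wL.toPartitionOfUnity w.toPartitionOfUnity l.pointKer
        ((cuspFamily (isTypeLevel_ofIdeal (exists_mem_levelI hρ)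
          fun _ hw => (cubicPlaces hρ).levelI_le_three hw) ε
          (cubicPlaces hρ).three_nonempty).fn x) m.pointKer
        ((cuspFamily (isTypeLevel_ofIdeal (exists_mem_span_natCast (levelN_pos hρ))
          fun _ hv => span_levelN_le_eisThree (hρ := hρ) hv) ε eisThree_nonempty).fn y)

/-- The producers from the theta datum and the comparison. -/
theorem nonempty_cubicProducers {Ψ : GF3 →* GL (Fin 2) (ℤ√(-2))} (hT : HasTarget hρ Ψ)
    (hC : HasClasswise hρ) : Nonempty (CubicProducers hρ Ψ) := by
  have := isTotallyComplex_cubicField hρ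
  have := finiteDimensional_fixH hρ.continuous quatGroup
  obtain ⟨ι, ε, D, hD⟩ := hT
  obtain ⟨lam, hlam, φ, hφ, hfix, hkill, hne⟩ := DihedralTheta.exists_target Ψ ι hρ hD
  exact ⟨{
    ι := ι
    ε := ε
    lam := lam
    lam_eq := hlam
    form := φ
    form_mem := hφ
    form_fixed := hfix _
    form_tame := hkill
    form_ne_zero := hne
    geometric := fun wL hwL => (cubicPlaces hρ).compatibleTotals_of_classwise ε wL (hC ε wL hwL) }⟩

omit [NumberField (cubicField ρ)] in
/-- **`DescentStep` from the theta data and the classwise comparisons.** -/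
theorem descentStep_of_target_classwise
    (hT : ∀ (ρ : GalQ →* GF3) (hρ : IsSupersingularRep ρ) (Ψ : GF3 →* GL (Fin 2) (ℤ√(-2))),
      (∀ g, Matrix.GeneralLinearGroup.map FLT.ExplicitLift.red (Ψ g) = g) →
        haveI := numberField_cubicField hρ
        HasTarget hρ Ψ)
    (hC : ∀ (ρ : GalQ →* GF3) (hρ : IsSupersingularRep ρ),
      haveI := numberField_cubicField hρ
      HasClasswise hρ) : DescentStep :=
  descentStep_of_producers fun ρ hρ Ψ hΨ => by
    have := numberField_cubicField hρ
    exact nonempty_cubicProducers hρ (hT ρ hρ Ψ hΨ) (hC ρ hρ)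

end Fermat.Agent.LT.Descent

end
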