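import Fermat.Agent.LT.Descent.ClasswiseFinal
import Fermat.Agent.LT.DihedralTheta.Instance.Final

/-!
# Cubic descent

For a supersingular `ρ`, the dihedral theta form of the cubic field descends to a cusp form on
`ℚ(ζ₃)` with the predicted eigenvalues at the split primes: the target comes from the theta datum
and the equality of twisted traces from the comparison class by class.
-/

set_option autoImplicit false

noncomputable section

open Fermat.Agent.GaloisBasics
open Fermat.Agent.LT.Final (GF3)

namespace Fermat.Agent.LT.Descent

open GaloisData

/-- **Cubic descent** of the dihedral theta form of a supersingular representation. -/
theorem descentStep : DescentStep :=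
  descentStep_of_target_classwise
    (fun _ hρ _ hΨ => by
      have := numberField_cubicField hρ
      exact DihedralTheta.hasTarget hρ hΨ)
    (fun _ hρ => by
      have := numberField_cubicField hρ
      exact @hasClasswise _ hρ _)

end Fermat.Agent.LT.Descent

end
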