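import Fermat.Agent.LT.GaloisData.Psi
import Fermat.Agent.LT.Geometric.NormClasses
import Fermat.Agent.LT.Setup.IdealLevel
import Fermat.Agent.LT.Places.Completion
import Fermat.Agent.GaloisBasics.Finite
import Mathlib.NumberTheory.NumberField.Discriminant.Different

/-!
# The levels of cubic descent

`ramSet` is the set of primes other than three where `ρ` ramifies. On `EisField` the level is
`3` times their product, on the cubic field `3` times the product of the places above them.
-/

set_option autoImplicit false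

noncomputable section

open scoped NumberField
open Fermat.Agent.GaloisBasics
open Fermat.Agent.LT.Final (GF3)
open Fermat.Agent.LT.Places (FinPlace)

namespace Fermat.Agent.LT.Descent

open GaloisData

variable {ρ : GalQ →* GF3} (hρ : IsSupersingularRep ρ)
include hρ

/-- `ρ` is unramified at `q`. -/
def IsUnramAt (ρ : GalQ →* GF3) (q : ℕ) : Prop :=
  ∀ A : ValuationSubring Qbar, A.LiesOverPrime q → ∀ τ ∈ A.inertiaSubgroupIn ℚ, ρ τ = 1

/-- Away from three only finitely many primes ramify. -/
theorem finite_ramified : {q : ℕ | q.Prime ∧ q ≠ 3 ∧ ¬ IsUnramAt ρ q}.Finite := by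
  have := numberField_cubicField hρ
  have := isGalois_fixH hρ.continuous quatGroup
  have hd : (NumberField.discr (cubicField ρ)).natAbs ≠ 0 :=
    Int.natAbs_ne_zero.2 (NumberField.discr_ne_zero _)
  refine ((NumberField.discr (cubicField ρ)).natAbs.divisors.finite_toSet).subset ?_
  rintro q ⟨hq, h3, hr⟩
  rw [Finset.mem_coe, Nat.mem_divisors]
  refine ⟨?_, hd⟩
  by_contra hnd
  refine hr fun A hA τ hτ => ?_
  have hnd' : ¬ (q : ℤ) ∣ NumberField.discr (cubicField ρ) := fun h => hnd (Int.natCast_dvd.1 h)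
  have := intIdeal_isMaximal (cubicField ρ) hA hq
  have hover : (intIdeal (cubicField ρ) A).LiesOver (Ideal.span {(q : ℤ)}) :=
    ⟨(under_int_intIdeal (cubicField ρ) hA hq).symm⟩
  have hunr := (NumberField.not_dvd_discr_iff_forall_liesOver (cubicField ρ) (𝓞 (cubicField ρ))
    (Nat.prime_iff_prime_int.1 hq)).1 hnd' _ inferInstance hover
  exact rho_inertia_eq_one hρ hq h3 hA hτ
    ((inertia_le_fixingSubgroup_iff (cubicField ρ) hA hq).2 hunr hτ)

/-- The primes other than three where `ρ` ramifies. -/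
def ramSet : Finset ℕ := (finite_ramified hρ).toFinset

/-- Membership in `ramSet`. -/
theorem mem_ramSet {q : ℕ} : q ∈ ramSet hρ ↔ q.Prime ∧ q ≠ 3 ∧ ¬ IsUnramAt ρ q := by
  simp [ramSet]

/-- The elements of `ramSet` are primes. -/
theorem prime_of_mem_ramSet {q : ℕ} (h : q ∈ ramSet hρ) : q.Prime := ((mem_ramSet hρ).1 h).1

/-- Three is not in `ramSet`. -/
theorem three_notMem_ramSet : 3 ∉ ramSet hρ := fun h => ((mem_ramSet hρ).1 h).2.1 rfl

/-- Outside three and `ramSet` the representation is unramified. -/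
theorem isUnramAt_of_notMem {q : ℕ} (hq : q.Prime) (h3 : q ≠ 3) (h : q ∉ ramSet hρ) :
    IsUnramAt ρ q := by
  by_contra h'
  exact h ((mem_ramSet hρ).2 ⟨hq, h3, h'⟩)

/-- The level on `EisField`. -/
def levelN : ℕ := 3 * ∏ q ∈ ramSet hρ, q

/-- The level is positive. -/
theorem levelN_pos : 0 < levelN hρ :=
  Nat.mul_pos three_pos (Finset.prod_pos fun _ hq => (prime_of_mem_ramSet hρ hq).pos)

/-- The primes of the level are three and those of `ramSet`. -/
theorem dvd_levelN_iff {q : ℕ} (hq : q.Prime) : q ∣ levelN hρ ↔ q = 3 ∨ q ∈ ramSet hρ := by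
  rw [levelN, hq.dvd_mul, Nat.prime_dvd_prime_iff_eq hq Nat.prime_three]
  refine or_congr Iff.rfl ⟨fun h => ?_, fun h => Finset.dvd_prod_of_mem _ h⟩
  obtain ⟨r, hr, hqr⟩ := (Prime.dvd_finsetProd_iff hq.prime _).1 h
  rwa [(Nat.prime_dvd_prime_iff_eq hq (prime_of_mem_ramSet hρ hr)).1 hqr]

/-- Three divides the level. -/
theorem three_dvd_levelN : 3 ∣ levelN hρ := dvd_mul_right _ _

/-- Away from three the level is squarefree. -/
theorem levelN_squarefree {q : ℕ} (hq : q.Prime) (h3 : q ≠ 3) : ¬ q ^ 2 ∣ levelN hρ := by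
  intro h
  rcases (dvd_levelN_iff hρ hq).1 (dvd_trans (dvd_pow_self q two_ne_zero) h) with h' | h'
  · exact h3 h'
  rw [levelN, ← Finset.mul_prod_erase _ _ h', mul_left_comm, sq] at h
  replace h := (Nat.mul_dvd_mul_iff_left hq.pos).1 h
  rcases hq.dvd_mul.1 h with h'' | h''
  · exact h3 ((Nat.prime_dvd_prime_iff_eq hq Nat.prime_three).1 h'')
  · obtain ⟨r, hr, hqr⟩ := (Prime.dvd_finsetProd_iff hq.prime _).1 h''
    rw [Finset.mem_erase] at hr
    exact hr.1 ((Nat.prime_dvd_prime_iff_eq hq (prime_of_mem_ramSet hρ hr.2)).1 hqr).symm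

/-- The cubic field is cyclic over `EisField`. -/
theorem isCubic_cubicAut : Geometric.IsCubic (eisToCubic hρ).toRingHom (cubicAut hρ) :=
  ⟨fun x => (cubicAut_fixed_iff hρ x).trans (by rfl), cubicAut_pow_three hρ, cubicAut_ne_one hρ⟩

theorem finite_places_above (n : ℕ) (hn : n ≠ 0) :
    {w : FinPlace (cubicField ρ) | (n : 𝓞 (cubicField ρ)) ∈ w.asIdeal}.Finite := by
  have := numberField_cubicField hρ
  refine (Ideal.finite_factors (R := 𝓞 (cubicField ρ))
    (I := Ideal.span {(n : 𝓞 (cubicField ρ))}) ?_).subset fun w hw => ?_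
  · rw [Ne, Ideal.zero_eq_bot, Ideal.span_singleton_eq_bot]
    exact_mod_cast hn
  · rw [Set.mem_ofPred_eq, Ideal.dvd_iff_le, Ideal.span_singleton_le_iff_mem]
    exact hw

/-- The tame places: those above the ramified primes. -/
def placesTame : Finset (FinPlace (cubicField ρ)) :=
  (finite_places_above hρ (∏ q ∈ ramSet hρ, q)
    (Finset.prod_pos fun _ hq => (prime_of_mem_ramSet hρ hq).pos).ne').toFinset

/-- The places above three. -/
def placesThree : Finset (FinPlace (cubicField ρ)) :=
  (finite_places_above hρ 3 three_ne_zero).toFinset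

/-- Membership in `placesThree`. -/
theorem mem_placesThree {w : FinPlace (cubicField ρ)} :
    w ∈ placesThree hρ ↔ (3 : 𝓞 (cubicField ρ)) ∈ w.asIdeal := by
  simp [placesThree]

/-- The tame places are those above `ramSet`. -/
theorem mem_placesTame {w : FinPlace (cubicField ρ)} :
    w ∈ placesTame hρ ↔ ∃ q ∈ ramSet hρ, (q : 𝓞 (cubicField ρ)) ∈ w.asIdeal := by
  rw [placesTame, Set.Finite.mem_toFinset, Set.mem_ofPred_eq, Nat.cast_prod]
  exact Ideal.IsPrime.prod_mem_iff

/-- No tame place lies above three. -/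
theorem disjoint_places : Disjoint (placesTame hρ) (placesThree hρ) := by
  rw [Finset.disjoint_left]
  intro w hw h3
  obtain ⟨q, hq, hqw⟩ := (mem_placesTame hρ).1 hw
  rw [mem_placesThree] at h3
  have hco : IsCoprime (q : ℤ) (3 : ℤ) := by
    refine Int.isCoprime_iff_nat_coprime.2 ?_
    exact (Nat.coprime_primes (prime_of_mem_ramSet hρ hq) Nat.prime_three).2
      ((mem_ramSet hρ).1 hq).2.1
  obtain ⟨a, b, hab⟩ := hco
  refine w.isPrime.ne_top ((Ideal.eq_top_iff_one _).2 ?_)
  have e : (1 : 𝓞 (cubicField ρ)) = (a : 𝓞 (cubicField ρ)) * q + (b : 𝓞 (cubicField ρ)) * 3 := by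
    exact_mod_cast hab.symm
  rw [e]
  exact add_mem (w.asIdeal.mul_mem_left _ hqw) (w.asIdeal.mul_mem_left _ h3)

/-- The level on the cubic field. -/
def levelI : Ideal (𝓞 (cubicField ρ)) :=
  Ideal.span {(3 : 𝓞 (cubicField ρ))} * ∏ w ∈ placesTame hρ, w.asIdeal

/-- The level ideal contains a positive integer. -/
theorem exists_mem_levelI : ∃ N : ℕ, 0 < N ∧ (N : 𝓞 (cubicField ρ)) ∈ levelI hρ := by
  have := numberField_cubicField hρ
  refine ⟨(Ideal.absNorm (levelI hρ)), Nat.pos_of_ne_zero ?_, Ideal.absNorm_mem _⟩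
  rw [Ne, Ideal.absNorm_eq_zero_iff, levelI, ← Ideal.zero_eq_bot, mul_eq_zero, not_or]
  refine ⟨by simp, ?_⟩
  rw [Finset.prod_eq_zero_iff]
  rintro ⟨w, -, hw⟩
  exact w.ne_bot hw

/-- The level on the cubic field as a level. -/
def levelL : haveI := numberField_cubicField hρ; Level (cubicField ρ) :=
  haveI := numberField_cubicField hρ
  Level.ofIdeal (cubicField ρ) (levelI hρ) (exists_mem_levelI hρ)

/-- The places of the level are the tame ones and those above three. -/
theorem levelI_le_iff (v : FinPlace (cubicField ρ)) :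
    levelI hρ ≤ v.asIdeal ↔ v ∈ placesTame hρ ∨ v ∈ placesThree hρ := by
  have := numberField_cubicField hρ
  constructor
  · intro h
    rcases v.isPrime.mul_le.1 h with h3 | h'
    · exact Or.inr ((mem_placesThree hρ).2 ((Ideal.span_singleton_le_iff_mem _).1 h3))
    · obtain ⟨w, hw, hwv⟩ := v.isPrime.prod_le.1 h'
      exact Or.inl (by
        rwa [← show w = v from IsDedekindDomain.HeightOneSpectrum.ext
          (w.isMaximal.eq_of_le v.isPrime.ne_top hwv)])
  · rintro (h | h)
    · exact Ideal.mul_le_right.trans ((Ideal.prod_le_inf).trans (Finset.inf_le h))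
    · exact Ideal.mul_le_left.trans
        ((Ideal.span_singleton_le_iff_mem _).2 ((mem_placesThree hρ).1 h))

end Fermat.Agent.LT.Descent

end
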