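import Fermat.Agent.LT.Descent.Assembly
import Fermat.Agent.LT.GaloisData.Psi

/-!
# The system of the dihedral form on the labels

`targetSystem` sends a split prime and an index to the eigenvalue at the prime above and a radial
kernel to its scalar. The eigenvalues at those primes are real: the lift of a quaternion element
has trace `0` or `±2`.
-/

set_option autoImplicit false

noncomputable section

open scoped NumberField ComplexConjugate
open Fermat.Agent.GaloisBasics
open Fermat.Agent.LT.Final (GF3)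

namespace Fermat.Agent.LT.Descent

open GaloisData

variable {ρ : GalQ →* GF3} {N : ℕ} {T : Finset ℕ}

/-- The system with given values at the primes above the split primes. -/
def targetSystem (lam : Ideal (𝓞 (cubicField ρ)) → ℂ)
    (above : splitSet ρ N T → Fin 3 → Ideal (𝓞 (cubicField ρ))) :
    FreeMonoid (Label ρ N T) →* ℂ :=
  FreeMonoid.lift fun l => Sum.elim (fun P => lam (above P l.2)) (fun k => (k.scalar : ℂ)) l.1

/-- The target at a split prime and an index is the eigenvalue at the prime above. -/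
theorem targetSystem_prime (lam : Ideal (𝓞 (cubicField ρ)) → ℂ)
    (above : splitSet ρ N T → Fin 3 → Ideal (𝓞 (cubicField ρ))) (P : splitSet ρ N T) (i : Fin 3) :
    targetSystem lam above (FreeMonoid.of (Sum.inl P, i)) = lam (above P i) := by
  simp [targetSystem]

/-- The target at a radial kernel is its scalar. -/
theorem targetSystem_radial (lam : Ideal (𝓞 (cubicField ρ)) → ℂ)
    (above : splitSet ρ N T → Fin 3 → Ideal (𝓞 (cubicField ρ))) (k : RadialKernel EisField)
    (i : Fin 3) :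
    targetSystem lam above (FreeMonoid.of (Sum.inr k, i)) = (k.scalar : ℂ) := by
  simp [targetSystem]

/-- The lift of a quaternion element has integral trace. -/
theorem exists_int_liftTrace {Ψ : GF3 →* GL (Fin 2) (ℤ√(-2))}
    (hΨ : ∀ g, Matrix.GeneralLinearGroup.map FLT.ExplicitLift.red (Ψ g) = g) {g : GF3}
    (hg : Final.InQuaternion g) : ∃ n : ℤ, liftTrace Ψ g = (n : ℤ√(-2)) := by
  by_cases h1 : g = 1
  · exact ⟨2, by subst h1; rw [liftTrace_one]; rfl⟩
  by_cases h2 : g = -1
  · exact ⟨-2, by subst h2; rw [liftTrace_neg_one hΨ]; rfl⟩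
  · exact ⟨0, by rw [liftTrace_quaternion hΨ (mem_quatGroup.2 hg) h1 h2]; rfl⟩

/-- The eigenvalues at the primes above the split primes are real. -/
theorem conj_lam_eq (hρ : IsSupersingularRep ρ) {Ψ : GF3 →* GL (Fin 2) (ℤ√(-2))}
    (hΨ : ∀ g, Matrix.GeneralLinearGroup.map FLT.ExplicitLift.red (Ψ g) = g) {ι : ℤ√(-2) →+* ℂ}
    {lam : Ideal (𝓞 (cubicField ρ)) → ℂ} (hlam : HasThetaEigenvalues hρ Ψ ι T lam)
    (P : splitSet ρ N T) (Q : Ideal (𝓞 (cubicField ρ))) (hQ : Q.IsPrime)
    (hQP : Q.comap (eisIntHom hρ) = P.1) : conj (lam Q) = lam Q := by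
  obtain ⟨-, -, -, p, A₀, σ₀, f, hp, hT, -, hA₀, hI₀, hσ₀, hnorm, hq⟩ := P.2
  have hf : (p : 𝓞 EisField) ∈ P.1 := by
    have h := Ideal.absNorm_mem P.1
    rw [hnorm, Nat.cast_pow] at h
    exact P.2.1.mem_of_pow_mem f h
  have hQp : (p : 𝓞 (cubicField ρ)) ∈ Q := by
    rw [← hQP, Ideal.mem_comap, map_natCast] at hf
    exact hf
  obtain ⟨hQn, B, hB, hBQ, hBI, τ, hτ, hτq, -⟩ := exists_place_of_split hρ hp hA₀ hI₀ hσ₀ hq Q hQp
    (by rw [hQP]; exact hnorm)
  rw [← hBQ, hlam p hp hT B hB hBI τ hτ f (by rw [hBQ]; exact hQn) hτq]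
  obtain ⟨n, hn⟩ := exists_int_liftTrace hΨ hτq
  have e : ((Ψ (ρ τ ^ f) : GL (Fin 2) (ℤ√(-2))) : Matrix (Fin 2) (Fin 2) (ℤ√(-2))).trace =
      (n : ℤ√(-2)) := hn
  rw [e, map_intCast, map_mul, map_pow, Complex.conj_ofReal, map_intCast]

end Fermat.Agent.LT.Descent

end
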