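import Fermat.Agent.LT.Descent.Form
import Fermat.Agent.LT.Descent.Levels
import Fermat.Agent.LT.CuspType.Cusp
import Fermat.Agent.LT.Descent.Target
import Fermat.Agent.LT.Reduction.Public

/-!
# The two sides of cubic descent

On both fields the family is the type at three times the good Hecke operators. A label `(P, i)` is
the operator at the `i`-th prime above `P`, resp. at `P`; a label `(k, i)` is the profile of `k`
at the `i`-th infinite place, resp. at the place of `EisField`.
-/

set_option autoImplicit false

noncomputable section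

open MeasureTheory
open scoped NumberField
open NumberField (InfinitePlace IsTotallyComplex)
open Fermat.Agent.GaloisBasics
open Fermat.Agent.LT.Final (GF3)

namespace Fermat.Agent.LT.Descent

open GaloisData Spectral CuspType Places

section Eis

/-- The primes of `EisField` over three have norm three. -/
theorem span_zeta_sub_one_eq {v : FinPlace EisField} (hv : (3 : 𝓞 EisField) ∈ v.asIdeal) :
    Ideal.absNorm v.asIdeal = 3 := by
  have := isCyclotomicExtension_eisField
  have hζ := IsCyclotomicExtension.zeta_spec 3 ℚ EisField
  have : Fact (Nat.Prime 3) := ⟨Nat.prime_three⟩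
  set z : 𝓞 EisField := hζ.toInteger
  have hz : (z - 1) ^ 2 = -3 * z := by
    refine NumberField.RingOfIntegers.ext ?_
    have h1 : (IsCyclotomicExtension.zeta 3 ℚ EisField) ≠ 1 := hζ.ne_one (by norm_num)
    have h0 : (IsCyclotomicExtension.zeta 3 ℚ EisField - 1) *
        ((IsCyclotomicExtension.zeta 3 ℚ EisField) ^ 2 +
          IsCyclotomicExtension.zeta 3 ℚ EisField + 1) = 0 := by
      linear_combination hζ.pow_eq_one
    have hcoe : (z : EisField) = IsCyclotomicExtension.zeta 3 ℚ EisField := rfl
    simp only [map_sub, map_mul, map_neg, map_pow, map_one, map_ofNat, hcoe]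
    linear_combination (mul_eq_zero.mp h0).resolve_left (sub_ne_zero.mpr h1)
  have hmem : z - 1 ∈ v.asIdeal := v.isPrime.mem_of_pow_mem 2 (by
    rw [hz, neg_mul]
    exact neg_mem (v.asIdeal.mul_mem_right _ hv))
  have hdvd := Ideal.absNorm_dvd_absNorm_of_le ((Ideal.span_singleton_le_iff_mem _).2 hmem)
  rw [Ideal.absNorm_span_singleton,
    show Algebra.norm ℤ (z - 1) = 3 from hζ.norm_toInteger_sub_one_of_prime_ne_two' (by norm_num)]
    at hdvd
  exact ((Nat.dvd_prime Nat.prime_three).1 hdvd).resolve_left
    fun h => v.isPrime.ne_top (Ideal.absNorm_eq_one_iff.1 h)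

theorem finite_eis_three : {v : FinPlace EisField | (3 : 𝓞 EisField) ∈ v.asIdeal}.Finite := by
  refine (Ideal.finite_factors (R := 𝓞 EisField) (I := Ideal.span {(3 : 𝓞 EisField)}) ?_).subset
    fun w hw => ?_
  · rw [Ne, Ideal.zero_eq_bot, Ideal.span_singleton_eq_bot]
    norm_num
  · rw [Set.mem_ofPred_eq, Ideal.dvd_iff_le, Ideal.span_singleton_le_iff_mem]
    exact hw

/-- The places of `EisField` over three. -/
def eisThree : ThreeSet EisField where
  places := finite_eis_three.toFinset
  card_residue v hv := by
    refine Eq.trans ?_ (span_zeta_sub_one_eq (v := v) (by simpa using hv))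
    rw [Ideal.absNorm_apply, Submodule.cardQuot_apply]

/-- Membership in `eisThree`. -/
theorem mem_eisThree {v : FinPlace EisField} :
    v ∈ eisThree.places ↔ (3 : 𝓞 EisField) ∈ v.asIdeal := by
  simp [eisThree]

/-- There is a place of `EisField` over three. -/
theorem eisThree_nonempty : eisThree.places.Nonempty := by
  obtain ⟨M, hM, hle⟩ := Ideal.exists_le_maximal (Ideal.span {(3 : 𝓞 EisField)}) (by
    rw [Ne, Ideal.span_singleton_eq_top]
    intro hu
    have h := hu.map (Algebra.norm ℤ)
    rw [show (3 : 𝓞 EisField) = algebraMap ℤ (𝓞 EisField) 3 by simp, Algebra.norm_algebraMap,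
      Int.isUnit_iff_natAbs_eq, Int.natAbs_pow] at h
    rcases pow_eq_one_iff.1 h with h' | h'
    · norm_num at h'
    · exact Module.finrank_pos.ne' h')
  have h3 : (3 : 𝓞 EisField) ∈ M := (Ideal.span_singleton_le_iff_mem _).1 hle
  exact ⟨⟨M, hM.isPrime, fun h => by simp [h] at h3⟩, mem_eisThree.2 h3⟩

/-- A weight. -/
theorem exists_weight {F : Type*} [Field F] [NumberField F] [IsTotallyComplex F] (U : Level F) :
    Nonempty (Weight U) := by
  obtain ⟨P, hm, hi, -⟩ := Reduction.exists_partitionOfUnity U
  exact ⟨{ toPartitionOfUnity := P, measurable := hm, integrable := hi }⟩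

end Eis

variable {ρ : GalQ →* GF3} (hρ : IsSupersingularRep ρ)

/-- The labels of the comparison. -/
abbrev CubicLabel : Type := Label ρ (levelN hρ) ∅

/-- The level on `EisField`. -/
abbrev levelK : Level EisField := Level.principal EisField (levelN hρ) (levelN_pos hρ)

/-- The level on `EisField` carries the type at three. -/
theorem isTypeLevel_levelK : IsTypeLevel eisThree (levelK hρ) :=
  isTypeLevel_principal (levelN_pos hρ) (three_dvd_levelN hρ)

/-- The family on `EisField`. -/
def familyK (ε : Fin 2) : HeckeFamily (levelK hρ) (goodMonoid (levelK hρ) eisThree) :=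
  cuspFamily (isTypeLevel_levelK hρ) ε eisThree_nonempty

/-- The labels on `EisField`. -/
def labelK : CubicLabel hρ → Spectral.Label EisField (goodMonoid (levelK hρ) eisThree) :=
  labK eisThree (levelN_pos hρ) ρ ∅ (three_dvd_levelN hρ)

/-- The labels on `EisField` are self-adjoint. -/
theorem adjLabel_labelK (ε : Fin 2) (l : CubicLabel hρ) :
    (familyK hρ ε).adjLabel (labelK hρ l) = labelK hρ l :=
  cuspFamily_adjLabel _ _ _ _

variable [NumberField (cubicField ρ)]

include hρ in
theorem card_infinitePlace_cubicField :
    Fintype.card (InfinitePlace (cubicField ρ)) = 3 := by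
  have := isTotallyComplex_cubicField hρ
  have h := InfinitePlace.card_add_two_mul_card_eq_rank (K := cubicField ρ)
  rw [finrank_cubicField hρ.continuous hρ.surjective, IsTotallyComplex.nrRealPlaces_eq_zero] at h
  rw [InfinitePlace.card_eq_nrRealPlaces_add_nrComplexPlaces, IsTotallyComplex.nrRealPlaces_eq_zero]
  omega

/-- The three infinite places of the cubic field. -/
def infPlace : Fin 3 ≃ InfinitePlace (cubicField ρ) :=
  (Fintype.equivFinOfCardEq (card_infinitePlace_cubicField hρ)).symm

/-- The choice of the places and of the type on the cubic field. -/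
structure CubicPlaces where
  /-- The type at three. -/
  three : ThreeSet (cubicField ρ)
  three_places : three.places = placesThree hρ
  three_nonempty : three.places.Nonempty
  /-- The three places over a split prime. -/
  pl : splitSet ρ (levelN hρ) ∅ → Fin 3 → FinPlace (cubicField ρ)
  pl_comap : ∀ P i, (pl P i).asIdeal.comap (eisIntHom hρ) = P.1
  pl_good : ∀ P i, ¬ levelI hρ ≤ (pl P i).asIdeal

variable {hρ} (D : CubicPlaces hρ)

namespace CubicPlaces

/-- The level on the cubic field carries the type at three. -/
theorem isTypeLevel : IsTypeLevel D.three (levelL hρ) :=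
  isTypeLevel_ofIdeal (exists_mem_levelI hρ) fun v hv =>
    (levelI_le_iff hρ v).2 (Or.inr (D.three_places ▸ hv))

omit [NumberField (cubicField ρ)] in
/-- The places over split primes do not lie over three. -/
theorem pl_notMem (P : splitSet ρ (levelN hρ) ∅) (i : Fin 3) : D.pl P i ∉ D.three.places :=
  fun h => D.pl_good P i ((levelI_le_iff hρ _).2 (Or.inr (D.three_places ▸ h)))

/-- The places over split primes are good for the level. -/
theorem pl_isGoodAt (P : splitSet ρ (levelN hρ) ∅) (i : Fin 3) :
    IsGoodAt (levelL hρ) (D.pl P i) :=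
  isGoodAt_ofIdeal (exists_mem_levelI hρ) (D.pl_good P i)

/-- The family on the cubic field. -/
def familyL (ε : Fin 2) : HeckeFamily (levelL hρ) (goodMonoid (levelL hρ) D.three) :=
  cuspFamily D.isTypeLevel ε D.three_nonempty

/-- The labels on the cubic field. -/
def labelL : CubicLabel hρ → Spectral.Label (cubicField ρ) (goodMonoid (levelL hρ) D.three)
  | (Sum.inl P, i) => Sum.inr (heckeIdx (D.pl_isGoodAt P i) (D.pl_notMem P i))
  | (Sum.inr k, i) => Sum.inl (infPlace hρ i, eisProfile k)

/-- The labels on the cubic field are self-adjoint. -/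
theorem adjLabel_labelL (ε : Fin 2) (l : CubicLabel hρ) :
    (D.familyL ε).adjLabel (D.labelL l) = D.labelL l :=
  cuspFamily_adjLabel _ _ _ _

/-- Every profile at every place is a label. -/
theorem exists_labelL (v : InfinitePlace (cubicField ρ)) (k : Profile) :
    ∃ l, D.labelL l = Sum.inl (v, k) :=
  ⟨(Sum.inr ⟨fun _ => k.toFun, fun _ => k.continuous, fun _ => k.hasCompactSupport⟩,
    (infPlace hρ).symm v), by simp [labelL, eisProfile]⟩

/-- The ideals over a split prime. -/
def above (P : splitSet ρ (levelN hρ) ∅) (i : Fin 3) : Ideal (𝓞 (cubicField ρ)) :=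
  (D.pl P i).asIdeal

/-- On a radial label the target takes the spherical value. -/
theorem targetSystem_radial_label (lam : Ideal (𝓞 (cubicField ρ)) → ℂ) (l : CubicLabel hρ)
    (v : InfinitePlace (cubicField ρ)) (k : Profile) (h : D.labelL l = Sum.inl (v, k)) :
    targetSystem lam D.above (FreeMonoid.of l) = (H3.sph k.toFun : ℂ) := by
  obtain ⟨P | q, i⟩ := l
  · simp [labelL] at h
  · simp only [labelL, Sum.inl.injEq, Prod.mk.injEq] at h
    rw [targetSystem_radial, ← h.2, eisProfile, RadialKernel.scalar, Fintype.prod_unique]

end CubicPlaces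

end Fermat.Agent.LT.Descent

end
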