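import Fermat.Agent.LT.Descent.CuspFamily
import Fermat.Agent.LT.PlaceMatching.Tests
import Fermat.Agent.LT.CuspType.Compat

/-!
# The finite part of the word tests

A word in the Hecke labels at moved places gives a member of the family of the type on `L` and on
`K`; both come from compatible families of local kernels, so the sums along the fibres apply.
-/

set_option autoImplicit false

noncomputable section

open scoped NumberField Classical

namespace Fermat.Agent.LT.Descent

open Places Spectral CuspType PlaceMatching CubicDescent Matching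
open Fermat.Agent.LT.Geometric (IsCubic)

section General

variable {F : Type*} [Field F] [NumberField F] {U : Level F}

/-- The cusp condition passes to a product with a factor on the right. -/
theorem hasCuspConditionAt_mul_right {h : HeckeFn U} {e : FinAdele F}
    (hc : Geometric.HasCuspConditionAt h e) (f : HeckeFn U) :
    Geometric.HasCuspConditionAt (h * f) e := by
  intro g
  obtain ⟨S, hS, hSe, hsum⟩ := hc g
  refine ⟨S, hS, hSe, fun c => ?_⟩
  set a : GLFin F ⧸ U.toSubgroup := QuotientGroup.mk g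
  set u : GLFin F ⧸ U.toSubgroup → ℂ := fun b => f.kernel b (QuotientGroup.mk c) with hu
  set R := S.biUnion fun s => h.row ((unip s : GLFin F)⁻¹ • a) with hR
  have hterm : ∀ s ∈ S, (h * f).toFun (g⁻¹ * unip s * c) =
      ∑ b ∈ R, h.kernel ((unip s : GLFin F)⁻¹ • a) b * u b := fun s hs => by
    rw [show (h * f).toFun (g⁻¹ * unip s * c) =
        (h * f).kernel a (unip s • QuotientGroup.mk c) by
      rw [MulAction.Quotient.smul_mk, smul_eq_mul, HeckeFn.kernel_mk, mul_assoc],
      HeckeFn.kernel_mul, ← h.act_eq_sum_of_subset u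
        (Finset.subset_biUnion_of_mem (fun s => h.row ((unip s : GLFin F)⁻¹ • a)) hs),
      HeckeFn.act_congr_smul]
    congr 1
    funext b
    simp only [hu]
    rw [← f.kernel_smul (unip s : GLFin F)⁻¹, inv_smul_smul]
  rw [Finset.sum_congr rfl hterm, Finset.sum_comm]
  refine Finset.sum_eq_zero fun b _ => ?_
  obtain ⟨b, rfl⟩ := QuotientGroup.mk_surjective b
  rw [← Finset.sum_mul]
  refine mul_eq_zero_of_left (Eq.trans (Finset.sum_congr rfl fun s _ => ?_) (hsum b)) _
  rw [← h.kernel_smul (unip s : GLFin F), smul_inv_smul, MulAction.Quotient.smul_mk, smul_eq_mul,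
    HeckeFn.kernel_mk, mul_assoc]

variable {S : ThreeSet F} (hU : IsTypeLevel S U) (ε : Fin 2) (hS : S.places.Nonempty)

/-- The members satisfy the cusp condition along any idempotent containing the type. -/
theorem hasCuspConditionAt_cuspFamily_fn {e : FinAdele F}
    (he : ∀ v ∈ S.places, toPlace v e = 1) (m : goodMonoid U S) :
    Geometric.HasCuspConditionAt ((cuspFamily hU ε hS).fn m) e := by
  rw [cuspFamily_fn, (commute_goodMonoid_cuspFn hU ε m.2).eq]
  exact hasCuspConditionAt_mul_right (hasCuspConditionAt_cuspFn hU ε hS he) _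

end General

variable {K L : Type*} [Field K] [NumberField K] [Field L] [NumberField L] {ι : K →+* L}
  {σ : L ≃+* L} {I : Ideal (𝓞 L)} {J : Ideal (𝓞 K)} {SK : ThreeSet K} {SL : ThreeSet L}

/-- A moved place prime to the level and one of the places above it. -/
structure SplitLetter (σ : L ≃+* L) (s : PlaceSection ι) (I : Ideal (𝓞 L)) (J : Ideal (𝓞 K)) where
  /-- The place. -/
  place : FinPlace K
  /-- The index of the place above. -/
  idx : Fin 3
  moved : s.Moved σ place
  notK : ¬ J ≤ place.asIdeal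
  notL : ¬ I ≤ (s.pl σ place idx).asIdeal

namespace SplitLetter

variable {s : PlaceSection ι}
  (hI : ∃ N : ℕ, 0 < N ∧ (N : 𝓞 L) ∈ I) (hJ : ∃ N : ℕ, 0 < N ∧ (N : 𝓞 K) ∈ J)
  (hSL : ∀ w ∈ SL.places, I ≤ w.asIdeal) (hSK : ∀ v ∈ SK.places, J ≤ v.asIdeal)

include hSL in
theorem notMem_L (l : SplitLetter σ s I J) : s.pl σ l.place l.idx ∉ SL.places :=
  fun h => l.notL (hSL _ h)

include hSK in
/-- The place of a letter does not lie over three. -/
theorem notMem_K (l : SplitLetter σ s I J) : l.place ∉ SK.places :=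
  fun h => l.notK (hSK _ h)

/-- The member on `L`: `T` at the chosen place above. -/
def idxL (l : SplitLetter σ s I J) : goodMonoid (Level.ofIdeal L I hI) SL :=
  heckeIdx (isGoodAt_ofIdeal hI l.notL) (l.notMem_L hSL)

/-- The member on `K`. -/
def idxK (l : SplitLetter σ s I J) : goodMonoid (Level.ofIdeal K J hJ) SK :=
  heckeIdx (isGoodAt_ofIdeal hJ l.notK) (l.notMem_K hSK)

/-- The local kernels on `L`. -/
def kerL (l : SplitLetter σ s I J) : KerFam I :=
  KerFam.single (s.pl σ l.place l.idx) (heckeKer (locIdeal_eq_top l.notL))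

/-- The local kernels on `K`. -/
def kerK (l : SplitLetter σ s I J) : KerFam J :=
  KerFam.single l.place (heckeKer (locIdeal_eq_top l.notK))

theorem kerL_hecke (l : SplitLetter σ s I J) :
    l.kerL.hecke hI = (l.idxL hI hSL : HeckeFn (Level.ofIdeal L I hI)) :=
  hecke_single_heckeKer (locIdeal_eq_top l.notL) (isGoodAt_ofIdeal hI l.notL)

theorem kerK_hecke (l : SplitLetter σ s I J) :
    l.kerK.hecke hJ = (l.idxK hJ hSK : HeckeFn (Level.ofIdeal K J hJ)) :=
  hecke_single_heckeKer (locIdeal_eq_top l.notK) (isGoodAt_ofIdeal hJ l.notK)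

end SplitLetter

variable {s : PlaceSection ι} {hI : ∃ N : ℕ, 0 < N ∧ (N : 𝓞 L) ∈ I}
  {hJ : ∃ N : ℕ, 0 < N ∧ (N : 𝓞 K) ∈ J}
  (hSL : ∀ w ∈ SL.places, I ≤ w.asIdeal) (hSK : ∀ v ∈ SK.places, J ≤ v.asIdeal)
  (hneL : SL.places.Nonempty) (hneK : SK.places.Nonempty) (ε : Fin 2)

variable (hI) in
/-- The families on `L` of a word. -/
def wordFamL : List (SplitLetter σ s I J) → KerFam I
  | [] => cuspFam hI hSL ε
  | l :: t => l.kerL * wordFamL t

variable (hJ) in
/-- The three families on `K` of a word. -/
def wordFamK : List (SplitLetter σ s I J) → Fin 3 → KerFam J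
  | [] => fun _ => cuspFam hJ hSK ε
  | l :: t => fun i => (if i = l.idx then l.kerK else 1) * wordFamK t i

variable (hI hJ) in
/-- **Compatibility of the families of a word.** -/
theorem compatible_wordFam (hm : LevelsMatch ι σ I J) (hc : IsCubic ι σ)
    (hover : ∀ w, w ∈ SL.places ↔ comapPlace ι w ∈ SK.places) :
    ∀ t : List (SplitLetter σ s I J),
      Compatible hm hc s (wordFamK hJ hSK ε t) (wordFamL hI hSL ε t)
  | [] => compatible_cuspFam hI hJ hSL hSK hm hc s hover ε
  | l :: t => (compatible_single l.moved l.idx (locIdeal_eq_top l.notL)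
      (locIdeal_eq_top l.notK)).mul (compatible_wordFam hm hc hover t)

/-- The family of a word on `L` gives the member of its product. -/
theorem wordFamL_hecke : ∀ t : List (SplitLetter σ s I J),
    (wordFamL hI hSL ε t).hecke hI = (cuspFamily (isTypeLevel_ofIdeal hI hSL) ε hneL).fn
      (t.map fun l => l.idxL hI hSL).prod
  | [] => by
    rw [wordFamL, cuspFam_hecke, cuspFamily_fn, List.map_nil, List.prod_nil, Submonoid.coe_one,
      one_mul]
  | l :: t => by
    rw [wordFamL, KerFam.hecke_mul, wordFamL_hecke t, l.kerL_hecke hI hSL, cuspFamily_fn,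
      cuspFamily_fn, List.map_cons, List.prod_cons, Submonoid.coe_mul, mul_assoc]

/-- Each family of a word on `K` gives a member. -/
theorem exists_wordFamK_hecke : ∀ (t : List (SplitLetter σ s I J)) (i : Fin 3),
    ∃ m : goodMonoid (Level.ofIdeal K J hJ) SK, (wordFamK hJ hSK ε t i).hecke hJ =
      (cuspFamily (isTypeLevel_ofIdeal hJ hSK) ε hneK).fn m
  | [], i => ⟨1, by rw [wordFamK, cuspFam_hecke, cuspFamily_fn, Submonoid.coe_one, one_mul]⟩
  | l :: t, i => by
    obtain ⟨m, hm⟩ := exists_wordFamK_hecke t i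
    by_cases h : i = l.idx
    · refine ⟨l.idxK hJ hSK * m, ?_⟩
      simp only [wordFamK, if_pos h, KerFam.hecke_mul, hm, l.kerK_hecke hJ hSK, cuspFamily_fn,
        Submonoid.coe_mul, mul_assoc]
    · exact ⟨m, by simp only [wordFamK, if_neg h, KerFam.hecke_mul, KerFam.hecke_one, one_mul, hm]⟩

/-- The product of the three families on `K` is the member of the word. -/
theorem wordFamK_hecke_prod : ∀ t : List (SplitLetter σ s I J),
    (wordFamK hJ hSK ε t 0).hecke hJ * (wordFamK hJ hSK ε t 1).hecke hJ *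
        (wordFamK hJ hSK ε t 2).hecke hJ =
      (cuspFamily (isTypeLevel_ofIdeal hJ hSK) ε hneK).fn (t.map fun l => l.idxK hJ hSK).prod
  | [] => by
    simp only [wordFamK, cuspFam_hecke, cuspFamily_fn, List.map_nil, List.prod_nil,
      Submonoid.coe_one, one_mul, cuspFn_mul_self]
  | l :: t => by
    set T : HeckeFn (Level.ofIdeal K J hJ) := (l.idxK hJ hSK : HeckeFn (Level.ofIdeal K J hJ))
    have hcom : ∀ i, Commute T ((wordFamK hJ hSK ε t i).hecke hJ) := fun i => by
      obtain ⟨m, hm⟩ := exists_wordFamK_hecke (hJ := hJ) hSK hneK ε t i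
      rw [hm, cuspFamily_fn]
      exact (commute_goodMonoid (l.idxK hJ hSK).2 m.2).mul_right
        (commute_goodMonoid_cuspFn _ ε (l.idxK hJ hSK).2)
    have hcons : ∀ i, (wordFamK hJ hSK ε (l :: t) i).hecke hJ =
        (if i = l.idx then T else 1) * (wordFamK hJ hSK ε t i).hecke hJ := fun i => by
      simp only [wordFamK, KerFam.hecke_mul]
      split_ifs
      · rw [l.kerK_hecke hJ hSK]
      · rw [KerFam.hecke_one]
    rw [hcons, hcons, hcons, List.map_cons, List.prod_cons, cuspFamily_fn, Submonoid.coe_mul,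
      mul_assoc T, ← cuspFamily_fn _ _ hneK, ← wordFamK_hecke_prod t]
    set x₀ := (wordFamK hJ hSK ε t 0).hecke hJ
    set x₁ := (wordFamK hJ hSK ε t 1).hecke hJ
    set x₂ := (wordFamK hJ hSK ε t 2).hecke hJ
    have h0 : T * x₀ = x₀ * T := (hcom 0).eq
    have h1 : T * x₁ = x₁ * T := (hcom 1).eq
    obtain h | h | h : l.idx = 0 ∨ l.idx = 1 ∨ l.idx = 2 := by omega
    · simp [h, mul_assoc]
    · simp only [h, Fin.reduceEq, if_false, if_true, one_mul]
      rw [← mul_assoc x₀ T, ← h0, mul_assoc T, mul_assoc T]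
    · simp only [h, Fin.reduceEq, if_false, if_true, one_mul]
      rw [← mul_assoc (x₀ * x₁) T, mul_assoc x₀ x₁ T, ← h1, ← mul_assoc x₀ T, ← h0,
        mul_assoc T, mul_assoc T]

variable {Λ : Type*} (part : Λ → Option (SplitLetter σ s I J))

end Fermat.Agent.LT.Descent

end
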