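import Fermat.Agent.LT.Descent.TraceEq
import Fermat.Agent.LT.Descent.Form
import Fermat.Agent.LT.Spectral.Galois

/-!
# Base data for the two sides of the trace comparison

The matched base kernels of the comparison between a cubic extension and its base field (a tent
and its threefold convolution), a weight on the extension fixed by the automorphism, and the
matching of the labels at the base field.
-/

set_option autoImplicit false

noncomputable section

open MeasureTheory
open scoped NumberField ComplexConjugate
open NumberField (InfinitePlace IsTotallyComplex)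
open Fermat.Agent.GaloisBasics
open Fermat.Agent.LT.Final (GF3)

namespace Fermat.Agent.LT.Descent

open Fermat.Agent.L2Kernel Operators
open Fermat.Agent.LT.Spectral (Weight LipKernel HeckeFamily Profile)
open Fermat.Agent.LT.CuspType (ThreeSet IsTypeLevel)

/-! ### The base kernels -/

/-- A tent around one. -/
def tentProfile : Profile where
  toFun u := max 0 (1 - |u - 1|)
  continuous := by fun_prop
  hasCompactSupport := HasCompactSupport.intro (isCompact_Icc (a := (0 : ℝ)) (b := 2))
    fun u hu => by
    refine max_eq_left ?_
    rw [Set.mem_Icc, not_and_or, not_le, not_le] at hu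
    have h1 := le_abs_self (u - 1)
    have h2 := neg_le_abs (u - 1)
    rcases hu with h | h <;> linarith

theorem tentProfile_lipschitz : LipschitzWith 1 tentProfile.toFun :=
  LipschitzWith.of_dist_le_mul fun u v => by
    rw [Real.dist_eq, Real.dist_eq, NNReal.coe_one, one_mul]
    show |max 0 (1 - |u - 1|) - max 0 (1 - |v - 1|)| ≤ |u - v|
    rw [max_comm 0, max_comm 0]
    refine (abs_max_sub_max_le_abs _ _ _).trans ?_
    rw [sub_sub_sub_cancel_left]
    refine (abs_abs_sub_abs_le_abs_sub _ _).trans (le_of_eq ?_)
    rw [sub_sub_sub_cancel_right, abs_sub_comm]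

variable (F : Type*) [Field F] [NumberField F]

/-- The tent at every place. -/
def baseUp : LipKernel F :=
  LipKernel.ofProfiles
    ⟨fun _ => tentProfile.toFun, fun _ => tentProfile.continuous,
      fun _ => tentProfile.hasCompactSupport⟩
    fun _ => ⟨1, tentProfile_lipschitz⟩

/-- The threefold convolution of the tent. -/
def baseDown : LipKernel F :=
  LipKernel.conv (baseUp F).toRadialKernel (LipKernel.conv (baseUp F).toRadialKernel (baseUp F))

variable {F}

/-- The base kernel of the extension has positive scalar. -/
theorem scalar_baseUp_pos : 0 < (baseUp F).toRadialKernel.scalar :=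
  Finset.prod_pos fun _ _ => H3.sph_pos tentProfile.continuous tentProfile.hasCompactSupport
    (fun _ => le_max_left _ _) (show max (0 : ℝ) (1 - |1 - 1|) ≠ 0 by norm_num)

/-- The base kernels are matched. -/
theorem radialMatch_base {K L : Type*} [Field K] [NumberField K] [Field L] [NumberField L]
    (p : Fin 3 → InfinitePlace L) (v : InfinitePlace K) :
    RadialMatch p v (baseUp L) (baseDown K) :=
  fun _ _ => rfl

/-- A weight fixed by the automorphism and preserved by its inverse. -/
theorem exists_upWeight [IsTotallyComplex F] {U : Level F} {σ τ : F ≃+* F} (hσ : IsStable U σ)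
    (hτ : IsStable U τ) (h : σ ^ 3 = 1) (hτσ : τ * σ = 1) :
    ∃ w : Weight U, IsFixedWeight w hσ ∧
      MeasurePreserving (galY τ U hτ) w.measure w.measure := by
  obtain ⟨w, hw, -⟩ := Spectral.exists_invariant_weight σ hσ h
  have hστ : σ * τ = 1 := by
    rw [← inv_eq_of_mul_eq_one_left hτσ, mul_inv_cancel]
  have hτ' : IsStable U τ⁻¹ := by
    rw [inv_eq_of_mul_eq_one_right hτσ]
    exact hσ
  exact ⟨w, hw, (IsFixedWeight.symm hw hτ hστ).measurePreserving hτ'⟩

/-! ### The sides -/

section Sides

variable {K L : Type} [Field K] [NumberField K] [Field L] [NumberField L] [IsTotallyComplex K]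
  [IsTotallyComplex L] {UK : Level K} {UL : Level L} {SK : ThreeSet K} {SL : ThreeSet L}
  (hUL : IsTypeLevel SL UL) (hUK : IsTypeLevel SK UK) (ε : Fin 2) (hSL : SL.places.Nonempty)
  (hSK : SK.places.Nonempty) {π : Type} (p : Fin 3 → InfinitePlace L) (v : InfinitePlace K)
  (jL : π → Fin 3 → goodMonoid UL SL) (jK : π → goodMonoid UK SK)

variable {σ τ : L ≃+* L} {hσ : IsStable UL σ} {wL : Weight UL} {wK : Weight UK}
  {M : goodMonoid UL SL → goodMonoid UK SK → Prop}

end Sides

/-- The labels of `EisField` are labels of a base field. -/
theorem labK_eq_labDown {S : ThreeSet EisField} {N : ℕ} {hN : 0 < N} {ρ : GalQ →* GF3}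
    {T : Finset ℕ} (h3 : 3 ∣ N) :
    labK S hN ρ T h3 = labDown default fun P => goodIdx S hN h3 (v := splitPlace P) P.2.2.2.1 :=
  funext fun l => by rcases l with ⟨P | k, i⟩ <;> rfl

end Fermat.Agent.LT.Descent
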