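import Fermat.Agent.LT.Descent.GalMeasure
import Fermat.Agent.LT.Spectral.Labels
import Fermat.Agent.LT.Kernel.TraceForm
import Fermat.Agent.LT.Geometric.CutoffFinite

/-!
# The trace of a word as the integral of the twisted diagonal of a single test

For an automorphism `σ` with inverse `τ`, the trace of `galY τ ∘ word ∘ a` against `b` is the
integral over the weight of `∑' δ, term σ δ` of the product test.
-/

set_option autoImplicit false

noncomputable section

open MeasureTheory
open scoped NumberField ENNReal
open NumberField (InfinitePlace IsTotallyComplex)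

namespace Fermat.Agent.LT.Descent

open Fermat.Agent.L2Kernel Operators
open Fermat.Agent.LT.Spectral (Weight LipKernel HeckeFamily)

variable {F : Type*} [Field F] [NumberField F] {U : Level F}

/-- Hecke functions with the same operator are equal. -/
theorem heckeFn_ext_op {f g : HeckeFn U} (h : ∀ φ : Y U → ℂ, f.op φ = g.op φ) : f = g := by
  classical
  refine HeckeFn.ext_kernel fun a b => ?_
  have key : ∀ k : HeckeFn U,
      k.op (fun y => if y.2 = b then 1 else 0) (fun _ => H3.origin, a) = k.kernel a b := fun k => by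
    rw [HeckeFn.op, finsum_eq_single _ b]
    · rw [if_pos rfl, mul_one]
    · intro c hc
      rw [if_neg (show ¬ (((fun _ => H3.origin), c) : Y U).2 = b from hc), mul_zero]
  rw [← key f, h, key g]

theorem pairKer_congr {k k' : Kernel.PointKer F} (h : ∀ P Q, k.toFun P Q = k'.toFun P Q)
    (f : HeckeFn U) : Kernel.pairKer k f = Kernel.pairKer k' f := by
  funext x y
  rw [Kernel.pairKer, Kernel.pairKer, h]

theorem autKer_congr {k k' : Kernel.PointKer F} (h : ∀ P Q, k.toFun P Q = k'.toFun P Q)
    (f : HeckeFn U) : Kernel.autKer k f = Kernel.autKer k' f := by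
  funext x y
  simp only [Kernel.autKer, pairKer_congr h]

variable {ι : Type*} (H : HeckeFamily U ι)

theorem fn_mul (i j : ι) : H.fn (H.mul i j) = H.fn i * H.fn j :=
  heckeFn_ext_op fun φ => by rw [H.mul_op, HeckeFn.op_mul]

theorem pointKer_conv (k l : LipKernel F) (P Q : InfinitePlace F → H3) :
    (k.pointKer.comp l.pointKer).toFun P Q =
      (LipKernel.conv k.toRadialKernel l).pointKer.toFun P Q := by
  show (∫ R, (k.weight P R : ℂ) * (l.weight R Q : ℂ) ∂infVol F) =
    (((Spectral.convKernel k.toRadialKernel l.toRadialKernel).weight P Q : ℝ) : ℂ)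
  rw [← Spectral.integral_weight_mul_weight, ← integral_complex_ofReal]
  simp only [Complex.ofReal_mul]

variable [IsTotallyComplex F] (w : Weight U)

/-- The trace of two tests twisted by a measure-preserving map. -/
theorem hsTrace_opT (a b : LipKernel F × ι) {s : Y U → Y U}
    (hs : MeasurePreserving s w.measure w.measure) {κ : Type*}
    (e : HilbertBasis κ ℂ (Lp ℂ 2 w.measure)) :
    hsTrace e (compCLM hs ∘L H.opT w a) (H.opT w b) =
      ∫ y, w.weight y • H.ker (H.mulTest a b) (s y, y) ∂yVol U := by
  rw [HeckeFamily.opT, HeckeFamily.opT]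
  refine (Kernel.hsTrace_autKer w.toPartitionOfUnity w.measurable a.1.pointKer b.1.pointKer
    (H.fn a.2) (H.fn b.2) hs (H.isKernel w a) (H.isKernel w b) e).trans ?_
  show (∫ y, w.weight y • _ ∂yVol U) = _
  simp only [HeckeFamily.ker, HeckeFamily.mulTest, fn_mul,
    autKer_congr (pointKer_conv a.1 b.1)]

omit [IsTotallyComplex F] in
/-- The twisted diagonal in the terms of the geometric side. -/
theorem integral_diag_eq_term (k : Kernel.PointKer F) (h : HeckeFn U) {σ τ : F ≃+* F}
    {hσ : IsStable U σ} (hτ : IsStable U τ) (hτσ : τ * σ = 1)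
    (hw : IsFixedWeight w hσ) :
    ∫ y, w.weight y • Kernel.autKer k h (galY τ U hτ y) y ∂yVol U =
      ∫ x, w.weight x • ∑' δ, Geometric.term σ hσ k h δ x ∂yVol U := by
  have hσ' : IsStable U σ⁻¹ := by rw [inv_eq_of_mul_eq_one_left hτσ]; exact hτ
  have hmp := measurePreserving_galY hσ hσ'
  have hτ' : IsStable U τ⁻¹ := by rw [inv_eq_of_mul_eq_one_right hτσ]; exact hσ
  have hm := measurePreserving_galY hτ hτ'
  let e : Y U ≃ᵐ Y U :=
    { toFun := galY σ U hσ
      invFun := galY τ U hτ
      left_inv := galY_inv_galY hτ hσ hτσ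
      right_inv := galY_inv_galY hσ hτ (by rw [← inv_eq_of_mul_eq_one_right hτσ, inv_mul_cancel])
      measurable_toFun := hmp.measurable
      measurable_invFun := hm.measurable }
  refine (MeasurePreserving.integral_comp (f := e) hmp e.measurableEmbedding
    (fun y => w.weight y • Kernel.autKer k h (galY τ U hτ y) y)).symm.trans ?_
  refine integral_congr_ae (Filter.Eventually.of_forall fun x => ?_)
  show w.weight (galY σ U hσ x) • Kernel.autKer k h (galY τ U hτ (galY σ U hσ x))
    (galY σ U hσ x) = _
  rw [galY_inv_galY hτ hσ hτσ, hw]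
  rfl

variable {Λ : Type*} (lab : Λ → Spectral.Label F ι)

/-- The single test of a word between two tests. -/
def traceTest (a b : LipKernel F × ι) (t : FreeMonoid Λ) : LipKernel F × ι :=
  H.mulTest (H.wordTest lab t a) b

/-- The twisted trace of a word. -/
theorem hsTrace_word {σ τ : F ≃+* F} {hσ : IsStable U σ}
    (hτ : IsStable U τ) (hτσ : τ * σ = 1) (hw : IsFixedWeight w hσ)
    (hs : MeasurePreserving (galY τ U hτ) w.measure w.measure)
    (a b : LipKernel F × ι) {κ : Type*} (e : HilbertBasis κ ℂ (Lp ℂ 2 w.measure))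
    (t : FreeMonoid Λ) :
    hsTrace e (compCLM hs ∘L
        (wordOp (H.fullOp w) (fun l => Sum.inr (lab l)) t ∘L H.fullOp w (Sum.inl a)))
        (H.fullOp w (Sum.inl b)) =
      ∫ x, w.weight x • ∑' δ, Geometric.term σ hσ (traceTest H lab a b t).1.pointKer
        (H.fn (traceTest H lab a b t).2) δ x ∂yVol U := by
  show hsTrace e (compCLM hs ∘L (wordOp (H.fullOp w) _ t ∘L H.opT w a)) (H.opT w b) = _
  rw [H.wordOp_comp_opT, hsTrace_opT]
  exact integral_diag_eq_term w _ _ hτ hτσ hw

/-- The untwisted trace of a word. -/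
theorem hsTrace_word_refl (a b : LipKernel F × ι) {κ : Type*}
    (e : HilbertBasis κ ℂ (Lp ℂ 2 w.measure)) (t : FreeMonoid Λ) :
    hsTrace e (1 ∘L
        (wordOp (H.fullOp w) (fun l => Sum.inr (lab l)) t ∘L H.fullOp w (Sum.inl a)))
        (H.fullOp w (Sum.inl b)) =
      ∫ x, w.weight x • ∑' δ, Geometric.term (RingEquiv.refl F) (Geometric.refl_stable U)
        (traceTest H lab a b t).1.pointKer (H.fn (traceTest H lab a b t).2) δ x ∂yVol U := by
  have h1 : IsStable U (1 : F ≃+* F) := Geometric.refl_stable U
  have hs : MeasurePreserving (galY (1 : F ≃+* F) U h1) w.measure w.measure := by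
    rw [show galY (1 : F ≃+* F) U h1 = id from funext (galY_one h1)]
    exact MeasurePreserving.id _
  have hid : compCLM hs = 1 := by
    refine ContinuousLinearMap.ext fun g => Lp.ext ?_
    filter_upwards [compCLM_coe hs g] with y hy
    rw [hy, galY_one]
    rfl
  have h := hsTrace_word H w lab (σ := 1) (hσ := h1) h1 (one_mul 1)
    (fun y => by rw [galY_one]) hs a b e t
  rw [hid] at h
  exact h

end Fermat.Agent.LT.Descent
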