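import Fermat.Agent.LT.Operators.Separation
import Mathlib.Algebra.Group.Hom.Defs

/-!
# Transfer of a system of eigenvalues by equality of traces

`T` is a monoid of labels of matched tests. If the two spectral expansions agree on every label
and the class of `z` has nonzero total weight on the first side, then some spectral index of the
second side has nonzero weight and the system `z`.
-/

set_option autoImplicit false

noncomputable section

open scoped ComplexConjugate

namespace Fermat.Agent.LT.Descent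

open Operators

variable {α β T : Type*} [Monoid T]

/-- Systems on `T` bounded by `M` and compatible with the involution `inv`. -/
def IsSystem (M : T → ℝ) (inv : T → T) (x : T →* ℂ) : Prop :=
  (∀ t, ‖x t‖ ≤ M t) ∧ ∀ t, x (inv t) = conj (x t)

/-- **Transfer.** -/
theorem exists_transfer {M : T → ℝ} {inv : T → T} {a : α → ℂ} {b : β → ℂ} {x : α → T →* ℂ}
    {y : β → T →* ℂ} (hx : ∀ i, a i ≠ 0 → IsSystem M inv (x i))
    (hy : ∀ j, b j ≠ 0 → IsSystem M inv (y j)) (ha : Summable fun i => ‖a i‖)
    (hb : Summable fun j => ‖b j‖)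
    (htr : ∀ t, ∑' i, a i * x i t = ∑' j, b j * y j t) {z : T →* ℂ} (hz : IsSystem M inv z)
    (hne : ∑' i, {i | x i = z}.indicator a i ≠ 0) :
    ∃ j, b j ≠ 0 ∧ y j = z := by
  classical
  let Λ : Type _ := {w : T →* ℂ // IsSystem M inv w}
  let ev : T →* (Λ → ℂ) :=
    { toFun := fun t w => w.1 t
      map_one' := funext fun w => map_one w.1
      map_mul' := fun s t => funext fun w => map_mul w.1 s t }
  have hexx : ∀ i, ∃ w : Λ, a i ≠ 0 → w.1 = x i := fun i =>
    if h : a i = 0 then ⟨⟨z, hz⟩, fun h' => absurd h h'⟩ else ⟨⟨x i, hx i h⟩, fun _ => rfl⟩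
  have hexy : ∀ j, ∃ w : Λ, b j ≠ 0 → w.1 = y j := fun j =>
    if h : b j = 0 then ⟨⟨z, hz⟩, fun h' => absurd h h'⟩ else ⟨⟨y j, hy j h⟩, fun _ => rfl⟩
  choose x' hx' using hexx
  choose y' hy' using hexy
  have ex : ∀ i t, a i * (x' i).1 t = a i * x i t := fun i t => by
    by_cases h : a i = 0
    · simp [h]
    · rw [hx' i h]
  have ey : ∀ j t, b j * (y' j).1 t = b j * y j t := fun j t => by
    by_cases h : b j = 0
    · simp [h]
    · rw [hy' j h]
  have key := tsum_system_eq (MonoidHom.mrange ev)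
    (by rintro _ ⟨t, rfl⟩; exact ⟨M t, fun w => w.2.1 t⟩)
    (by rintro _ ⟨t, rfl⟩; exact ⟨inv t, funext fun w => w.2.2 t⟩)
    (x := x') (y := y') ha hb
    (by
      rintro _ ⟨t, rfl⟩
      show ∑' i, a i * (x' i).1 t = ∑' j, b j * (y' j).1 t
      simp only [ex, ey]
      exact htr t)
    ⟨z, hz⟩
  have hcls : ∀ w : Λ, (∀ f ∈ MonoidHom.mrange ev, f w = f ⟨z, hz⟩) ↔ w.1 = z := fun w =>
    ⟨fun h => MonoidHom.ext fun t => h _ ⟨t, rfl⟩, fun h => by
      rw [show w = ⟨z, hz⟩ from Subtype.ext h]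
      exact fun f _ => rfl⟩
  have hl : ∀ i, {i | ∀ f ∈ MonoidHom.mrange ev, f (x' i) = f ⟨z, hz⟩}.indicator a i =
      {i | x i = z}.indicator a i := fun i => by
    by_cases h : a i = 0
    · simp [Set.indicator, h]
    · by_cases hm : x i = z
      · have hmem : ∀ f ∈ MonoidHom.mrange ev, f (x' i) = f ⟨z, hz⟩ :=
          (hcls _).mpr ((hx' i h).trans hm)
        rw [Set.indicator_of_mem (s := {i | x i = z}) hm]
        exact Set.indicator_of_mem (s := {i | ∀ f ∈ MonoidHom.mrange ev, f (x' i) = f ⟨z, hz⟩})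
          hmem _
      · rw [Set.indicator_of_notMem (s := {i | x i = z}) hm]
        exact Set.indicator_of_notMem (s := {i | ∀ f ∈ MonoidHom.mrange ev, f (x' i) = f ⟨z, hz⟩})
          (fun hc => hm ((hx' i h).symm.trans ((hcls _).mp hc))) _
  rw [tsum_congr hl] at key
  rw [key] at hne
  by_contra hcon
  apply hne
  refine (tsum_congr fun j => ?_).trans tsum_zero
  rw [Set.indicator_apply_eq_zero]
  intro hmem
  by_contra hbj
  exact hcon ⟨j, hbj, (hy' j hbj).symm.trans ((hcls _).mp hmem)⟩

end Fermat.Agent.LT.Descent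

end
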